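import Fermat.Agent.CFT.Local.Global
import Fermat.Agent.CFT.Local.Residue
import Fermat.Agent.CFT.Idele.Values

/-!
# Decomposition groups at finite level are generated by Frobenius and inertia
-/

set_option autoImplicit false
set_option linter.style.haveILetI false

noncomputable section

namespace Fermat.Agent.CFT.Idele

open Fermat.Agent.Arith

open scoped Pointwise

/-- At finite level a decomposition group is generated by Frobenius and inertia. -/
theorem exists_frobenius_mul_inertia {q : ℕ} [Fact q.Prime] (L : IntermediateField ℚ QBar)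
    [Normal ℚ L] [FiniteDimensional ℚ L] {F : GQ} (hF : (padicPlace q).IsFrobeniusAt F q)
    {σ : GQ} (hσ : σ ∈ (padicPlace q).decompositionSubgroup ℚ) :
    ∃ i : ℕ, ∃ τ ∈ (padicPlace q).inertiaSubgroupIn ℚ, ∀ x ∈ L, σ x = (F ^ i * τ) x := by
  set E := Local.localField q L with hE
  obtain ⟨hstab, -⟩ := isFrobeniusAt_iff_forall_mem.mp hF
  have hcomm : ∀ (g : GQ) (x : L), ((AlgEquiv.restrictNormalHom L g x : L) : QBar) = g (x : QBar) :=
    fun g x => AlgEquiv.restrictNormal_commutes g L x
  obtain ⟨s, hs⟩ := (Local.mem_range_toGlobal_iff q L (AlgEquiv.restrictNormalHom L F)).mpr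
    fun x hx => by rw [hcomm]; exact map_mem_of_mem_decomposition hstab hx
  obtain ⟨t, ht⟩ := (Local.mem_range_toGlobal_iff q L (AlgEquiv.restrictNormalHom L σ)).mpr
    fun x hx => by rw [hcomm]; exact map_mem_of_mem_decomposition hσ hx
  have hfrob := Local.resAut_eq_frobenius q L hF s hs
  obtain ⟨i, hi⟩ := (FiniteField.bijective_frobeniusAlgEquivOfAlgebraic_pow (ZMod q)
    (Local.ResField E)).2 (Local.resAut E t)
  have hin : (s ^ (i : ℕ))⁻¹ * t ∈ Local.inertia E := by
    show Local.resAut E _ = 1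
    rw [map_mul, map_inv, map_pow, hfrob, inv_mul_eq_one]
    exact hi
  obtain ⟨τ, hτ, hτeq⟩ := Local.exists_inertia_of_mem_inertia q L hin
  refine ⟨i, τ, hτ, fun x hx => ?_⟩
  have h2 : AlgEquiv.restrictNormalHom L σ = AlgEquiv.restrictNormalHom L (F ^ (i : ℕ) * τ) := by
    rw [map_mul, map_pow, hτeq, map_mul, map_inv, map_pow, hs, ht, mul_inv_cancel_left]
  rw [← hcomm σ ⟨x, hx⟩, h2, hcomm]

/-- If inertia at `padicPlace q` fixes `L` and `σ` is a Frobenius there, every local automorphism
acts on `L` as a power of `σ`. -/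
theorem exists_pow_restrict_eq {q : ℕ} [Fact q.Prime] (L : IntermediateField ℚ QBar)
    [Normal ℚ L] [FiniteDimensional ℚ L]
    (hin : ∀ g ∈ (padicPlace q).inertiaSubgroupIn ℚ, ∀ x : L, g (x : QBar) = (x : QBar))
    {σ : GQ} (hσ : (padicPlace q).IsFrobeniusAt σ q)
    (τ : PadicAlgCl q ≃ₐ[ℚ_[q]] PadicAlgCl q) :
    ∃ i : ℕ, AlgEquiv.restrictNormalHom L (localGaloisToGlobal q τ) =
      AlgEquiv.restrictNormalHom L σ ^ i := by
  obtain ⟨i, t, ht, he⟩ :=
    exists_frobenius_mul_inertia L hσ (localGaloisToGlobal_mem_decompositionSubgroup q τ)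
  refine ⟨i, AlgEquiv.ext fun x => Subtype.ext ?_⟩
  rw [← map_pow]
  refine (AlgEquiv.restrictNormal_commutes _ L x).trans (((he x x.2).trans ?_).trans
    (AlgEquiv.restrictNormal_commutes (σ ^ i) L x).symm)
  exact congrArg (σ ^ i) (hin t ht x)

end Fermat.Agent.CFT.Idele
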