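import Fermat.Agent.CFT.Idele.FirstInequality
import Fermat.Agent.CFT.Coh.H2

/-!
# The class field axioms from the two inequalities
-/

set_option autoImplicit false
set_option linter.style.haveILetI false

noncomputable section

namespace Fermat.Agent.CFT.Idele

open Fermat.Agent.Arith IntermediateField

variable (L : IntermediateField ℚ QBar) [FiniteDimensional ℚ L] [Normal ℚ L]

/-- The second inequality for the steps of index `p` in `Gal(L/ℚ)`. -/
def SecondIneq (p : ℕ) : Prop :=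
  ∀ (H K : Subgroup (L ≃ₐ[ℚ] L)) (g : L ≃ₐ[ℚ] L), CFT.IsStep p H K g →
    ∃ x₀ ∈ fixedBy H (ClassGrp L), ∀ x ∈ fixedBy H (ClassGrp L),
      ∃ m : ℤ, ∃ b ∈ fixedBy K (ClassGrp L), x = x₀ ^ m * ∏ i ∈ Finset.range p, g ^ i • b

variable {L} {p : ℕ} [hp : Fact p.Prime] {H K : Subgroup (L ≃ₐ[ℚ] L)} {g : L ≃ₐ[ℚ] L}

omit [Normal ℚ ↥L] in
theorem step_of_isStep (hs : CFT.IsStep p H K g) : Step p H K g :=
  Step.of_isPGroup hs.le hs.mem hs.notMem hs.isPGroup hs.relIndex

omit [FiniteDimensional ℚ L] [Normal ℚ L] in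
/-- A `p`-group fixes the `p`-th roots of unity. -/
theorem fixes_zeta [FiniteDimensional ℚ L] {ζ : L} (hζ : IsPrimitiveRoot ζ p)
    (hH : IsPGroup p H) : ∀ h ∈ H, h ζ = ζ := by
  intro h hh
  haveI : NeZero p := ⟨hp.out.ne_zero⟩
  set χ := hζ.autToPow ℚ
  obtain ⟨k, hk⟩ := hH ⟨h, hh⟩
  have hk' : h ^ p ^ k = 1 := congrArg Subtype.val hk
  have h1 : χ h ^ p ^ k = 1 := by rw [← map_pow, hk', map_one]
  have h2 : χ h ^ (p - 1) = 1 := ZMod.units_pow_card_sub_one_eq_one p _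
  have hco : Nat.Coprime (p ^ k) (p - 1) := by
    refine Nat.Coprime.pow_left k ((hp.out.coprime_iff_not_dvd).2 fun hd => ?_)
    have := hp.out.two_le
    exact absurd (Nat.le_of_dvd (by omega) hd) (by omega)
  have h3 : χ h = 1 := by
    have := (pow_gcd_eq_one (m := p ^ k) (n := p - 1)).2 ⟨h1, h2⟩
    rwa [hco.gcd_eq_one, pow_one] at this
  have h4 := hζ.autToPow_spec ℚ h
  rw [show hζ.autToPow ℚ h = χ h from rfl, h3, Units.val_one, ZMod.val_one, pow_one] at h4
  exact h4.symm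

/-- A generator whose `p`-th power lies in the subgroup bounds the index by `p`. -/
theorem relIndex_le_of_generator {A : Type*} [CommGroup A] {S T : Subgroup A} {n : ℕ} (hn : 0 < n)
    {a : A} (han : a ^ n ∈ S) (h : ∀ x ∈ T, ∃ m : ℤ, (a ^ m)⁻¹ * x ∈ S) :
    S.relIndex T ≤ n := by
  have e : T ≤ Subgroup.zpowers a ⊔ S := fun x hx => by
    obtain ⟨m, hm⟩ := h x hx
    rw [← mul_inv_cancel_left (a ^ m) x]
    exact Subgroup.mul_mem_sup ⟨m, rfl⟩ hm
  have hsurj : Function.Surjective (fun i : Fin n =>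
      (QuotientGroup.mk ⟨a ^ (i : ℕ), Subgroup.npow_mem_zpowers a i⟩ :
        Subgroup.zpowers a ⧸ S.subgroupOf (Subgroup.zpowers a))) := fun y => by
    obtain ⟨⟨_, m, rfl⟩, rfl⟩ := QuotientGroup.mk_surjective y
    have hn' : (n : ℤ) ≠ 0 := by exact_mod_cast hn.ne'
    refine ⟨⟨(m % n).toNat, ?_⟩, QuotientGroup.eq.2 ?_⟩
    · have := Int.emod_lt_of_pos m (b := (n : ℤ)) (by omega)
      have := Int.emod_nonneg m hn'
      omega
    · rw [Subgroup.mem_subgroupOf]
      show (a ^ (m % n).toNat)⁻¹ * a ^ m ∈ S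
      rw [← zpow_natCast, Int.toNat_of_nonneg (Int.emod_nonneg m hn'), ← zpow_neg, ← zpow_add,
        show -(m % n) + m = (n : ℤ) * (m / n) by rw [Int.emod_def]; ring, zpow_mul, zpow_natCast]
      exact Subgroup.zpow_mem _ han _
  haveI := Finite.of_surjective _ hsurj
  have hne : S.relIndex (Subgroup.zpowers a ⊔ S) ≠ 0 := by
    rw [Subgroup.relIndex_sup_right]; exact Nat.card_pos.ne'
  refine (Subgroup.relIndex_le_of_le_right e hne).trans ?_
  rw [Subgroup.relIndex_sup_right]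
  exact (Nat.card_le_card_of_surjective _ hsurj).trans_eq (Nat.card_fin n)

omit [FiniteDimensional ℚ ↥L] in
/-- The classes fixed by `H` modulo norms have exponent `p` and one generator: index at most `p`. -/
theorem ind0_le_of_generator (st : Step p H K g) (hg : ∃ x₀ ∈ fixedBy H (ClassGrp L),
    ∀ x ∈ fixedBy H (ClassGrp L),
      ∃ m : ℤ, ∃ b ∈ fixedBy K (ClassGrp L), x = x₀ ^ m * ∏ i ∈ Finset.range p, g ^ i • b) :
    ind0 (dStep (ClassGrp L) st) (nStep (ClassGrp L) st) ≤ p := by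
  obtain ⟨x₀, hx₀, hgen⟩ := hg
  set d := dStep (ClassGrp L) st
  set N := nStep (ClassGrp L) st
  have hx₀K : x₀ ∈ fixedBy K (ClassGrp L) := fixedBy_anti st.le hx₀
  refine relIndex_le_of_generator hp.out.pos (a := ⟨x₀, hx₀K⟩) ?_ fun x hx => ?_
  · refine ⟨⟨x₀, hx₀K⟩, Subtype.ext ?_⟩
    rw [nStep_coe, SubmonoidClass.coe_pow]
    have : ∀ i : ℕ, g ^ i • x₀ = x₀ := fun i => hx₀ _ (pow_mem st.mem i)
    simp [this]
  · obtain ⟨m, b, hb, e⟩ := hgen (x : ClassGrp L)
      (st.mem_fixedBy_iff.2 ⟨x.2, (mem_ker_dStep st).1 hx⟩)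
    refine ⟨m, ⟨b, hb⟩, Subtype.ext ?_⟩
    rw [nStep_coe, Subgroup.coe_mul, InvMemClass.coe_inv, SubgroupClass.coe_zpow, e,
      inv_mul_cancel_left]

omit [FiniteDimensional ℚ L] in
omit [Normal ℚ ↥L] in
theorem toMul_sum' (s : Finset ℕ) (f : ℕ → C L) :
    ((∑ i ∈ s, f i).toMul : ClassGrp L) = ∏ i ∈ s, ((f i).toMul : ClassGrp L) := by
  induction s using Finset.cons_induction with
  | empty => rfl
  | cons a s ha ih => rw [Finset.sum_cons, Finset.prod_cons, ← ih]; rfl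

/-- The class field axioms, given the second inequality. -/
theorem stepAxioms_of_secondIneq (hp2 : p ≠ 2) {ζ : L} (hζ : IsPrimitiveRoot ζ p)
    (h2 : SecondIneq L p) : CFT.StepAxioms p (L ≃ₐ[ℚ] L) (C L) := by
  refine ⟨fun H K g hs a ha hN => ?_, fun H K g hs => ?_⟩
  · have st := step_of_isStep hs
    obtain ⟨h1, h0⟩ := first_inequality st hp2 hζ (fixes_zeta hζ hs.isPGroup)
    have hle := ind0_le_of_generator st (h2 H K g hs)
    rw [h1] at hle
    have hone : ind0 (nStep (ClassGrp L) st) (dStep (ClassGrp L) st) = 1 := by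
      have := Nat.le_of_mul_le_mul_left (hle.trans_eq (mul_one p).symm) hp.out.pos
      omega
    have ha' : a.toMul ∈ fixedBy K (ClassGrp L) := fun k hk => congrArg Additive.toMul (ha k hk)
    obtain ⟨b, hb⟩ := Subgroup.relIndex_eq_one.1 hone (x := ⟨a.toMul, ha'⟩) (Subtype.ext (by
      rw [nStep_coe]
      have := congrArg Additive.toMul hN
      rw [CFT.stepNorm, toMul_sum'] at this
      exact this))
    exact ⟨Additive.ofMul (b : ClassGrp L), fun k hk => congrArg Additive.ofMul (b.2 k hk),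
      congrArg (fun z : fixedBy K (ClassGrp L) => Additive.ofMul (z : ClassGrp L)) hb⟩
  · obtain ⟨x₀, hx₀, hgen⟩ := h2 H K g hs
    refine ⟨Additive.ofMul x₀, fun h hh => congrArg Additive.ofMul (hx₀ h hh), fun x hx => ?_⟩
    obtain ⟨m, b, hb, e⟩ := hgen x.toMul fun h hh => congrArg Additive.toMul (hx h hh)
    refine ⟨m, Additive.ofMul b, fun k hk => congrArg Additive.ofMul (hb k hk),
      Additive.toMul.injective ?_⟩
    rw [e, toMul_add, CFT.stepNorm, toMul_sum']
    rfl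

end Fermat.Agent.CFT.Idele
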