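import Fermat.Agent.CFT.Idele.NormGenerator
import Fermat.Agent.CFT.Idele.Axioms

/-!
# The second inequality and the class field axioms

A step `K < H` of index `p` with `ζ` fixed by `H` is cut out by a `p`-th root.
-/

set_option autoImplicit false
set_option linter.style.haveILetI false

noncomputable section

namespace Fermat.Agent.CFT.Idele

open ExtCitation Fermat.Agent.Arith IntermediateField

local instance factPrimeSecondIneq (q : Nat.Primes) : Fact (q : ℕ).Prime := ⟨q.2⟩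

variable (L : IntermediateField ℚ QBar) [FiniteDimensional ℚ L] [Normal ℚ L]

/-- The subfield of `ℚ̄` fixed by `H`. -/
def fixedQ (H : Subgroup (L ≃ₐ[ℚ] L)) : IntermediateField ℚ QBar :=
  (IntermediateField.fixedField H).map L.val

variable {L}

omit [FiniteDimensional ℚ ↥L] [Normal ℚ ↥L] in
theorem fixedQ_le (H : Subgroup (L ≃ₐ[ℚ] L)) : fixedQ L H ≤ L := by
  rintro _ ⟨y, -, rfl⟩; exact y.2

instance finiteDimensional_fixedQ (H : Subgroup (L ≃ₐ[ℚ] L)) :
    FiniteDimensional ℚ (fixedQ L H) :=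
  FiniteDimensional.of_injective (IntermediateField.inclusion (fixedQ_le H)).toLinearMap
    (IntermediateField.inclusion (fixedQ_le H)).injective

omit [FiniteDimensional ℚ ↥L] [Normal ℚ ↥L] in
theorem mem_fixedQ {H : Subgroup (L ≃ₐ[ℚ] L)} (y : L) :
    (y : QBar) ∈ fixedQ L H ↔ ∀ h ∈ H, h y = y := by
  rw [← IntermediateField.mem_fixedField_iff]
  constructor
  · rintro ⟨z, hz, e⟩
    rwa [show y = z from Subtype.ext e.symm]
  · exact fun h => ⟨y, h, rfl⟩

theorem mem_fixingSubgroup_fixedQ {H : Subgroup (L ≃ₐ[ℚ] L)} {s : GQ} :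
    s ∈ (fixedQ L H).fixingSubgroup ↔ res L s ∈ H := by
  rw [IntermediateField.mem_fixingSubgroup_iff]
  constructor
  · intro h
    rw [← IntermediateField.fixingSubgroup_fixedField H, IntermediateField.mem_fixingSubgroup_iff]
    exact fun y hy => Subtype.ext ((res_apply L s y).trans (h _ ⟨y, hy, rfl⟩))
  · rintro h _ ⟨y, hy, rfl⟩
    exact (res_apply L s y).symm.trans
      (congrArg Subtype.val ((IntermediateField.mem_fixedField_iff _ _).mp hy _ h))

theorem map_fixingSubgroup_fixedQ (H : Subgroup (L ≃ₐ[ℚ] L)) :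
    (fixedQ L H).fixingSubgroup.map (res L) = H := by
  refine le_antisymm ?_ fun h hh => ?_
  · rintro _ ⟨s, hs, rfl⟩; exact mem_fixingSubgroup_fixedQ.mp hs
  · exact ⟨lift L h, mem_fixingSubgroup_fixedQ.mpr (by rwa [res_lift]), res_lift L h⟩

variable {p : ℕ} [hp : Fact p.Prime] {H K : Subgroup (L ≃ₐ[ℚ] L)} {g : L ≃ₐ[ℚ] L}

omit [Normal ℚ ↥L] in
/-- A Lagrange resolvent: an element of the fixed field of `K` which `g` multiplies by `ζ`. -/
theorem exists_resolvent (st : Step p H K g) {ζ : L} (hζ : IsPrimitiveRoot ζ p)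
    (hH : ∀ h ∈ H, h ζ = ζ) :
    ∃ a : L, a ≠ 0 ∧ (∀ k ∈ K, k a = a) ∧ g a = ζ * a := by
  set F := IntermediateField.fixedField K
  let χ : Fin p → F →* L := fun i =>
    MonoidHomClass.toMonoidHom (((g ^ (i : ℕ) : L ≃ₐ[ℚ] L) : L →ₐ[ℚ] L).comp F.val)
  have key : ∀ i j : Fin p, (j : ℕ) ≤ i → χ i = χ j → i = j := fun i j hle h =>
    Fin.ext (st.eq_of_pow_div_mem i.2 hle (by
      rw [← IntermediateField.fixingSubgroup_fixedField K, IntermediateField.mem_fixingSubgroup_iff]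
      intro x hx
      rw [AlgEquiv.mul_apply, show (g ^ (i : ℕ)) x = (g ^ (j : ℕ)) x from
        DFunLike.congr_fun h ⟨x, hx⟩]
      exact (g ^ (j : ℕ)).symm_apply_apply x))
  have hinj : Function.Injective χ := fun i j h => (le_total (j : ℕ) i).elim (key i j · h)
    fun hle => (key j i hle h.symm).symm
  obtain ⟨x, hx, hR⟩ : ∃ x ∈ F, ∑ i ∈ Finset.range p, (ζ ^ i)⁻¹ * (g ^ i) x ≠ 0 := by
    by_contra! hne
    have h0 := Fintype.linearIndependent_iff.mp ((linearIndependent_monoidHom F L).comp χ hinj)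
      (fun i => (ζ ^ (i : ℕ))⁻¹) (funext fun x => by
        simpa [χ, Finset.sum_range] using hne x x.2) ⟨0, hp.out.pos⟩
    simp at h0
  rw [IntermediateField.mem_fixedField_iff] at hx
  refine ⟨_, hR, fun k hk => ?_, ?_⟩
  · simp only [map_sum, map_mul, map_inv₀, map_pow, hH k (st.le hk)]
    refine Finset.sum_congr rfl fun i _ => ?_
    conv_rhs => rw [← hx _ (st.pow_conj i k hk), AlgEquiv.mul_apply, AlgEquiv.mul_apply]
    congr 1
    exact ((g ^ i).apply_symm_apply _).symm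
  · have e1 := Finset.sum_range_succ (fun i => (ζ ^ i)⁻¹ * (g ^ i) x) p
    rw [Finset.sum_range_succ', hζ.pow_eq_one, hx _ st.pow_mem, pow_zero, pow_zero,
      AlgEquiv.one_apply] at e1
    conv_rhs => rw [← add_right_cancel e1]
    rw [Finset.mul_sum, map_sum]
    simp only [map_mul, map_inv₀, map_pow, hH g st.mem]
    refine Finset.sum_congr rfl fun i _ => ?_
    rw [← AlgEquiv.mul_apply, ← pow_succ', pow_succ' ζ]
    have hζ0 : ζ ≠ 0 := hζ.ne_zero hp.out.ne_zero
    field_simp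

/-- The `p`-th power of a resolvent lies in the fixed field of `H`, and `g` has Kummer value one
on it. -/
theorem resolvent_pow_kum (st : Step p H K g) {ζ : L} (hζ : IsPrimitiveRoot ζ p)
    (hH : ∀ h ∈ H, h ζ = ζ) {a : L} (ha0 : a ≠ 0) (haK : ∀ k ∈ K, k a = a) (hga : g a = ζ * a)
    (hζ' : IsPrimitiveRoot (ζ : QBar) p) :
    lift L g ∈ (fixedQ L H).fixingSubgroup ∧ (a : QBar) ^ p ∈ fixedQ L H ∧
      kum hζ' (lift L g) ((a : QBar) ^ p) = 1 := by
  have hg₀ : lift L g ∈ (fixedQ L H).fixingSubgroup :=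
    mem_fixingSubgroup_fixedQ.mpr (by rw [res_lift]; exact st.mem)
  have hgn : ∀ n : ℕ, (g ^ n) (a ^ p) = a ^ p := fun n => by
    induction n with
    | zero => rfl
    | succ n ih =>
      rw [pow_succ, AlgEquiv.mul_apply, map_pow g, hga, mul_pow, hζ.pow_eq_one, one_mul, ih]
  have hbF : (a : QBar) ^ p ∈ fixedQ L H := (mem_fixedQ (a ^ p)).mpr fun h hh => by
    obtain ⟨i, -, k, hk, rfl⟩ := st.exists_pow_mul hh
    rw [AlgEquiv.mul_apply, map_pow k, haK k hk, hgn]
  have hg₀a : lift L g (a : QBar) = (ζ : QBar) * (a : QBar) := by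
    rw [← res_apply L (lift L g) a, res_lift, hga]; rfl
  refine ⟨hg₀, hbF, ?_⟩
  rw [kum_eq hζ' ((mem_fixedQ ζ).mpr hH) hg₀ hbF (pow_ne_zero _ fun h => ha0 (Subtype.ext h)) rfl
    (i := 1) (by rw [pow_one, hg₀a]), Nat.cast_one]

variable (L) in
/-- The second inequality. -/
theorem secondIneq (hp2 : p ≠ 2) {ζ : L} (hζ : IsPrimitiveRoot ζ p) : SecondIneq L p := by
  intro H K g hs
  have st := step_of_isStep hs
  have hH := fixes_zeta hζ hs.isPGroup
  obtain ⟨a, ha0, haK, hga⟩ := exists_resolvent st hζ hH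
  set F := fixedQ L H
  set ζ' : QBar := (ζ : QBar)
  have hζ' : IsPrimitiveRoot ζ' p := hζ.map_of_injective (f := L.val) L.val.injective
  have hζF : ζ' ∈ F := (mem_fixedQ ζ).mpr hH
  set g₀ := lift L g
  set b : QBar := (a : QBar) ^ p
  have hb0 : b ≠ 0 := pow_ne_zero _ fun h => ha0 (Subtype.ext h)
  obtain ⟨hg₀, hbF, hkum⟩ : g₀ ∈ F.fixingSubgroup ∧ b ∈ F ∧ kum hζ' g₀ b = 1 :=
    resolvent_pow_kum st hζ hH ha0 haK hga hζ'
  have hr : rootP p b ∉ F := fun h => by
    have := (kum_eq_zero_iff hζ' hζF hg₀ hbF hb0 (rootP_pow b)).mpr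
      ((IntermediateField.mem_fixingSubgroup_iff _ _).mp hg₀ _ h)
    exact one_ne_zero (hkum.symm.trans this)
  have hyfix : ∀ y : PreIdele, y ∈ idl (kumField F (rootP p b)) →
      ∃ y' ∈ fixedBy K (idl L), ((y' : idl L) : PreIdele) = y := by
    intro y hy
    obtain ⟨i, -, hi⟩ := exists_eq_zeta_pow_mul hζ' (fun h => ha0 (Subtype.ext h))
      (rootP_pow b : rootP p b ^ p = (a : QBar) ^ p)
    have hkK : kumField F (rootP p b) ≤ fixedQ L K := by
      refine sup_le ?_ (IntermediateField.adjoin_le_iff.mpr ?_)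
      · rintro _ ⟨z, hz, rfl⟩
        exact (mem_fixedQ z).mpr fun k hk =>
          (IntermediateField.mem_fixedField_iff _ _).mp hz k (st.le hk)
      · rintro _ rfl
        rw [SetLike.mem_coe, hi]
        exact mul_mem (pow_mem ((mem_fixedQ ζ).mpr fun k hk => hH k (st.le hk)) i)
          ((mem_fixedQ a).mpr haK)
    have hyK : y ∈ idl (fixedQ L K) := idl_mono hkK hy
    refine ⟨⟨y, idl_mono (fixedQ_le K) hyK⟩, ?_, rfl⟩
    have := (mem_fixedBy_idl_iff (K := fixedQ L K) L ⟨y, idl_mono (fixedQ_le K) hyK⟩).mpr hyK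
    rwa [map_fixingSubgroup_fixedQ] at this
  obtain ⟨x₀, hx₀, hgen⟩ := exists_norm_generator hp2 hζ' hζF hbF hb0 hr hg₀ hkum
  set X₀ : idl L := ⟨x₀, idl_mono (fixedQ_le H) hx₀⟩
  have hX₀ : X₀ ∈ fixedBy H (idl L) := by
    have := (mem_fixedBy_idl_iff (K := F) L X₀).mpr hx₀
    rwa [map_fixingSubgroup_fixedQ] at this
  refine ⟨QuotientGroup.mk X₀, fun h hh => (smul_mk L h X₀).trans
    (congrArg QuotientGroup.mk (hX₀ h hh)), fun x hx => ?_⟩
  obtain ⟨f, hf, rfl⟩ := exists_fixed_rep H hx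
  obtain ⟨m, y, hy, c, hc, e⟩ := hgen f (by
    rw [← map_fixingSubgroup_fixedQ H] at hf
    exact (mem_fixedBy_idl_iff L f).mp hf)
  obtain ⟨y', hy', rfl⟩ := hyfix y hy
  refine ⟨m, QuotientGroup.mk y', fun k hk => (smul_mk L k y').trans
    (congrArg QuotientGroup.mk (hy' k hk)), ?_⟩
  set c' : Lˣ := Units.mk0 ⟨(c : QBar), fixedQ_le H hc⟩ fun h =>
    c.ne_zero (congrArg Subtype.val h)
  have hf' : f = X₀ ^ m * (∏ i ∈ Finset.range p, g ^ i • y') * prinL L c' := by
    refine Subtype.ext ?_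
    have hg : g = res L g₀ := (res_lift L g).symm
    rw [hg, Subgroup.coe_mul, Subgroup.coe_mul, SubgroupClass.coe_zpow, coe_prod_smul, e]
    show _ * prin c = _ * prin (Units.map L.val.toRingHom.toMonoidHom c')
    rw [show Units.map L.val.toRingHom.toMonoidHom c' = c from Units.ext rfl]
  have hc1 : (QuotientGroup.mk (prinL L c') : ClassGrp L) = 1 :=
    (QuotientGroup.eq_one_iff _).mpr ⟨c', rfl⟩
  rw [hf', QuotientGroup.mk_mul, QuotientGroup.mk_mul, QuotientGroup.mk_zpow,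
    hc1]
  refine (mul_one (M := ClassGrp L) _).trans ?_
  congr 1
  show (QuotientGroup.mk' (prinL L).range) (∏ i ∈ Finset.range p, g ^ i • y') = _
  rw [map_prod]
  exact Finset.prod_congr rfl fun i _ => (smul_mk L _ _).symm

variable (L) in
/-- The class field axioms. -/
theorem stepAxioms (hp2 : p ≠ 2) {ζ : L} (hζ : IsPrimitiveRoot ζ p) :
    CFT.StepAxioms p (L ≃ₐ[ℚ] L) (C L) :=
  stepAxioms_of_secondIneq hp2 hζ (secondIneq L hp2 hζ)

end Fermat.Agent.CFT.Idele
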