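import Fermat.Agent.CFT.Idele.Herbrand

/-!
# Herbrand quotients of a quotient through a subgroup with trivial quotient

If `π : A → A'` intertwines the endomorphisms, `U ≤ A` has image of finite index and Herbrand
quotient one, and `U ∩ ker π` has Herbrand quotient `1/p`, then `A'` has Herbrand quotient `p`.
-/

set_option autoImplicit false

noncomputable section

namespace Fermat.Agent.CFT.Idele

open Subgroup

variable {A : Type*} [CommGroup A]

/-- The restriction of an endomorphism to a stable subgroup. -/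
def restrEnd (d : A →* A) (U : Subgroup A) (h : U.map d ≤ U) : U →* U :=
  (d.comp U.subtype).codRestrict U fun x => h ⟨x, x.2, rfl⟩

theorem map_subtype_map_restrEnd (d : A →* A) (U : Subgroup A) (h : U.map d ≤ U) (B : Subgroup U) :
    (B.map (restrEnd d U h)).map U.subtype = (B.map U.subtype).map d := by
  rw [map_map, map_map]; rfl

theorem map_subtype_ker_restrEnd (d : A →* A) (U : Subgroup A) (h : U.map d ≤ U) :
    (restrEnd d U h).ker.map U.subtype = U ⊓ d.ker := by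
  ext x
  constructor
  · rintro ⟨y, hy, rfl⟩
    exact ⟨y.2, congrArg Subtype.val (MonoidHom.mem_ker.1 hy)⟩
  · rintro ⟨hx, hd⟩
    exact ⟨⟨x, hx⟩, MonoidHom.mem_ker.2 (Subtype.ext hd), rfl⟩

variable (d N : A →* A) {U : Subgroup A} (hd : U.map d ≤ U) (hN : U.map N ≤ U)

theorem ind0_restrEnd : ind0 (restrEnd d U hd) (restrEnd N U hN) = ind0Sub d N U := by
  rw [ind0, ind0Sub, ← relIndex_map_map_of_injective _ _ U.subtype_injective,
    MonoidHom.range_eq_map, map_subtype_map_restrEnd, ← MonoidHom.range_eq_map, range_subtype,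
    map_subtype_ker_restrEnd]

theorem ind0Sub_restrEnd {B : Subgroup A} (hB : B ≤ U) :
    ind0Sub (restrEnd d U hd) (restrEnd N U hN) (B.subgroupOf U) = ind0Sub d N B := by
  rw [ind0Sub, ind0Sub, ← relIndex_map_map_of_injective _ _ U.subtype_injective,
    map_subtype_map_restrEnd, map_inf _ _ _ U.subtype_injective, map_subtype_ker_restrEnd,
    subgroupOf_map_subtype, inf_eq_left.2 hB, ← inf_assoc, inf_eq_left.2 hB]

theorem map_restrEnd_le {B : Subgroup A} (hB : B.map d ≤ B) :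
    (B.subgroupOf U).map (restrEnd d U hd) ≤ B.subgroupOf U := by
  rintro _ ⟨x, hx, rfl⟩
  exact hB ⟨x, hx, rfl⟩

section Triv

variable (hdN : ∀ x, d (N x) = 1) (hNd : ∀ x, N (d x) = 1)

include hdN hNd hd hN in
/-- A subgroup with a cohomologically trivial subgroup of finite index has Herbrand quotient one. -/
theorem ind0Sub_eq_of_triv {B : Subgroup A} (hB : B ≤ U) (hdB : B.map d ≤ B) (hNB : B.map N ≤ B)
    (hidx : B.relIndex U ≠ 0) (h0 : ind0Sub d N B = 1) (h1 : ind0Sub N d B = 1) :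
    ind0Sub d N U = ind0Sub N d U ∧ ind0Sub N d U ≠ 0 := by
  have hdN' : ∀ x, restrEnd d U hd (restrEnd N U hN x) = 1 := fun x => Subtype.ext (hdN x)
  have hNd' : ∀ x, restrEnd N U hN (restrEnd d U hd x) = 1 := fun x => Subtype.ext (hNd x)
  have hi : (B.subgroupOf U).index ≠ 0 := hidx
  have h := herbrand_of_index _ _ hdN' hNd' (B.subgroupOf U) (map_restrEnd_le d hd hdB)
    (map_restrEnd_le N hN hNB) hi
  rw [ind0Sub_restrEnd d N hd hN hB, ind0Sub_restrEnd N d hN hd hB, h0, h1, one_mul, one_mul,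
    ind0_restrEnd, ind0_restrEnd] at h
  refine ⟨h.symm, ?_⟩
  rw [← ind0_restrEnd N d hN hd]
  refine ind0_ne_zero_of _ _ hNd' (B.subgroupOf U) (map_restrEnd_le N hN hNB)
    (map_restrEnd_le d hd hdB) (ind0Quot_ne_zero_of_index hi) ?_
  rw [ind0Sub_restrEnd N d hN hd hB, h1]
  exact one_ne_zero

end Triv

variable {A' : Type*} [CommGroup A'] (d' N' : A' →* A') (π : A →* A')

theorem ind0Sub_map (hdπ : ∀ x, π (d x) = d' (π x)) (hNπ : ∀ x, π (N x) = N' (π x)) :
    ind0Sub d' N' (U.map π) =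
      ind0Quot (restrEnd d U hd) (restrEnd N U hN) ((U ⊓ π.ker).subgroupOf U) := by
  have hker : (π.comp U.subtype).ker = (U ⊓ π.ker).subgroupOf U := by
    ext x
    simp [MonoidHom.mem_ker, mem_subgroupOf]
  have e1 : (U.map π).map N' = (restrEnd N U hN).range.map (π.comp U.subtype) := by
    ext y
    constructor
    · rintro ⟨_, ⟨x, hx, rfl⟩, rfl⟩
      exact ⟨_, ⟨⟨x, hx⟩, rfl⟩, hNπ x⟩
    · rintro ⟨_, ⟨x, rfl⟩, rfl⟩
      exact ⟨π x, ⟨x, x.2, rfl⟩, (hNπ x).symm⟩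
  have e2 : U.map π ⊓ d'.ker =
      (((U ⊓ π.ker).subgroupOf U).comap (restrEnd d U hd)).map (π.comp U.subtype) := by
    ext y
    constructor
    · rintro ⟨⟨x, hx, rfl⟩, hy⟩
      refine ⟨⟨x, hx⟩, ⟨(restrEnd d U hd ⟨x, hx⟩).2, ?_⟩, rfl⟩
      show π (d x) = 1
      rw [hdπ]; exact hy
    · rintro ⟨x, ⟨-, hx⟩, rfl⟩
      refine ⟨⟨x, x.2, rfl⟩, ?_⟩
      show d' (π x) = 1
      rw [← hdπ]; exact hx
  rw [ind0Sub, e1, e2, relIndex_map_map, hker, ind0Quot]
  congr 1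
  refine sup_eq_left.2 fun x hx => ?_
  refine ⟨(restrEnd d U hd x).2, ?_⟩
  show π (d x) = 1
  rw [hdπ, show π x = 1 from hx.2, map_one]

include hd hN in
/-- The Herbrand quotient of the target. -/
theorem herbrand_target {p : ℕ} (hp : p ≠ 0) (hdN : ∀ x, d (N x) = 1) (hNd : ∀ x, N (d x) = 1)
    (hdN' : ∀ x, d' (N' x) = 1) (hNd' : ∀ x, N' (d' x) = 1)
    (hdπ : ∀ x, π (d x) = d' (π x)) (hNπ : ∀ x, π (N x) = N' (π x))
    (hidx : (U.map π).index ≠ 0)
    (hU : ind0Sub d N U = ind0Sub N d U ∧ ind0Sub N d U ≠ 0)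
    (hW : ind0Sub N d (U ⊓ π.ker) = p * ind0Sub d N (U ⊓ π.ker))
    (hW0 : ind0Sub d N (U ⊓ π.ker) ≠ 0) :
    ind0 d' N' = p * ind0 N' d' ∧ ind0 N' d' ≠ 0 := by
  set W := U ⊓ π.ker
  have hdW : W.map d ≤ W := by
    rintro _ ⟨x, ⟨hx, hk⟩, rfl⟩
    exact ⟨hd ⟨x, hx, rfl⟩, by show π (d x) = 1; rw [hdπ, show π x = 1 from hk, map_one]⟩
  have hNW : W.map N ≤ W := by
    rintro _ ⟨x, ⟨hx, hk⟩, rfl⟩
    exact ⟨hN ⟨x, hx, rfl⟩, by show π (N x) = 1; rw [hNπ, show π x = 1 from hk, map_one]⟩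
  set dR := restrEnd d U hd
  set NR := restrEnd N U hN
  have hdNR : ∀ x, dR (NR x) = 1 := fun x => Subtype.ext (hdN x)
  have hNdR : ∀ x, NR (dR x) = 1 := fun x => Subtype.ext (hNd x)
  have hdWR := map_restrEnd_le d hd (U := U) hdW
  have hNWR := map_restrEnd_le N hN (U := U) hNW
  have s0 : ind0Sub dR NR (W.subgroupOf U) = ind0Sub d N W := ind0Sub_restrEnd d N hd hN inf_le_left
  have s1 : ind0Sub NR dR (W.subgroupOf U) = p * ind0Sub d N W :=
    (ind0Sub_restrEnd N d hN hd inf_le_left).trans hW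
  have a1 : ind0 NR dR = ind0Sub N d U := ind0_restrEnd N d hN hd
  have a0 : ind0 dR NR = ind0Sub N d U := (ind0_restrEnd d N hd hN).trans hU.1
  have hmul := herbrand_mul dR NR hdNR hNdR _ hdWR hNWR
  rw [s0, s1, a0, a1] at hmul
  have hq : ind0Quot dR NR (W.subgroupOf U) = p * ind0Quot NR dR (W.subgroupOf U) := by
    apply mul_right_cancel₀ (mul_ne_zero hW0 hU.2)
    linear_combination hmul
  -- the two auxiliary indices are finite
  have hs1 : ind0Sub NR dR (W.subgroupOf U) ≠ 0 := by rw [s1]; exact mul_ne_zero hp hW0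
  have hs0 : ind0Sub dR NR (W.subgroupOf U) ≠ 0 := by rw [s0]; exact hW0
  have hq1 : ind0Quot NR dR (W.subgroupOf U) ≠ 0 := by
    intro h0
    have h := ind0Quot_mul_ind0Sub NR dR hNdR (W.subgroupOf U) hNWR hdWR
    rw [h0, zero_mul] at h
    have hle : ∀ (f g : U →* U), (∀ x, f (g x) = 1) →
        g.range ⊓ W.subgroupOf U ≤ W.subgroupOf U ⊓ f.ker := by
      rintro f g hfg _ ⟨⟨x, rfl⟩, hx⟩
      exact ⟨hx, hfg x⟩
    refine mul_ne_zero (mul_ne_zero (fun hz => hs0 ?_) (fun hz => hs1 ?_))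
      (a1 ▸ hU.2) h.symm
    · exact relIndex_eq_zero_of_le_right (hle dR NR hdNR) hz
    · exact relIndex_eq_zero_of_le_right (hle NR dR hNdR) hz
  have e0 := ind0Sub_map d N hd hN d' N' π hdπ hNπ
  have e1 := ind0Sub_map N d hN hd N' d' π hNπ hdπ
  have hdV : (U.map π).map d' ≤ U.map π := by
    rintro _ ⟨_, ⟨x, hx, rfl⟩, rfl⟩
    exact ⟨d x, hd ⟨x, hx, rfl⟩, hdπ x⟩
  have hNV : (U.map π).map N' ≤ U.map π := by
    rintro _ ⟨_, ⟨x, hx, rfl⟩, rfl⟩
    exact ⟨N x, hN ⟨x, hx, rfl⟩, hNπ x⟩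
  have h := herbrand_of_index d' N' hdN' hNd' (U.map π) hdV hNV hidx
  rw [e0, e1, hq] at h
  refine ⟨?_, ind0_ne_zero_of N' d' hNd' (U.map π) hNV hdV (ind0Quot_ne_zero_of_index hidx)
    (by rw [e1]; exact hq1)⟩
  apply mul_left_cancel₀ hq1
  linear_combination -h

end Fermat.Agent.CFT.Idele
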