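import Fermat.Agent.Arith.NonunitPrime
import Fermat.Agent.CFT.Idele.Classes
import Mathlib.NumberTheory.NumberField.ClassNumber
import Mathlib.RingTheory.ClassGroup.Basic

/-!
# Finiteness of the idele class group modulo units

Integral ideles give nonzero ideals of `𝓞 L`; the ideal determines the norms of the idele, so the
finiteness of the class group gives a finite index for units times principal ideles.
-/

set_option autoImplicit false

noncomputable section

namespace Fermat.Agent.CFT.Idele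

open ExtCitation Fermat.Agent.Arith IntermediateField Fermat.Agent.CFT.Local
open scoped NumberField Pointwise

local instance factPrimeCF (q : Nat.Primes) : Fact (q : ℕ).Prime := ⟨q.2⟩

/-- An algebraic number of norm at most one at every place is integral. -/
theorem isIntegral_of_norm_le_one {x : QBar} (h : ∀ (q : Nat.Primes) (g : GQ), ‖emb q (g x)‖ ≤ 1) :
    IsIntegral ℤ x := by
  refine isIntegral_of_forall_mem fun V => ?_
  by_cases hV : ∃ q : ℕ, q.Prime ∧ V.LiesOverPrime q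
  · obtain ⟨q, hq, hVq⟩ := hV
    have : Fact q.Prime := ⟨hq⟩
    obtain ⟨g, hg⟩ := exists_smul_eq (padicPlace_liesOverPrime q) hVq hq
    rw [← hg, ValuationSubring.mem_pointwise_smul_iff_inv_smul_mem]
    exact (mem_padicPlace_iff_norm q).2 (h ⟨q, hq⟩ g⁻¹)
  · by_contra hx
    have hx0 : x ≠ 0 := fun h0 => hx (h0 ▸ zero_mem V)
    exact hV (exists_prime_of_mem_nonunits (inv_ne_zero hx0)
      ((V.inv_mem_nonunits_iff).mpr (Or.inr hx)))

variable (L : IntermediateField ℚ QBar) [FiniteDimensional ℚ L] [Normal ℚ L]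

/-- The unit ideles. -/
def unitIdl : Subgroup (idl L) where
  carrier := {f | ∀ q σ, val f q σ ∈ unitGroup (E L q)}
  one_mem' q σ := by rw [val_one]; exact one_mem _
  mul_mem' {f f'} hf hf' q σ := by rw [val_mul]; exact mul_mem (hf q σ) (hf' q σ)
  inv_mem' {f} hf q σ := by
    rw [show val f⁻¹ q σ = (val f q σ)⁻¹ from map_inv (valHom q σ) f]; exact inv_mem (hf q σ)

variable {L}

omit [FiniteDimensional ℚ ↥L] in
theorem mem_unitIdl {f : idl L} : f ∈ unitIdl L ↔ ∀ q σ, val f q σ ∈ unitGroup (E L q) := Iff.rfl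

omit [FiniteDimensional ℚ ↥L] in
theorem smul_mem_unitIdl (σ : L ≃ₐ[ℚ] L) {f : idl L} (hf : f ∈ unitIdl L) :
    σ • f ∈ unitIdl L := fun q τ => by rw [val_smul]; exact hf q _

/-- The norm of `x` at `(q, σ)`. -/
def absAt (q : Nat.Primes) (σ : L ≃ₐ[ℚ] L) (x : L) : ℝ := ‖localEmb (q : ℕ) L (σ x)‖

omit [FiniteDimensional ℚ ↥L] [Normal ℚ ↥L] in
theorem absAt_mul (q : Nat.Primes) (σ : L ≃ₐ[ℚ] L) (x y : L) :
    absAt q σ (x * y) = absAt q σ x * absAt q σ y := by
  rw [absAt, map_mul, map_mul, norm_mul]; rfl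

omit [FiniteDimensional ℚ ↥L] in
theorem norm_val_prinL (x : Lˣ) (q : Nat.Primes) (σ : L ≃ₐ[ℚ] L) :
    ‖((val (prinL L x) q σ : (E L q)ˣ) : E L q)‖ = absAt q σ x := by
  rw [val_prinL]; rfl

omit [FiniteDimensional ℚ ↥L] in
theorem absAt_range (q : Nat.Primes) (t : E L q ≃ₐ[ℚ_[(q : ℕ)]] E L q) (σ : L ≃ₐ[ℚ] L) (x : L) :
    absAt q (toGlobal (q : ℕ) L t * σ) x = absAt q σ x := by
  show ‖localEmb _ L (toGlobal (q : ℕ) L t (σ x))‖ = _
  rw [localEmb_toGlobal, norm_algEquiv]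
  rfl

omit [FiniteDimensional ℚ L] in
omit [Normal ℚ ↥L] in
theorem absAt_le_one {x : L} (hx : IsIntegral ℤ (x : QBar)) (q : Nat.Primes) (σ : L ≃ₐ[ℚ] L) :
    absAt q σ x ≤ 1 := by
  rw [absAt, norm_localEmb]
  refine norm_emb_le_one ?_ q
  have : IsIntegral ℤ x :=
    (isIntegral_algebraMap_iff (algebraMap L QBar).injective).1 hx
  exact (this.map (σ.toAlgHom.restrictScalars ℤ)).map ((L.val).restrictScalars ℤ)

/-- An integer of `L` which is a unit at the distinguished place and small at the others. -/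
theorem exists_separating (q : Nat.Primes) :
    ∃ z : L, IsIntegral ℤ (z : QBar) ∧ absAt q 1 z = 1 ∧
      ∀ σ ∉ (toGlobal (q : ℕ) L).range, absAt q σ z < 1 := by
  classical
  have h : ∀ σ : L ≃ₐ[ℚ] L, ∃ z : L, IsIntegral ℤ (z : QBar) ∧ absAt q 1 z = 1 ∧
      (σ ∉ (toGlobal (q : ℕ) L).range → absAt q σ z < 1) := by
    intro σ
    by_cases hσ : σ ∈ (toGlobal (q : ℕ) L).range
    · exact ⟨1, by simpa using isIntegral_one, by simp [absAt], fun h => absurd hσ h⟩
    · rw [mem_range_toGlobal_iff] at hσ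
      push Not at hσ
      obtain ⟨x, hx, hσx⟩ := hσ
      obtain ⟨b, hbL, hb, hxb, hbn⟩ :=
        exists_fraction_mem (padicPlace_liesOverPrime (q : ℕ)) q.2 L x.2 hx
      have hb1 : absAt q 1 (⟨b, hbL⟩ : L) = 1 := by
        refine le_antisymm (absAt_le_one hb q 1) (not_lt.1 fun hlt => hbn ?_)
        rw [mem_nonunits_padicPlace_iff]
        exact hlt
      refine ⟨⟨b, hbL⟩, hb, hb1, fun _ => ?_⟩
      have h1 : absAt q σ (x * ⟨b, hbL⟩) ≤ 1 := absAt_le_one hxb q σ
      have h2 : 1 < absAt q σ x := by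
        rw [absAt, norm_localEmb]
        exact not_le.1 fun h => hσx ((mem_padicPlace_iff_norm (q : ℕ)).2 h)
      rw [absAt_mul] at h1
      by_contra hle
      exact absurd h1 (not_le.2 (lt_of_lt_of_le h2
        (le_mul_of_one_le_right (zero_le_one.trans h2.le) (not_lt.1 hle))))
  choose z hz1 hz2 hz3 using h
  have hmul : ∀ σ, absAt q σ (∏ τ, z τ) = ∏ τ, absAt q σ (z τ) := fun σ => by
    simp only [absAt, map_prod, norm_prod]
  refine ⟨∏ τ, z τ, ?_, ?_, fun σ hσ => ?_⟩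
  · rw [SubmonoidClass.coe_finsetProd]
    exact IsIntegral.prod _ fun τ _ => hz1 τ
  · rw [hmul]; exact Finset.prod_eq_one fun τ _ => hz2 τ
  · rw [hmul, ← Finset.prod_erase_mul _ _ (Finset.mem_univ σ)]
    calc _ ≤ 1 * absAt q σ (z σ) := mul_le_mul_of_nonneg_right
          (Finset.prod_le_one (fun τ _ => norm_nonneg _) fun τ _ => absAt_le_one (hz1 τ) q σ)
          (norm_nonneg _)
      _ < 1 := by rw [one_mul]; exact hz3 σ hσ

/-- The ideal of an idele. -/
def idealOf (f : idl L) : Ideal (𝓞 L) where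
  carrier := {a | ∀ q σ, absAt q σ (a : L) ≤ ‖((val f q σ : (E L q)ˣ) : E L q)‖}
  add_mem' {a b} ha hb q σ := by
    show ‖localEmb (q : ℕ) L (σ ((a + b : 𝓞 L) : L))‖ ≤ _
    push_cast
    rw [map_add, map_add]
    exact (IsUltrametricDist.norm_add_le_max _ _).trans (max_le (ha q σ) (hb q σ))
  zero_mem' q σ := by simp [absAt]
  smul_mem' c a ha q σ := by
    show absAt q σ ((c * a : 𝓞 L) : L) ≤ _
    push_cast
    rw [absAt_mul]
    refine le_trans (mul_le_of_le_one_left (norm_nonneg _) (absAt_le_one ?_ q σ)) (ha q σ)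
    exact c.2.map ((L.val).restrictScalars ℤ)

variable (L) in
/-- An idele all of whose values are integral. -/
def Integral' (f : idl L) : Prop := ∀ q σ, ‖((val f q σ : (E L q)ˣ) : E L q)‖ ≤ 1

theorem exists_finset_absAt (x : L) (hx : x ≠ 0) :
    ∃ T : Finset Nat.Primes, ∀ q ∉ T, ∀ σ, absAt q σ x = 1 := by
  obtain ⟨T, hT⟩ := val_mem_unitGroup_cofinite (prinL L (Units.mk0 x hx))
  refine ⟨T, fun q hq σ => ?_⟩
  have := (mem_unitGroup _).1 (hT q hq σ)
  rwa [norm_val_prinL] at this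

omit [FiniteDimensional ℚ ↥L] [Normal ℚ ↥L] in
theorem absAt_natCast {q : Nat.Primes} (σ : L ≃ₐ[ℚ] L) (m : ℕ) :
    absAt q σ (m : L) = ‖(m : ℚ_[(q : ℕ)])‖ := by
  rw [absAt, map_natCast, map_natCast, ← norm_algebraMap' (E L q) (m : ℚ_[(q : ℕ)]), map_natCast]

/-- The norm of an integral idele at the distinguished place is attained on its ideal. -/
theorem exists_mem_idealOf {f : idl L} (hf : Integral' L f) (q : Nat.Primes) :
    ∃ a ∈ idealOf f, absAt q 1 (a : L) = ‖((val f q 1 : (E L q)ˣ) : E L q)‖ := by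
  classical
  obtain ⟨c, hcL, hc0, hc⟩ := exists_emb_norm_eq (L := L) (1 : GQ)
    (y := (((val f q 1 : (E L q)ˣ) : E L q) : Ω q))
    (by rw [fieldAt_eq]; exact SetLike.coe_mem _)
    (fun h => (val f q 1).ne_zero (Subtype.ext h))
  have hc' : absAt q 1 (⟨c, hcL⟩ : L) = ‖((val f q 1 : (E L q)ˣ) : E L q)‖ := hc
  set c' : L := ⟨c, hcL⟩
  have hc0' : c' ≠ 0 := fun h => hc0 (congrArg Subtype.val h)
  obtain ⟨z, hzi, hz1, hzlt⟩ := exists_separating (L := L) q
  obtain ⟨Tc, hTc⟩ := exists_finset_absAt c' hc0'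
  obtain ⟨Tf, hTf⟩ := val_mem_unitGroup_cofinite f
  set T := (Tc ∪ Tf).erase q
  set Q : ℕ := ∏ q' ∈ T, (q' : ℕ)
  have hQ1 : absAt q 1 (Q : L) = 1 := by
    rw [absAt_natCast]
    refine le_antisymm (by exact_mod_cast Padic.norm_int_le_one (Q : ℤ)) (not_lt.1 fun hlt => ?_)
    have := (Padic.norm_intCast_lt_one_iff (p := (q : ℕ)) (k := (Q : ℤ))).1 (by exact_mod_cast hlt)
    obtain ⟨q', hq', hdvd⟩ :=
      ((Nat.prime_iff.1 q.2).dvd_finsetProd_iff _).1 (Int.natCast_dvd_natCast.1 this)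
    exact (Finset.mem_erase.1 hq').1
      (Subtype.ext ((Nat.prime_dvd_prime_iff_eq q.2 q'.2).1 hdvd).symm)
  have hsmall : ∀ q' σ, (q' ∈ T ∨ q' = q ∧ σ ∉ (toGlobal (q : ℕ) L).range) →
      absAt q' σ (z * (Q : L)) < 1 := by
    rintro q' σ (hq' | ⟨rfl, hσ⟩)
    · rw [absAt_mul]
      refine lt_of_le_of_lt (mul_le_of_le_one_left (norm_nonneg _) (absAt_le_one hzi q' σ)) ?_
      show absAt q' σ (Q : L) < 1
      rw [absAt_natCast, show (Q : ℚ_[(q' : ℕ)]) = ((Q : ℤ) : ℚ_[(q' : ℕ)]) by simp,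
        Padic.norm_intCast_lt_one_iff]
      exact Int.natCast_dvd_natCast.2 (Finset.dvd_prod_of_mem _ hq')
    · rw [absAt_mul]
      refine lt_of_le_of_lt (mul_le_of_le_one_right (norm_nonneg _) ?_) (hzlt σ hσ)
      show absAt q' σ (Q : L) ≤ 1
      rw [absAt_natCast]; exact_mod_cast Padic.norm_int_le_one (Q : ℤ)
  -- one exponent for the finitely many small places
  have hN : ∃ N : ℕ, ∀ q' ∈ insert q T, ∀ σ, absAt q' σ (z * (Q : L)) < 1 →
      absAt q' σ c' * absAt q' σ (z * (Q : L)) ^ N ≤ ‖((val f q' σ : (E L q')ˣ) : E L q')‖ := by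
    have h : ∀ x : {q' : Nat.Primes // q' ∈ insert q T} × (L ≃ₐ[ℚ] L), ∃ N : ℕ,
        absAt x.1.1 x.2 (z * (Q : L)) < 1 → ∀ M, N ≤ M →
          absAt x.1.1 x.2 c' * absAt x.1.1 x.2 (z * (Q : L)) ^ M ≤
            ‖((val f x.1.1 x.2 : (E L x.1.1)ˣ) : E L x.1.1)‖ := by
      intro x
      have hpos : 0 < ‖((val f x.1.1 x.2 : (E L x.1.1)ˣ) : E L x.1.1)‖ :=
        norm_pos_iff.2 (Units.ne_zero _)
      have hc'pos : 0 < absAt x.1.1 x.2 c' := norm_pos_iff.2 (by simp [hc0'])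
      by_cases hlt : absAt x.1.1 x.2 (z * (Q : L)) < 1
      · obtain ⟨N, hN⟩ := exists_pow_lt_of_lt_one (div_pos hpos hc'pos) hlt
        refine ⟨N, fun _ M hM => ?_⟩
        rw [mul_comm, ← le_div_iff₀ hc'pos]
        exact (pow_le_pow_of_le_one (norm_nonneg _) hlt.le hM).trans hN.le
      · exact ⟨0, fun h => absurd h hlt⟩
    choose N hN using h
    exact ⟨Finset.univ.sup N, fun q' hq' σ hlt => hN (⟨q', hq'⟩, σ) hlt _
      (Finset.le_sup (f := N) (Finset.mem_univ _))⟩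
  obtain ⟨N, hN⟩ := hN
  set a : L := c' * (z * (Q : L)) ^ N with ha
  have habs : ∀ q' σ, absAt q' σ a = absAt q' σ c' * absAt q' σ (z * (Q : L)) ^ N := fun q' σ => by
    rw [ha, absAt_mul]
    congr 1
    simp [absAt]
  have hbound : ∀ q' σ, absAt q' σ a ≤ ‖((val f q' σ : (E L q')ˣ) : E L q')‖ := by
    intro q' σ
    rw [habs]
    by_cases hin : q' ∈ T ∨ q' = q ∧ σ ∉ (toGlobal (q : ℕ) L).range
    · exact hN q' (by rcases hin with h | ⟨h, -⟩ <;> simp [h]) σ (hsmall q' σ hin)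
    push Not at hin
    by_cases hq' : q' = q
    · subst hq'
      obtain ⟨t, rfl⟩ := hin.2 rfl
      rw [← mul_one (toGlobal (q' : ℕ) L t), absAt_range, absAt_range, val_toGlobal_mul,
        norm_smul_unit, hc', absAt_mul, hz1, hQ1, mul_one, one_pow, mul_one]
    · have hT : q' ∉ Tc ∪ Tf := fun h => hin.1 (Finset.mem_erase.2 ⟨hq', h⟩)
      rw [Finset.mem_union, not_or] at hT
      rw [hTc q' hT.1, one_mul, (mem_unitGroup _).1 (hTf q' hT.2 σ)]
      refine pow_le_one₀ (norm_nonneg _) (absAt_le_one ?_ q' σ)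
      exact (hzi.mul (isIntegral_natCast (R := ℤ) (B := QBar) Q) :)
  have haint : IsIntegral ℤ (a : QBar) := isIntegral_of_norm_le_one fun q' g => by
    have := (hbound q' (res L g)).trans (hf q' _)
    rw [absAt, norm_localEmb, res_apply] at this
    exact this
  refine ⟨⟨a, (isIntegral_algebraMap_iff (algebraMap L QBar).injective).1 haint⟩, hbound, ?_⟩
  show absAt q 1 a = _
  rw [habs, hc', absAt_mul, hz1, hQ1, mul_one, one_pow, mul_one]

/-- The norm of an integral idele at any place is attained on its ideal. -/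
theorem exists_mem_idealOf' {f : idl L} (hf : Integral' L f) (q : Nat.Primes) (σ : L ≃ₐ[ℚ] L) :
    ∃ a ∈ idealOf f, absAt q σ (a : L) = ‖((val f q σ : (E L q)ˣ) : E L q)‖ := by
  have hf' : Integral' L (σ • f) := fun q' τ => by rw [val_smul]; exact hf q' _
  obtain ⟨a, ha, he⟩ := exists_mem_idealOf hf' q
  rw [val_smul, one_mul] at he
  let a' : 𝓞 L := ⟨σ⁻¹ (a : L), a.2.map ((σ⁻¹ : L ≃ₐ[ℚ] L).toAlgHom.restrictScalars ℤ)⟩
  refine ⟨a', fun q' τ => ?_, ?_⟩
  · have := ha q' (τ * σ⁻¹)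
    rw [val_smul, inv_mul_cancel_right] at this
    exact this
  · rw [← he]
    show ‖localEmb _ L (σ (σ.symm (a : L)))‖ = _
    rw [σ.apply_symm_apply]
    rfl

theorem exists_integral_mul (f : idl L) : ∃ x : Lˣ, Integral' L (f * prinL L x) := by
  classical
  obtain ⟨T, hT⟩ := val_mem_unitGroup_cofinite f
  set Q : ℕ := ∏ q' ∈ T, (q' : ℕ)
  have hQ0 : Q ≠ 0 := Finset.prod_ne_zero_iff.2 fun q' _ => q'.2.ne_zero
  have hsmall : ∀ q ∈ T, ∀ σ : L ≃ₐ[ℚ] L, absAt q σ (Q : L) < 1 := fun q hq σ => by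
    rw [absAt_natCast, show (Q : ℚ_[(q : ℕ)]) = ((Q : ℤ) : ℚ_[(q : ℕ)]) by simp,
      Padic.norm_intCast_lt_one_iff]
    exact Int.natCast_dvd_natCast.2 (Finset.dvd_prod_of_mem _ hq)
  have h : ∀ x : {q' : Nat.Primes // q' ∈ T} × (L ≃ₐ[ℚ] L), ∃ N : ℕ, ∀ M, N ≤ M →
      ‖((val f x.1.1 x.2 : (E L x.1.1)ˣ) : E L x.1.1)‖ * absAt x.1.1 x.2 (Q : L) ^ M ≤ 1 := by
    intro x
    have hpos : 0 < ‖((val f x.1.1 x.2 : (E L x.1.1)ˣ) : E L x.1.1)‖ :=
      norm_pos_iff.2 (Units.ne_zero _)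
    obtain ⟨N, hN⟩ := exists_pow_lt_of_lt_one (inv_pos.2 hpos) (hsmall x.1.1 x.1.2 x.2)
    exact ⟨N, fun M hM => by
      rw [mul_comm, ← le_div_iff₀ hpos, one_div]
      exact (pow_le_pow_of_le_one (norm_nonneg _) (hsmall x.1.1 x.1.2 x.2).le hM).trans hN.le⟩
  choose N hN using h
  set M := Finset.univ.sup N
  refine ⟨Units.mk0 ((Q : L) ^ M) (pow_ne_zero _ (by exact_mod_cast hQ0)), fun q σ => ?_⟩
  rw [val_mul, Units.val_mul, norm_mul, norm_val_prinL, Units.val_mk0,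
    show absAt q σ ((Q : L) ^ M) = absAt q σ (Q : L) ^ M by simp [absAt]]
  by_cases hq : q ∈ T
  · exact hN (⟨q, hq⟩, σ) M (Finset.le_sup (f := N) (Finset.mem_univ _))
  · rw [(mem_unitGroup _).1 (hT q hq σ), one_mul]
    refine pow_le_one₀ (norm_nonneg _) (absAt_le_one ?_ q σ)
    exact (isIntegral_natCast (R := ℤ) (B := QBar) Q :)

theorem idealOf_ne_bot {f : idl L} (hf : Integral' L f) : idealOf f ≠ ⊥ := by
  obtain ⟨a, ha, he⟩ := exists_mem_idealOf hf ⟨2, Nat.prime_two⟩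
  intro h
  rw [h, Ideal.mem_bot] at ha
  subst ha
  simp only [absAt, map_zero, norm_zero] at he
  exact (norm_ne_zero_iff.2 (Units.ne_zero _)) he.symm

/-- Units times principal ideles have finite index. -/
theorem finite_classes_mod_units : Finite (idl L ⧸ (unitIdl L ⊔ (prinL L).range)) := by
  classical
  have : NumberField L := {}
  set V := unitIdl L ⊔ (prinL L).range
  choose x hx using fun c : idl L ⧸ V => exists_integral_mul c.out
  let Φ : idl L ⧸ V → ClassGroup (𝓞 L) := fun c =>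
    ClassGroup.mk0 ⟨idealOf (c.out * prinL L (x c)),
      mem_nonZeroDivisors_iff_ne_zero.2 (idealOf_ne_bot (hx c))⟩
  refine Finite.of_injective Φ fun c c' hcc => ?_
  obtain ⟨u, v, hu, hv, huv⟩ := ClassGroup.mk0_eq_mk0_iff.1 hcc
  have hu' : (u : L) ≠ 0 := by exact_mod_cast hu
  have hv' : (v : L) ≠ 0 := by exact_mod_cast hv
  have key : ∀ (f f' : idl L), Integral' L f → ∀ (u v : 𝓞 L),
      Ideal.span {u} * idealOf f = Ideal.span {v} * idealOf f' → ∀ q σ,
      absAt q σ (u : L) * ‖((val f q σ : (E L q)ˣ) : E L q)‖ ≤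
        absAt q σ (v : L) * ‖((val f' q σ : (E L q)ˣ) : E L q)‖ := by
    intro f f' hf u v he q σ
    obtain ⟨a, ha, hea⟩ := exists_mem_idealOf' hf q σ
    obtain ⟨b, hb, hab⟩ := Ideal.mem_span_singleton_mul.1
      (he ▸ Ideal.mul_mem_mul (Ideal.mem_span_singleton_self u) ha)
    rw [← hea, ← absAt_mul]
    have : ((u : L) * (a : L)) = (v : L) * (b : L) := by exact_mod_cast hab.symm
    rw [this, absAt_mul]
    exact mul_le_mul_of_nonneg_left (hb q σ) (norm_nonneg _)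
  have hunit : c.out * prinL L (x c * Units.mk0 _ hu') /
      (c'.out * prinL L (x c' * Units.mk0 _ hv')) ∈ unitIdl L := by
    intro q σ
    rw [mem_unitGroup, show val (_ / _) q σ = _ from map_div (valHom q σ) _ _,
      Units.val_div_eq_div_val, norm_div, div_eq_one_iff_eq (norm_ne_zero_iff.2 (Units.ne_zero _))]
    show ‖((val _ q σ : (E L q)ˣ) : E L q)‖ = ‖((val _ q σ : (E L q)ˣ) : E L q)‖
    rw [map_mul, map_mul, ← mul_assoc, ← mul_assoc, val_mul, val_mul (c'.out * _),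
      Units.val_mul, Units.val_mul, norm_mul, norm_mul, norm_val_prinL, norm_val_prinL,
      Units.val_mk0, Units.val_mk0, mul_comm, mul_comm ‖((val (c'.out * _) q σ : (E L q)ˣ) : E L q)‖]
    exact le_antisymm (key _ _ (hx c) u v huv q σ) (key _ _ (hx c') v u huv.symm q σ)
  have h1 : c.out / c'.out ∈ V := by
    have hw := mul_mem (Subgroup.mem_sup_left (T := (prinL L).range) hunit)
      (Subgroup.mem_sup_right (S := unitIdl L) (⟨_, rfl⟩ :
        prinL L (x c' * Units.mk0 _ hv' / (x c * Units.mk0 _ hu')) ∈ (prinL L).range))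
    rw [map_div] at hw
    rwa [div_mul_div_comm, mul_assoc, mul_assoc c'.out, mul_comm (prinL L (x c' * _)),
      mul_div_mul_right_eq_div] at hw
  rw [← QuotientGroup.out_eq' c, ← QuotientGroup.out_eq' c', QuotientGroup.eq_iff_div_mem]
  exact h1

end Fermat.Agent.CFT.Idele
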