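import Fermat.Agent.CFT.Idele.FixedClasses
import Fermat.Agent.CFT.Idele.LocalTriv
import Fermat.Agent.CFT.Idele.UnitLattice
import Mathlib.FieldTheory.Galois.Basic
import Mathlib.NumberTheory.NumberField.InfinitePlace.TotallyRealComplex

/-!
# The first inequality

For a step `K < H` of prime index `p` with `ζ_p` fixed by `H`, the Herbrand quotient of the
`K`-invariant idele classes is `p`.
-/

set_option autoImplicit false
set_option linter.style.haveILetI false

noncomputable section

namespace Fermat.Agent.CFT.Idele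

open ExtCitation Fermat.Agent.Arith IntermediateField Fermat.Agent.CFT.Local
open scoped NumberField

local instance factPrimeFI (q : Nat.Primes) : Fact (q : ℕ).Prime := ⟨q.2⟩

variable (L : IntermediateField ℚ QBar) [FiniteDimensional ℚ L] [Normal ℚ L]

/-- The chosen cohomologically trivial units at `q`. -/
def trivUnits (q : Nat.Primes) : Subgroup (E L q)ˣ := (exists_trivial_units L q).choose

/-- The ideles with values in the chosen trivial units. -/
def trivIdl : Subgroup (idl L) where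
  carrier := {f | ∀ q σ, val f q σ ∈ trivUnits L q}
  one_mem' q σ := by rw [val_one]; exact one_mem _
  mul_mem' {f f'} hf hf' q σ := by rw [val_mul]; exact mul_mem (hf q σ) (hf' q σ)
  inv_mem' {f} hf q σ := by
    rw [show val f⁻¹ q σ = (val f q σ)⁻¹ from map_inv (valHom q σ) f]; exact inv_mem (hf q σ)

theorem trivIdl_le : trivIdl L ≤ unitIdl L := fun _ hf q σ =>
  (exists_trivial_units L q).choose_spec.1 (hf q σ)

variable {L}

theorem smul_mem_trivIdl (σ : L ≃ₐ[ℚ] L) {f : idl L} (hf : f ∈ trivIdl L) :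
    σ • f ∈ trivIdl L := fun q τ => by rw [val_smul]; exact hf q _

variable (L) in
theorem relIndex_trivIdl_ne_zero : (trivIdl L).relIndex (unitIdl L) ≠ 0 := by
  classical
  obtain ⟨T, hT⟩ := exists_finset_unramified L
  let res' := fun x : {q : Nat.Primes // q ∈ T} × (L ≃ₐ[ℚ] L) =>
    ((valHom (L := L) x.1.1 x.2).comp (unitIdl L).subtype)
  let S := fun x : {q : Nat.Primes // q ∈ T} × (L ≃ₐ[ℚ] L) =>
    (trivUnits L x.1.1).comap (res' x)
  have hS : ∀ x, (S x).index ≠ 0 := fun x => by
    intro h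
    rw [Subgroup.index_comap] at h
    refine (exists_trivial_units L x.1.1).choose_spec.2.1 (Subgroup.relIndex_eq_zero_of_le_right ?_ h)
    rintro _ ⟨f, rfl⟩
    exact f.2 _ _
  have hle : (⨅ x, S x) ≤ (trivIdl L).subgroupOf (unitIdl L) := fun f hf q σ => by
    by_cases hq : q ∈ T
    · exact Subgroup.mem_iInf.1 hf (⟨q, hq⟩, σ)
    · show val ((f : idl L)) q σ ∈ trivUnits L q
      unfold trivUnits
      rw [(exists_trivial_units L q).choose_spec.2.2.2.2 (hT q hq)]
      exact f.2 q σ
  intro h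
  have h0 := Subgroup.index_dvd_of_le hle
  rw [show ((trivIdl L).subgroupOf (unitIdl L)).index = (trivIdl L).relIndex (unitIdl L) from rfl] at h0
  exact Subgroup.index_iInf_ne_zero hS (Nat.eq_zero_of_zero_dvd (h ▸ h0))

theorem normOK_trivIdl (H : Subgroup (L ≃ₐ[ℚ] L)) [Fintype H] : NormOK H (trivIdl L) := by
  classical
  have hD := fun q => (exists_trivial_units L q).choose_spec.2.2.1
  have hT := fun q => (exists_trivial_units L q).choose_spec.2.2.2.1
  have hsemi : ∀ x ∈ trivIdl L, ∀ q : Nat.Primes, SemiIn (toGlobal (q : ℕ) L) (trivUnits L q) (val x q) :=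
    fun x hx q => ⟨fun t σ => val_toGlobal_mul x q t σ, fun σ => hx q σ⟩
  refine ⟨fun x hx hfix => ?_, fun x hx hN => ?_⟩
  · have hinv : ∀ q σ, ∀ h ∈ H, val x q (σ * h) = val x q σ := fun q σ h hh => by
      rw [← val_smul, hfix ⟨h, hh⟩]
    choose y hy hyN using fun q : Nat.Primes => semi_norm_surj (toGlobal_injective (q : ℕ) L) (hD q) (hT q)
      (hsemi x hx q) (hinv q)
    let F : Family L := ⟨y, fun q t σ => (hy q).equi t σ,
      ⟨∅, fun q _ σ => (exists_trivial_units L q).choose_spec.1 ((hy q).mem σ)⟩⟩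
    refine ⟨F.toIdl, fun q σ => by rw [F.val_toIdl]; exact (hy q).mem σ, val_ext fun q σ => ?_⟩
    rw [val_prod, ← hyN q σ]
    refine Finset.prod_congr rfl fun h _ => ?_
    rw [val_smul, F.val_toIdl]
  · have hN' : ∀ q σ, ∏ h : H, val x q (σ * h) = 1 := fun q σ => by
      have := congrArg (fun f => val f q σ) hN
      simp only [val_prod, val_smul, val_one] at this
      exact this
    choose f hf hfN using fun q : Nat.Primes => semi_aug (toGlobal_injective (q : ℕ) L) (hD q) (hT q)
      (hsemi x hx q) (hN' q)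
    let F : H → Family L := fun h => ⟨fun q => f q h, fun q t σ => (hf q h).equi t σ,
      ⟨∅, fun q _ σ => (exists_trivial_units L q).choose_spec.1 ((hf q h).mem σ)⟩⟩
    refine ⟨fun h => (F h).toIdl, fun h q σ => by rw [(F h).val_toIdl]; exact (hf q h).mem σ,
      val_ext fun q σ => ?_⟩
    rw [val_prod, ← hfN q σ]
    refine Finset.prod_congr rfl fun h _ => ?_
    rw [show val _ q σ = _ from map_div (valHom q σ) _ _]
    show val _ q σ / val _ q σ = _
    rw [val_smul, (F h).val_toIdl, (F h).val_toIdl]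

/-- Twice one plus the rank of the invariant units is the degree of the fixed field. -/
theorem finrank_unitsFixed (S : Subgroup (L ≃ₐ[ℚ] L)) {p : ℕ} (hp2 : 2 < p) {ζ : L}
    (hζ : IsPrimitiveRoot ζ p) (hS : ∀ s ∈ S, s ζ = ζ) :
    2 * (Module.finrank ℤ (Additive ↥(fixedBy S Lˣ ⊓ unitsL L)) + 1) = S.index := by
  haveI : NumberField L := {}
  haveI : IsGalois ℚ L := ⟨⟩
  set F : IntermediateField ℚ L := IntermediateField.fixedField S
  haveI : NumberField F := {}
  let ι : (𝓞 F)ˣ →* Lˣ :=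
    Units.map ((algebraMap F L).comp (algebraMap (𝓞 F) F)).toMonoidHom
  have hι : Function.Injective ι := Units.map_injective
    ((algebraMap F L).injective.comp NumberField.RingOfIntegers.coe_injective)
  have hrange : ι.range = fixedBy S Lˣ ⊓ unitsL L := by
    ext x
    constructor
    · rintro ⟨u, rfl⟩
      refine ⟨fun s hs => Units.ext ?_, mem_unitsL_iff_isIntegral.2 ⟨?_, ?_⟩⟩
      · exact (IntermediateField.mem_fixedField_iff _ _).1 ((u : 𝓞 F) : F).2 s hs
      · exact (u : 𝓞 F).2.algebraMap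
      · rw [← map_inv]; exact ((u⁻¹ : (𝓞 F)ˣ) : 𝓞 F).2.algebraMap
    · rintro ⟨hfix, hu⟩
      have hu' := mem_unitsL_iff_isIntegral.1 hu
      have hF : ∀ y : Lˣ, y ∈ fixedBy S Lˣ → (y : L) ∈ F := fun y hy =>
        (IntermediateField.mem_fixedField_iff _ _).2 fun s hs => congrArg Units.val (hy s hs)
      let a : 𝓞 F := ⟨⟨(x : L), hF x hfix⟩,
        (isIntegral_algebraMap_iff (algebraMap F L).injective).1 hu'.1⟩
      let b : 𝓞 F := ⟨⟨((x⁻¹ : Lˣ) : L), hF _ (inv_mem hfix)⟩,
        (isIntegral_algebraMap_iff (algebraMap F L).injective).1 hu'.2⟩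
      exact ⟨⟨a, b, NumberField.RingOfIntegers.ext (Subtype.ext x.mul_inv),
        NumberField.RingOfIntegers.ext (Subtype.ext x.inv_mul)⟩, Units.ext rfl⟩
  rw [← hrange, ← LinearEquiv.finrank_eq
    (MonoidHom.ofInjective hι).toAdditive.toIntLinearEquiv, NumberField.Units.finrank_eq,
    NumberField.Units.rank]
  have hζF : ζ ∈ F := (IntermediateField.mem_fixedField_iff _ _).2 hS
  have hζ' : IsPrimitiveRoot (⟨ζ, hζF⟩ : F) p :=
    IsPrimitiveRoot.of_map_of_injective (f := algebraMap F L) hζ (algebraMap F L).injective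
  have hreal : NumberField.InfinitePlace.nrRealPlaces F = 0 :=
    NumberField.InfinitePlace.IsPrimitiveRoot.nrRealPlaces_eq_zero_of_two_lt hp2 hζ'
  have hdeg := NumberField.InfinitePlace.card_add_two_mul_card_eq_rank F
  have hcard := NumberField.InfinitePlace.card_eq_nrRealPlaces_add_nrComplexPlaces F
  have hpos : 0 < Fintype.card (NumberField.InfinitePlace F) := Fintype.card_pos
  have hFdeg : Module.finrank ℚ F = S.index := by
    have h1 := Module.finrank_mul_finrank ℚ F L
    rw [IntermediateField.finrank_fixedField_eq_card, ← IsGalois.card_aut_eq_finrank ℚ L,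
      ← S.index_mul_card] at h1
    exact Nat.eq_of_mul_eq_mul_right Nat.card_pos h1
  rw [hreal, hFdeg] at hdeg
  rw [hreal] at hcard
  omega

variable {p : ℕ} [hp : Fact p.Prime] {H K : Subgroup (L ≃ₐ[ℚ] L)} {g : L ≃ₐ[ℚ] L}
  (st : Step p H K g)

variable (L K) in
/-- The projection to invariant classes. -/
def classProj : fixedBy K (idl L) →* fixedBy K (ClassGrp L) where
  toFun f := ⟨QuotientGroup.mk (f : idl L), fun k hk =>
    (smul_mk L k (f : idl L)).trans (congrArg QuotientGroup.mk (f.2 k hk))⟩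
  map_one' := rfl
  map_mul' _ _ := rfl

theorem classProj_surjective : Function.Surjective (classProj L K) := fun x => by
  obtain ⟨f, hf, he⟩ := exists_fixed_rep K x.2
  exact ⟨⟨f, hf⟩, Subtype.ext he⟩

omit [FiniteDimensional ℚ ↥L] hp in
theorem classProj_dStep (f : fixedBy K (idl L)) :
    classProj L K (dStep (idl L) st f) = dStep (ClassGrp L) st (classProj L K f) :=
  Subtype.ext rfl

omit [FiniteDimensional ℚ ↥L] hp in
theorem classProj_nStep (f : fixedBy K (idl L)) :
    classProj L K (nStep (idl L) st f) = nStep (ClassGrp L) st (classProj L K f) := by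
  refine Subtype.ext ?_
  show (QuotientGroup.mk' (prinL L).range) ((nStep (idl L) st f : idl L)) = _
  rw [nStep_coe, map_prod, nStep_coe]
  exact Finset.prod_congr rfl fun i _ => (smul_mk L _ _).symm

omit [FiniteDimensional ℚ ↥L] in
theorem mem_units_ker_iff {f : fixedBy K (idl L)} :
    f ∈ subFixed K (unitIdl L) ⊓ (classProj L K).ker ↔
      ∃ c ∈ fixedBy K Lˣ ⊓ unitsL L, prinL L c = (f : idl L) := by
  rw [Subgroup.mem_inf, MonoidHom.mem_ker, Subtype.ext_iff]
  show (f : idl L) ∈ unitIdl L ∧ (QuotientGroup.mk (f : idl L) : ClassGrp L) = 1 ↔ _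
  rw [QuotientGroup.eq_one_iff]
  constructor
  · rintro ⟨hu, c, hc⟩
    exact ⟨c, ⟨prinL_mem_fixedBy_iff.1 (hc ▸ f.2),
      show prinL L c ∈ unitIdl L from hc ▸ hu⟩, hc⟩
  · rintro ⟨c, ⟨-, hc⟩, e⟩
    exact ⟨e ▸ hc, c, e⟩

set_option maxHeartbeats 1000000 in
include st in
/-- The Herbrand quotient of the invariant idele classes is `p`. -/
theorem first_inequality (hp2 : p ≠ 2) {ζ : L} (hζ : IsPrimitiveRoot ζ p)
    (hH : ∀ h ∈ H, h ζ = ζ) :
    ind0 (dStep (ClassGrp L) st) (nStep (ClassGrp L) st) =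
        p * ind0 (nStep (ClassGrp L) st) (dStep (ClassGrp L) st) ∧
      ind0 (nStep (ClassGrp L) st) (dStep (ClassGrp L) st) ≠ 0 := by
  classical
  haveI : Fintype H := Fintype.ofFinite H
  haveI : Fintype K := Fintype.ofFinite K
  have h2 : 2 < p := lt_of_le_of_ne hp.out.two_le (Ne.symm hp2)
  set A := fixedBy K (idl L)
  set d := dStep (idl L) st
  set N := nStep (idl L) st
  set U := subFixed K (unitIdl L)
  set π := classProj L K
  have hUd : U.map d ≤ U := map_dStep_le st fun σ x hx => smul_mem_unitIdl σ hx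
  have hUN : U.map N ≤ U := map_nStep_le st fun σ x hx => smul_mem_unitIdl σ hx
  -- units
  obtain ⟨t0, t1⟩ := ind0Sub_of_normOK st (D := trivIdl L)
    (fun σ x hx => smul_mem_trivIdl σ hx) (normOK_trivIdl H) (normOK_trivIdl K)
  have hidx : (subFixed K (trivIdl L)).relIndex U ≠ 0 := by
    show ((trivIdl L).comap A.subtype).relIndex _ ≠ 0
    rw [Subgroup.relIndex_comap]
    exact fun h => relIndex_trivIdl_ne_zero L
      (Subgroup.relIndex_eq_zero_of_le_right (by rintro _ ⟨x, hx, rfl⟩; exact hx) h)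
  have hU := ind0Sub_eq_of_triv d N hUd hUN (dStep_nStep st) (nStep_dStep st)
    (B := subFixed K (trivIdl L)) (fun x hx => trivIdl_le L hx)
    (map_dStep_le st fun σ x hx => smul_mem_trivIdl σ hx)
    (map_nStep_le st fun σ x hx => smul_mem_trivIdl σ hx) hidx t0 t1
  -- finite index
  have hcl : (U.map π).index ≠ 0 := by
    intro h
    rw [← Subgroup.index_comap_of_surjective _ classProj_surjective,
      Subgroup.comap_map_eq] at h
    haveI := finite_fixed_mod_units K
    have hle : unitsPrinFixed K ≤ U ⊔ π.ker := sup_le le_sup_left fun x hx =>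
      Subgroup.mem_sup_right (Subtype.ext ((QuotientGroup.eq_one_iff _).2 hx))
    have := Subgroup.index_dvd_of_le hle
    rw [h, zero_dvd_iff] at this
    exact Subgroup.index_ne_zero_of_finite this
  -- the global units
  set W := U ⊓ π.ker
  let eK : ↥(fixedBy K Lˣ ⊓ unitsL L) →* W := MonoidHom.mk'
    (fun c => ⟨⟨prinL L c, prinL_mem_fixedBy_iff.2 c.2.1⟩,
      mem_units_ker_iff.2 ⟨c, c.2, rfl⟩⟩) fun a b => Subtype.ext (Subtype.ext (map_mul _ _ _))
  have heK : Function.Bijective eK := by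
    refine ⟨fun a b hab => Subtype.ext (prinL_injective
      (congrArg (fun z : W => ((z : A) : idl L)) hab)), fun w => ?_⟩
    obtain ⟨c, hc, e⟩ := mem_units_ker_iff.1 w.2
    exact ⟨⟨c, hc⟩, Subtype.ext (Subtype.ext e)⟩
  haveI : Group.FG ↥(fixedBy K Lˣ ⊓ unitsL L) :=
    fg_of_le (inf_le_right : fixedBy K Lˣ ⊓ unitsL L ≤ unitsL L)
  haveI : Group.FG W := Group.fg_of_surjective (f := eK) heK.2
  have hdfix : ∀ w : A, d w = 1 ↔ g • (w : idl L) = w := fun w => mem_ker_dStep st
  let eH : ↥(fixedBy H Lˣ ⊓ unitsL L) →* ↥(W ⊓ d.ker) := MonoidHom.mk'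
    (fun c => ⟨⟨prinL L c, prinL_mem_fixedBy_iff.2 (fixedBy_anti st.le c.2.1)⟩,
      mem_units_ker_iff.2 ⟨c, ⟨fixedBy_anti st.le c.2.1, c.2.2⟩, rfl⟩,
      (hdfix _).2 (by
        show g • prinL L (c : Lˣ) = prinL L (c : Lˣ)
        rw [smul_prinL, c.2.1 g st.mem])⟩)
    fun a b => Subtype.ext (Subtype.ext (map_mul _ _ _))
  have heH : Function.Bijective eH := by
    refine ⟨fun a b hab => Subtype.ext (prinL_injective
      (congrArg (fun z : ↥(W ⊓ d.ker) => ((z : A) : idl L)) hab)), fun w => ?_⟩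
    obtain ⟨c, hc, e⟩ := mem_units_ker_iff.1 w.2.1
    have hg : g • c = c := prinL_injective (by
      rw [← smul_prinL, e]; exact (hdfix _).1 w.2.2)
    exact ⟨⟨c, st.mem_fixedBy_iff.2 ⟨hc.1, hg⟩, hc.2⟩, Subtype.ext (Subtype.ext e)⟩
  have hrank : Module.finrank ℤ (Additive W) + 1 =
      p * (Module.finrank ℤ (Additive ↥(W ⊓ d.ker)) + 1) := by
    rw [← LinearEquiv.finrank_eq (MulEquiv.ofBijective eK heK).toAdditive.toIntLinearEquiv,
      ← LinearEquiv.finrank_eq (MulEquiv.ofBijective eH heH).toAdditive.toIntLinearEquiv]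
    have hK := finrank_unitsFixed K h2 hζ fun k hk => hH k (st.le hk)
    have hHr := finrank_unitsFixed H h2 hζ hH
    have hmul := Subgroup.relIndex_mul_index st.le
    rw [st.relIndex, ← hK, ← hHr] at hmul
    linarith
  let σ : A →* A := MonoidHom.mk' (fun x => ⟨g • (x : idl L), by simpa using st.smul_mem x.2 1⟩)
    fun a b => Subtype.ext (smul_mul' g (a : idl L) (b : idl L))
  have hσi : ∀ (i : ℕ) (x : A), ((σ^[i] x : A) : idl L) = g ^ i • (x : idl L) := fun i => by
    induction i with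
    | zero => intro x; simp
    | succ i ih =>
      intro x
      rw [Function.iterate_succ_apply', pow_succ', mul_smul, ← ih]
      rfl
  have hσW : W.map σ ≤ W := by
    rintro _ ⟨w, hw, rfl⟩
    obtain ⟨c, hc, e⟩ := mem_units_ker_iff.1 hw
    refine mem_units_ker_iff.2 ⟨g • c, ⟨?_, smul_mem_unitsL g hc.2⟩, ?_⟩
    · simpa using st.smul_mem hc.1 1
    · rw [← smul_prinL, e]; rfl
  obtain ⟨hW1, hW0⟩ := herbrand_fg d N σ W h2 (fun x => Subtype.ext rfl)
    (fun x => Subtype.ext (by
      rw [nStep_coe, SubmonoidClass.coe_finsetProd]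
      exact Finset.prod_congr rfl fun i _ => (hσi i x).symm))
    (fun x => Subtype.ext ((hσi p x).trans (st.pow_smul_self x.2)))
    (dStep_nStep st) (nStep_dStep st) hσW hrank
  exact herbrand_target d N hUd hUN _ _ π hp.out.ne_zero (dStep_nStep st) (nStep_dStep st)
    (dStep_nStep st) (nStep_dStep st) (classProj_dStep st) (classProj_nStep st) hcl hU hW1 hW0

include st in
/-- Some invariant idele is not a norm times a principal idele. -/
theorem exists_not_norm (hp2 : p ≠ 2) {ζ : L} (hζ : IsPrimitiveRoot ζ p)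
    (hH : ∀ h ∈ H, h ζ = ζ) :
    ∃ x ∈ fixedBy H (idl L), ∀ c ∈ fixedBy H Lˣ, ∀ y ∈ fixedBy K (idl L),
      x ≠ prinL L c * ∏ i ∈ Finset.range p, g ^ i • y := by
  by_contra hcon
  push Not at hcon
  obtain ⟨h1, -⟩ := first_inequality st hp2 hζ hH
  have h : ind0 (dStep (ClassGrp L) st) (nStep (ClassGrp L) st) = 1 := by
    rw [ind0, Subgroup.relIndex_eq_one]
    intro x hx
    obtain ⟨f, hf, hfx⟩ := exists_fixed_rep H
      (st.mem_fixedBy_iff.2 ⟨x.2, (mem_ker_dStep st).1 hx⟩)
    obtain ⟨c, -, y, hy, e⟩ := hcon f hf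
    refine ⟨classProj L K ⟨y, hy⟩, Subtype.ext ?_⟩
    rw [← classProj_nStep, ← hfx, e]
    show (QuotientGroup.mk _ : ClassGrp L) = QuotientGroup.mk _
    rw [QuotientGroup.eq_iff_div_mem, nStep_coe, div_mul_cancel_right, ← map_inv]
    exact ⟨_, rfl⟩
  rw [h] at h1
  exact hp.out.ne_one (Nat.eq_one_of_mul_eq_one_right h1.symm)

end Fermat.Agent.CFT.Idele
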