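import Fermat.Agent.CFT.Idele.ClassFinite
import Mathlib.NumberTheory.NumberField.Units.DirichletTheorem
import Mathlib.GroupTheory.FiniteAbelian.Basic
import Mathlib.GroupTheory.Finiteness
import Fermat.Agent.CFT.Idele.UnitLattice

/-!
# Invariant idele classes

Invariant classes come from invariant ideles (Hilbert 90), and invariant ideles modulo invariant
units and invariant principal ideles form a finite group.
-/

set_option autoImplicit false

noncomputable section

namespace Fermat.Agent.CFT.Idele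

open ExtCitation Fermat.Agent.Arith IntermediateField Fermat.Agent.CFT.Local groupCohomology
open scoped NumberField

local instance factPrimeFC (q : Nat.Primes) : Fact (q : ℕ).Prime := ⟨q.2⟩

/-- A killed image of a subgroup of a finitely generated commutative group is finite. -/
theorem finite_of_killed {A B Q : Type*} [CommGroup A] [Group.FG A] [CommGroup B] [CommGroup Q]
    (φ : B →* A) (π : B →* Q) (hπ : Function.Surjective π) (hker : φ.ker ≤ π.ker) {n : ℕ}
    (hn : 0 < n) (hQ : ∀ x : Q, x ^ n = 1) : Finite Q := by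
  have : Group.FG φ.range := fg_sub _
  let ψ : φ.range →* Q :=
    (QuotientGroup.lift φ.ker π hker).comp (QuotientGroup.quotientKerEquivRange φ).symm.toMonoidHom
  have hψ : Function.Surjective ψ :=
    (QuotientGroup.lift_surjective_of_surjective φ.ker π hπ hker).comp
      (QuotientGroup.quotientKerEquivRange φ).symm.surjective
  have : Group.FG Q := Group.fg_of_surjective hψ
  exact CommGroup.finite_of_fg_isMulTorsion Q fun x =>
    isOfFinOrder_iff_pow_eq_one.2 ⟨n, hn, hQ x⟩

variable (L : IntermediateField ℚ QBar) [FiniteDimensional ℚ L] [Normal ℚ L]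

/-- The units of the ring of integers inside `Lˣ`. -/
def unitsL : Subgroup Lˣ := (unitIdl L).comap (prinL L)

theorem mem_unitsL {x : Lˣ} : x ∈ unitsL L ↔ ∀ q σ, absAt q σ (x : L) = 1 := by
  simp only [unitsL, Subgroup.mem_comap, mem_unitIdl, mem_unitGroup, norm_val_prinL]

theorem mem_unitsL_iff_isIntegral {L : IntermediateField ℚ QBar} [FiniteDimensional ℚ L] [Normal ℚ L]
    {x : Lˣ} :
    x ∈ unitsL L ↔ IsIntegral ℤ (x : L) ∧ IsIntegral ℤ ((x⁻¹ : Lˣ) : L) := by
  refine ⟨fun hx => ?_, fun ⟨h1, h2⟩ => (mem_unitsL L).2 fun q σ => ?_⟩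
  · have hint : ∀ y : Lˣ, y ∈ unitsL L → IsIntegral ℤ (y : L) := fun y hy =>
      (isIntegral_algebraMap_iff (algebraMap L QBar).injective).1
        (isIntegral_of_norm_le_one fun q g => by
          have h' : absAt q (res L g) (y : L) ≤ 1 := le_of_eq ((mem_unitsL L).1 hy q (res L g))
          rw [absAt, norm_localEmb, res_apply] at h'
          exact h')
    exact ⟨hint x hx, hint _ (inv_mem hx)⟩
  · have hle : ∀ v : L, IsIntegral ℤ v → absAt q σ v ≤ 1 := fun v hv =>
      absAt_le_one (hv.map ((L.val).restrictScalars ℤ)) q σ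
    have h : absAt q σ (x : L) * absAt q σ ((x⁻¹ : Lˣ) : L) = 1 := by
      rw [← absAt_mul, Units.mul_inv]; simp [absAt]
    refine le_antisymm (hle _ h1) ?_
    rw [← h]
    exact mul_le_of_le_one_right (norm_nonneg _) (hle _ h2)

theorem unitsL_eq_range :
    unitsL L = (Units.map (algebraMap (𝓞 L) L).toMonoidHom).range := by
  ext x
  rw [mem_unitsL_iff_isIntegral]
  refine ⟨fun ⟨h1, h2⟩ => ⟨⟨⟨_, h1⟩, ⟨_, h2⟩, Subtype.ext x.mul_inv, Subtype.ext x.inv_mul⟩,
    Units.ext rfl⟩, ?_⟩
  rintro ⟨u, rfl⟩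
  exact ⟨(u : 𝓞 L).2, by rw [← map_inv]; exact ((u⁻¹ : (𝓞 L)ˣ) : 𝓞 L).2⟩

instance unitsL_fg : Group.FG (unitsL L) := by
  have : NumberField L := {}
  have : Group.FG (𝓞 L)ˣ := Group.fg_iff_monoid_fg.mpr inferInstance
  rw [unitsL_eq_range]
  infer_instance

variable {L}

omit [FiniteDimensional ℚ ↥L] in
theorem smul_mem_unitsL (σ : L ≃ₐ[ℚ] L) {x : Lˣ} (hx : x ∈ unitsL L) : σ • x ∈ unitsL L := by
  show prinL L (σ • x) ∈ unitIdl L
  rw [← smul_prinL]
  exact smul_mem_unitIdl σ hx

omit [FiniteDimensional ℚ L] in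
theorem prinL_mem_fixedBy_iff {H : Subgroup (L ≃ₐ[ℚ] L)} {c : Lˣ} :
    prinL L c ∈ fixedBy H (idl L) ↔ c ∈ fixedBy H Lˣ := by
  refine forall₂_congr fun h _ => ?_
  rw [smul_prinL, prinL_injective.eq_iff]

variable (H : Subgroup (L ≃ₐ[ℚ] L))

/-- Hilbert 90: an invariant class contains an invariant idele. -/
theorem exists_fixed_rep {x : ClassGrp L} (hx : x ∈ fixedBy H (ClassGrp L)) :
    ∃ f ∈ fixedBy H (idl L), QuotientGroup.mk f = x := by
  obtain ⟨f, rfl⟩ := QuotientGroup.mk_surjective x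
  have h1 : ∀ h : H, ∃ c : Lˣ, prinL L c = (h : L ≃ₐ[ℚ] L) • f / f := fun h => by
    have := QuotientGroup.eq_iff_div_mem.1 ((smul_mk L (h : L ≃ₐ[ℚ] L) f).symm.trans (hx h h.2))
    exact this
  choose c hc using h1
  have hcoc : IsCocycle₁ (fun h : H => Additive.ofMul (c h)) := fun g h => by
    refine congrArg Additive.ofMul (prinL_injective ?_)
    show prinL L (c (g * h)) = prinL L ((g : L ≃ₐ[ℚ] L) • c h * c g)
    rw [map_mul, ← smul_prinL, hc, hc, hc, smul_div', smul_smul, div_mul_div_cancel]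
    rfl
  obtain ⟨a, ha⟩ := h1Zero_units H _ hcoc
  refine ⟨f / prinL L a.toMul, fun h hh => ?_, ?_⟩
  · have e : h • a.toMul / a.toMul = c ⟨h, hh⟩ := congrArg Additive.toMul (ha ⟨h, hh⟩)
    have e' : h • prinL L a.toMul / prinL L a.toMul = h • f / f := by
      rw [smul_prinL, ← map_div, e]; exact hc ⟨h, hh⟩
    rw [smul_div']
    rw [div_eq_div_iff_mul_eq_mul] at e' ⊢
    rw [← e']; exact mul_comm _ _
  · rw [QuotientGroup.eq_iff_div_mem, div_div_cancel_left, ← map_inv]
    exact ⟨_, rfl⟩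

/-- Elements whose conjugates differ by units. -/
def almostFixed : Subgroup Lˣ where
  carrier := {a | ∀ h ∈ H, h • a / a ∈ unitsL L}
  one_mem' h _ := by simp
  mul_mem' {a b} ha hb h hh := by
    rw [smul_mul', ← div_mul_div_comm]; exact mul_mem (ha h hh) (hb h hh)
  inv_mem' {a} ha h hh := by
    rw [smul_inv', inv_div_inv, ← inv_div]; exact inv_mem (ha h hh)

/-- Invariant elements times units, inside `almostFixed`. -/
def almostTriv : Subgroup (almostFixed H) :=
  (fixedBy H Lˣ ⊔ unitsL L).comap (almostFixed H).subtype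

theorem finite_almostFixed : Finite (almostFixed H ⧸ almostTriv H) := by
  classical
  have : Fintype H := Fintype.ofFinite H
  let φ : almostFixed H →* (H → unitsL L) :=
    MonoidHom.mk' (fun a h => ⟨(h : L ≃ₐ[ℚ] L) • (a : Lˣ) / a, a.2 h h.2⟩) fun a b => by
      funext h
      exact Subtype.ext (by simp [smul_mul', div_mul_div_comm])
  refine finite_of_killed φ (QuotientGroup.mk' (almostTriv H)) (QuotientGroup.mk'_surjective _)
    (fun a ha => ?_) (Fintype.card_pos (α := H)) fun x => ?_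
  · rw [QuotientGroup.ker_mk']
    refine Subgroup.mem_comap.2 (Subgroup.mem_sup_left fun h hh => ?_)
    exact div_eq_one.1 (congrArg Subtype.val (congrFun ha ⟨h, hh⟩))
  · obtain ⟨a, rfl⟩ := QuotientGroup.mk_surjective x
    rw [← QuotientGroup.mk_pow, QuotientGroup.eq_one_iff]
    show ((a ^ Fintype.card H : almostFixed H) : Lˣ) ∈ fixedBy H Lˣ ⊔ unitsL L
    rw [SubmonoidClass.coe_pow]
    have e : (a : Lˣ) ^ Fintype.card H = (∏ h : H, (h : L ≃ₐ[ℚ] L) • (a : Lˣ)) *
        (∏ h : H, ((h : L ≃ₐ[ℚ] L) • (a : Lˣ) / a))⁻¹ := by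
      rw [Finset.prod_div_distrib, Finset.prod_const, Finset.card_univ, inv_div, mul_div_cancel]
    rw [e]
    exact mul_mem (Subgroup.mem_sup_left (prod_smul_mem_fixedBy H _))
      (Subgroup.mem_sup_right (inv_mem (Subgroup.prod_mem _ fun h _ => a.2 h h.2)))

/-- Invariant units times invariant principal ideles. -/
def unitsPrinFixed : Subgroup (fixedBy H (idl L)) :=
  subFixed H (unitIdl L) ⊔ subFixed H (prinL L).range

theorem finite_fixed_mod_units : Finite (fixedBy H (idl L) ⧸ unitsPrinFixed H) := by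
  classical
  have := finite_classes_mod_units (L := L)
  have := finite_almostFixed H
  set V := unitIdl L ⊔ (prinL L).range
  let base : idl L ⧸ V → fixedBy H (idl L) := fun v =>
    if h : ∃ f : fixedBy H (idl L), QuotientGroup.mk (f : idl L) = v then h.choose else 1
  have hsplit : ∀ f : fixedBy H (idl L), ∃ a : almostFixed H, ∃ u ∈ unitIdl L,
      u * prinL L (a : Lˣ) =
        ((f / base (QuotientGroup.mk (f : idl L)) : fixedBy H (idl L)) : idl L) := by
    intro f
    have hb : (QuotientGroup.mk (base (QuotientGroup.mk (f : idl L)) : idl L) : idl L ⧸ V) =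
        QuotientGroup.mk (f : idl L) := by
      have ex : ∃ f' : fixedBy H (idl L), (QuotientGroup.mk (f' : idl L) : idl L ⧸ V) =
          QuotientGroup.mk (f : idl L) := ⟨f, rfl⟩
      simp only [base, dif_pos ex]
      exact ex.choose_spec
    have hmem := QuotientGroup.eq_iff_div_mem.1 hb.symm
    obtain ⟨u, hu, _, ⟨a, rfl⟩, e⟩ := Subgroup.mem_sup.1 hmem
    refine ⟨⟨a, fun h hh => ?_⟩, u, hu, e.trans rfl⟩
    show prinL L (h • a / a) ∈ unitIdl L
    have hfix := (f / base (QuotientGroup.mk (f : idl L))).2 h hh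
    rw [SubgroupClass.coe_div, ← e, smul_mul', ← div_eq_one, mul_div_mul_comm, smul_prinL,
      ← map_div, mul_eq_one_iff_eq_inv'] at hfix
    rw [hfix]
    exact inv_mem (div_mem (smul_mem_unitIdl h hu) hu)
  choose a u hu hau using hsplit
  let Φ : fixedBy H (idl L) ⧸ unitsPrinFixed H → (idl L ⧸ V) × (almostFixed H ⧸ almostTriv H) :=
    fun c => (QuotientGroup.mk (c.out : idl L), QuotientGroup.mk (a c.out))
  refine Finite.of_injective Φ fun c c' hcc => ?_
  obtain ⟨h1, h2⟩ := Prod.ext_iff.1 hcc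
  rw [← QuotientGroup.out_eq' c, ← QuotientGroup.out_eq' c', QuotientGroup.eq_iff_div_mem]
  set f := c.out
  set f' := c'.out
  have hmem := QuotientGroup.eq_iff_div_mem.1 h2
  obtain ⟨b, hb, e, he, hbe⟩ := Subgroup.mem_sup.1 (Subgroup.mem_comap.1 hmem)
  have key : ((f / f' : fixedBy H (idl L)) : idl L) =
      (u f / u f' * prinL L e) * prinL L b := by
    have hbase : base (QuotientGroup.mk (f : idl L)) = base (QuotientGroup.mk (f' : idl L)) :=
      congrArg base h1
    have hq : ((f / f' : fixedBy H (idl L)) : idl L) =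
        ((f / base (QuotientGroup.mk (f : idl L)) : fixedBy H (idl L)) : idl L) /
          ((f' / base (QuotientGroup.mk (f' : idl L)) : fixedBy H (idl L)) : idl L) := by
      rw [← hbase, ← SubgroupClass.coe_div (f / _), div_div_div_cancel_right]
    rw [hq, ← hau, ← hau, mul_div_mul_comm, ← map_div, mul_assoc, ← map_mul, mul_comm e b, hbe]
    rfl
  have hbfix : prinL L b ∈ fixedBy H (idl L) := prinL_mem_fixedBy_iff.2 hb
  have hleft : u f / u f' * prinL L e ∈ fixedBy H (idl L) := by
    rw [eq_mul_inv_of_mul_eq key.symm]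
    exact mul_mem (f / f').2 (inv_mem hbfix)
  rw [show f / f' = (⟨_, hleft⟩ : fixedBy H (idl L)) * ⟨_, hbfix⟩ from Subtype.ext key]
  refine Subgroup.mul_mem_sup ?_ ⟨b, rfl⟩
  exact mul_mem (div_mem (hu f) (hu f')) he

/-- There are finitely many primes such that invariant ideles are units outside them, up to
invariant principal ideles. -/
theorem exists_finset_fixed_classes (T₀ : Finset Nat.Primes) :
    ∃ T : Finset Nat.Primes, T₀ ⊆ T ∧ ∀ f ∈ fixedBy H (idl L), ∃ c : Lˣ,
      c ∈ fixedBy H Lˣ ∧ ∀ q ∉ T, ∀ σ, val (f * prinL L c) q σ ∈ unitGroup (E L q) := by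
  classical
  have := finite_fixed_mod_units H
  have := Fintype.ofFinite (fixedBy H (idl L) ⧸ unitsPrinFixed H)
  choose T hT using fun c : fixedBy H (idl L) ⧸ unitsPrinFixed H =>
    val_mem_unitGroup_cofinite (c.out : idl L)
  refine ⟨T₀ ∪ Finset.univ.biUnion T, Finset.subset_union_left, fun f hf => ?_⟩
  set c : fixedBy H (idl L) ⧸ unitsPrinFixed H := QuotientGroup.mk ⟨f, hf⟩ with hc
  have hd := QuotientGroup.eq_iff_div_mem.1 (QuotientGroup.out_eq' c)
  obtain ⟨u, hu, w, ⟨b, hb⟩, e⟩ := Subgroup.mem_sup.1 hd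
  change prinL L b = (w : idl L) at hb
  have hbfix : b ∈ fixedBy H Lˣ := prinL_mem_fixedBy_iff.1 (by rw [hb]; exact w.2)
  refine ⟨b, hbfix, fun q hq σ => ?_⟩
  have e' : f * prinL L b = (c.out : idl L) / (u : idl L) := by
    have := congrArg Subtype.val e
    simp only [Subgroup.coe_mul, SubgroupClass.coe_div] at this
    rw [hb, eq_div_iff_mul_eq', mul_assoc, mul_comm (w : idl L), this, mul_div_cancel]
  rw [e', show val ((c.out : idl L) / (u : idl L)) q σ = _ from map_div (valHom q σ) _ _]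
  refine div_mem ?_ (hu q σ)
  simp only [Finset.mem_union, Finset.mem_biUnion, Finset.mem_univ, true_and, not_or,
    not_exists] at hq
  exact hT c q (hq.2 c) σ

/-- The same for the ideles of a subfield. -/
theorem exists_finset_idl_classes {K : IntermediateField ℚ QBar} (hK : K ≤ L)
    (T₀ : Finset Nat.Primes) :
    ∃ T : Finset Nat.Primes, T₀ ⊆ T ∧ ∀ f ∈ idl K, ∃ c ∈ unitsOf K,
      ∀ q ∉ T, ∀ g : GQ, ‖(((f * prin c) q g : (Ω q)ˣ) : Ω q)‖ = 1 := by
  set H : Subgroup (L ≃ₐ[ℚ] L) := K.fixingSubgroup.map (res L)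
  obtain ⟨T, hT₀, hT⟩ := exists_finset_fixed_classes H T₀
  refine ⟨T, hT₀, fun f hf => ?_⟩
  obtain ⟨c, hc, hcT⟩ := hT ⟨f, idl_mono hK hf⟩ fun h hh => by
    obtain ⟨s, hs, rfl⟩ := hh
    refine Subtype.ext ((coe_smul_idl L _ _ (rfl : res L s = _)).trans ?_)
    exact (mem_idl.1 hf).2.2 s hs
  refine ⟨Units.map L.val.toRingHom.toMonoidHom c, ?_, fun q hq g => ?_⟩
  · show ((c : L) : QBar) ∈ K
    rw [← InfiniteGalois.fixedField_fixingSubgroup K, IntermediateField.mem_fixedField_iff]
    intro s hs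
    have := congrArg Units.val (hc (res L s) ⟨s, hs, rfl⟩)
    exact (res_apply L s (c : L)).symm.trans (congrArg Subtype.val this)
  · have := (mem_unitGroup _).1 (hcT q hq (res L g))
    rwa [norm_val _ q rfl] at this

end Fermat.Agent.CFT.Idele
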