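import Fermat.Agent.CFT.Idele.FixedClasses

/-!
# Functoriality in the field

For `L ≤ L'` normal over `ℚ`: the inclusions of ideles and idele classes, and descent.
-/

set_option autoImplicit false

noncomputable section

namespace Fermat.Agent.CFT.Idele

open ExtCitation Fermat.Agent.Arith IntermediateField Fermat.Agent.CFT.Local

variable {L L' : IntermediateField ℚ QBar} [FiniteDimensional ℚ L] [Normal ℚ L]
  [FiniteDimensional ℚ L'] [Normal ℚ L'] (hLL : L ≤ L')

omit [FiniteDimensional ℚ L] [FiniteDimensional ℚ L'] in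
include hLL in
theorem res_eq_of_res_eq {g g' : GQ} (h : res L' g = res L' g') : res L g = res L g' :=
  (res_eq_iff L).2 (IntermediateField.fixingSubgroup_antitone hLL ((res_eq_iff L').1 h))

/-- Restriction from `L'` to `L`. -/
def resTo : (L' ≃ₐ[ℚ] L') →* (L ≃ₐ[ℚ] L) :=
  MonoidHom.mk' (fun σ => res L (lift L' σ)) fun σ τ => by
    rw [← map_mul (res L)]
    exact res_eq_of_res_eq hLL (by simp only [map_mul, res_lift])

omit [FiniteDimensional ℚ L] [FiniteDimensional ℚ L'] in
theorem resTo_res (g : GQ) : resTo hLL (res L' g) = res L g :=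
  res_eq_of_res_eq hLL (res_lift L' _)

/-- The inclusion of ideles. -/
def inclIdl : idl L →* idl L' := Subgroup.inclusion (idl_mono hLL)

omit [FiniteDimensional ℚ L] [FiniteDimensional ℚ L'] [Normal ℚ L] [Normal ℚ L'] in
theorem coe_inclIdl (f : idl L) : ((inclIdl hLL f : idl L') : PreIdele) = f := rfl

end Fermat.Agent.CFT.Idele
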