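import Fermat.Agent.CFT.Idele.Values

/-!
# The Kummer pairing

For a subfield `K` of `ℚ̄` containing a primitive `p`-th root of unity `ζ` and `σ` fixing `K`,
`kum hζ σ b` is the exponent of `σ β / β` (`β ^ p = b`); for a group `U ≤ Kˣ` saturated for `p`-th
powers with `U / U ^ p` finite every functional on `U / U ^ p` is a Kummer functional.
-/

set_option autoImplicit false
set_option linter.style.haveILetI false

noncomputable section

namespace Fermat.Agent.CFT.Idele

open Fermat.Agent.Arith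

variable {p : ℕ} [hp : Fact p.Prime]

variable (p) in
/-- A `p`-th root. -/
def rootP (b : QBar) : QBar := (IsAlgClosed.exists_pow_nat_eq b hp.out.pos).choose

theorem rootP_pow (b : QBar) : rootP p b ^ p = b :=
  (IsAlgClosed.exists_pow_nat_eq b hp.out.pos).choose_spec

theorem rootP_ne_zero {b : QBar} (hb : b ≠ 0) : rootP p b ≠ 0 := fun h => hb (by
  rw [← rootP_pow (p := p) b, h, zero_pow hp.out.ne_zero])

variable {ζ : QBar} {K : IntermediateField ℚ QBar}

theorem exists_eq_zeta_pow_mul (hζ : IsPrimitiveRoot ζ p) {β γ : QBar} (hγ : γ ≠ 0)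
    (h : β ^ p = γ ^ p) : ∃ i < p, β = ζ ^ i * γ := by
  obtain ⟨i, hi, e⟩ := hζ.eq_pow_of_pow_eq_one (ξ := β / γ)
    (by rw [div_pow, h, div_self (pow_ne_zero _ hγ)])
  exact ⟨i, hi, by rw [e, div_mul_cancel₀ _ hγ]⟩

theorem natCast_eq_of_zeta_pow_eq (hζ : IsPrimitiveRoot ζ p) {a b : ℕ} (h : ζ ^ a = ζ ^ b) :
    (a : ZMod p) = b := by
  have h2 := (hζ.isOfFinOrder hp.out.ne_zero).pow_eq_pow_iff_modEq.mp h
  rwa [← hζ.eq_orderOf, ← ZMod.natCast_eq_natCast_iff] at h2

theorem zeta_pow_val (hζ : IsPrimitiveRoot ζ p) (n : ℕ) : ζ ^ (n : ZMod p).val = ζ ^ n := by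
  rw [ZMod.val_natCast]
  exact (pow_eq_pow_mod n hζ.pow_eq_one).symm

omit hp in
theorem map_pow_root_eq {σ : GQ} (hσ : σ ∈ K.fixingSubgroup) {b β : QBar} (hb : b ∈ K)
    (hβ : β ^ p = b) : σ β ^ p = β ^ p := by
  rw [← map_pow, hβ]
  exact (IntermediateField.mem_fixingSubgroup_iff _ _).mp hσ b hb

open Classical in
/-- The Kummer exponent of `σ` at `b`. -/
def kum (_hζ : IsPrimitiveRoot ζ p) (σ : GQ) (b : QBar) : ZMod p :=
  if h : ∃ i : ℕ, σ (rootP p b) = ζ ^ i * rootP p b then (h.choose : ZMod p) else 0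

variable (hζ : IsPrimitiveRoot ζ p) (hζK : ζ ∈ K)

include hζK in
theorem kum_spec {σ : GQ} (hσ : σ ∈ K.fixingSubgroup) {b β : QBar} (hb : b ∈ K) (hb0 : b ≠ 0)
    (hβ : β ^ p = b) : σ β = ζ ^ (kum hζ σ b).val * β := by
  classical
  have hr0 := rootP_ne_zero (p := p) hb0
  obtain ⟨i₀, -, hi₀⟩ := exists_eq_zeta_pow_mul hζ hr0
    (map_pow_root_eq hσ hb (rootP_pow (p := p) b))
  have hex : ∃ i : ℕ, σ (rootP p b) = ζ ^ i * rootP p b := ⟨i₀, hi₀⟩
  obtain ⟨j, -, hj⟩ := exists_eq_zeta_pow_mul hζ hr0 (hβ.trans (rootP_pow b).symm)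
  have hspec := hex.choose_spec
  rw [kum, dif_pos hex, zeta_pow_val hζ, hj, map_mul, map_pow,
    (IntermediateField.mem_fixingSubgroup_iff _ _).mp hσ ζ hζK]
  linear_combination ζ ^ j * hspec

include hζK in
theorem kum_eq {σ : GQ} (hσ : σ ∈ K.fixingSubgroup) {b β : QBar} (hb : b ∈ K) (hb0 : b ≠ 0)
    (hβ : β ^ p = b) {i : ℕ} (hi : σ β = ζ ^ i * β) : kum hζ σ b = i := by
  have hβ0 : β ≠ 0 := fun h => hb0 (by rw [← hβ, h, zero_pow hp.out.ne_zero])
  have := (kum_spec hζ hζK hσ hb hb0 hβ).symm.trans hi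
  rw [← natCast_eq_of_zeta_pow_eq hζ (mul_right_cancel₀ hβ0 this), ZMod.natCast_zmod_val]

include hζK in
theorem kum_eq_zero_iff {σ : GQ} (hσ : σ ∈ K.fixingSubgroup) {b β : QBar} (hb : b ∈ K)
    (hb0 : b ≠ 0) (hβ : β ^ p = b) : kum hζ σ b = 0 ↔ σ β = β := by
  constructor
  · intro h
    rw [kum_spec hζ hζK hσ hb hb0 hβ, h, ZMod.val_zero, pow_zero, one_mul]
  · intro h
    rw [kum_eq hζ hζK hσ hb hb0 hβ (i := 0) (by rw [pow_zero, one_mul, h]), Nat.cast_zero]

include hζK in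
theorem kum_mul {σ : GQ} (hσ : σ ∈ K.fixingSubgroup) {b c : QBar} (hb : b ∈ K) (hb0 : b ≠ 0)
    (hc : c ∈ K) (hc0 : c ≠ 0) : kum hζ σ (b * c) = kum hζ σ b + kum hζ σ c := by
  have h := kum_eq hζ hζK hσ (mul_mem hb hc) (mul_ne_zero hb0 hc0)
    (β := rootP p b * rootP p c) (by rw [mul_pow, rootP_pow, rootP_pow])
    (i := (kum hζ σ b).val + (kum hζ σ c).val) (by
      rw [map_mul, kum_spec hζ hζK hσ hb hb0 (rootP_pow b),
        kum_spec hζ hζK hσ hc hc0 (rootP_pow c), pow_add]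
      ring)
  rw [h, Nat.cast_add, ZMod.natCast_zmod_val, ZMod.natCast_zmod_val]

include hζK in
theorem kum_comp {σ τ : GQ} (hσ : σ ∈ K.fixingSubgroup) (hτ : τ ∈ K.fixingSubgroup) {b : QBar}
    (hb : b ∈ K) (hb0 : b ≠ 0) : kum hζ (σ * τ) b = kum hζ σ b + kum hζ τ b := by
  have h := kum_eq hζ hζK (mul_mem hσ hτ) hb hb0 (rootP_pow b)
    (i := (kum hζ σ b).val + (kum hζ τ b).val) (by
      rw [AlgEquiv.mul_apply, kum_spec hζ hζK hτ hb hb0 (rootP_pow b), map_mul, map_pow,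
        (IntermediateField.mem_fixingSubgroup_iff _ _).mp hσ ζ hζK,
        kum_spec hζ hζK hσ hb hb0 (rootP_pow b), pow_add]
      ring)
  rw [h, Nat.cast_add, ZMod.natCast_zmod_val, ZMod.natCast_zmod_val]

include hζK in
theorem kum_pow_mul {σ : GQ} (hσ : σ ∈ K.fixingSubgroup) {b : QBar} (hb : b ∈ K) (hb0 : b ≠ 0)
    (n : ℕ) : kum hζ (σ ^ n) b = n * kum hζ σ b := by
  induction n with
  | zero =>
    rw [pow_zero, Nat.cast_zero, zero_mul]
    exact (kum_eq_zero_iff hζ hζK (one_mem _) hb hb0 (rootP_pow b)).mpr rfl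
  | succ n ih =>
    rw [pow_succ, kum_comp hζ hζK (pow_mem hσ n) hσ hb hb0, ih, Nat.cast_succ, add_one_mul]

section Group

variable (p) in
/-- `U / U ^ p`, additively. -/
abbrev ModP (U : Subgroup QBarˣ) : Type := Additive (U ⧸ (powMonoidHom p : U →* U).range)

variable {U : Subgroup QBarˣ}

/-- Shortcut instance. -/
instance modPAddCommGroup : AddCommGroup (ModP p U) := inferInstance

variable (p) in
/-- The class of an element of `U`. -/
def modClass (x : U) : ModP p U := Additive.ofMul (QuotientGroup.mk x)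

omit hp in
theorem modClass_surjective : Function.Surjective (modClass p (U := U)) := fun v =>
  (QuotientGroup.mk_surjective v.toMul).elim fun x hx => ⟨x, congrArg Additive.ofMul hx⟩

omit hp in
theorem modClass_mul (x y : U) : modClass p (x * y) = modClass p x + modClass p y := rfl

omit hp in
theorem modClass_eq_zero_iff (x : U) : modClass p x = 0 ↔ ∃ y : U, y ^ p = x :=
  (Additive.ofMul.injective.eq_iff' rfl).trans (QuotientGroup.eq_one_iff x)

omit hp in
theorem nsmul_modP (v : ModP p U) : p • v = 0 := by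
  obtain ⟨x, rfl⟩ := modClass_surjective v
  exact congrArg Additive.ofMul ((QuotientGroup.eq_one_iff (x ^ p)).mpr ⟨x, rfl⟩)

instance modPModule : Module (ZMod p) (ModP p U) := AddCommGroup.zmodModule (n := p) fun v => nsmul_modP v

variable (hU : U ≤ unitsOf K)

include hζK hU in
theorem kum_pow_eq_zero {σ : GQ} (hσ : σ ∈ K.fixingSubgroup) (x : U) :
    kum hζ σ (((x : QBarˣ) : QBar) ^ p) = 0 := by
  have hx : ((x : QBarˣ) : QBar) ∈ K := hU x.2
  exact (kum_eq_zero_iff hζ hζK hσ (pow_mem hx p) (pow_ne_zero _ (Units.ne_zero _)) rfl).mpr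
    ((IntermediateField.mem_fixingSubgroup_iff _ _).mp hσ _ hx)

/-- The Kummer functional of `σ`. -/
def kumFun (hζK : ζ ∈ K) (hU : U ≤ unitsOf K) (σ : K.fixingSubgroup) :
    Module.Dual (ZMod p) (ModP p U) :=
  AddMonoidHom.toZModLinearMap p (MonoidHom.toAdditiveLeft (QuotientGroup.lift _
    ({ toFun := fun x => Multiplicative.ofAdd (kum hζ (σ : GQ) ((x : QBarˣ) : QBar))
       map_one' := by
        rw [← ofAdd_zero]
        congr 1
        exact (kum_eq_zero_iff hζ hζK σ.2 (one_mem K) one_ne_zero (one_pow p)).mpr (map_one _)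
       map_mul' := fun x y => by
        rw [← ofAdd_add, ← kum_mul hζ hζK σ.2 (hU x.2) (Units.ne_zero _) (hU y.2)
          (Units.ne_zero _)]
        rfl } : U →* Multiplicative (ZMod p))
    (by
      rintro _ ⟨x, rfl⟩
      rw [MonoidHom.mem_ker]
      show Multiplicative.ofAdd (kum hζ (σ : GQ) (((x ^ p : U) : QBarˣ) : QBar)) = 1
      rw [← ofAdd_zero, SubmonoidClass.coe_pow, Units.val_pow_eq_pow_val,
        kum_pow_eq_zero hζ hζK hU σ.2])))

theorem kumFun_modClass (σ : K.fixingSubgroup) (x : U) :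
    kumFun hζ hζK hU σ (modClass p x) = kum hζ (σ : GQ) ((x : QBarˣ) : QBar) := rfl

theorem kumFun_mul (σ τ : K.fixingSubgroup) :
    kumFun hζ hζK hU (σ * τ) = kumFun hζ hζK hU σ + kumFun hζ hζK hU τ := by
  refine LinearMap.ext fun v => ?_
  obtain ⟨x, rfl⟩ := modClass_surjective v
  rw [LinearMap.add_apply, kumFun_modClass, kumFun_modClass, kumFun_modClass]
  exact kum_comp hζ hζK σ.2 τ.2 (hU x.2) (Units.ne_zero _)

/-- The Kummer functionals, as a subspace. -/
def kumSpace (hζK : ζ ∈ K) (hU : U ≤ unitsOf K) :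
    Submodule (ZMod p) (Module.Dual (ZMod p) (ModP p U)) :=
  AddSubgroup.toZModSubmodule p
    { carrier := Set.range (kumFun hζ hζK hU)
      zero_mem' := ⟨1, by
        have h := kumFun_mul hζ hζK hU 1 1
        rw [one_mul] at h
        exact left_eq_add.mp h⟩
      add_mem' := by
        rintro _ _ ⟨σ, rfl⟩ ⟨τ, rfl⟩
        exact ⟨σ * τ, kumFun_mul hζ hζK hU σ τ⟩
      neg_mem' := by
        rintro _ ⟨σ, rfl⟩
        refine ⟨σ⁻¹, eq_neg_of_add_eq_zero_left ?_⟩
        have h := kumFun_mul hζ hζK hU 1 1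
        rw [one_mul] at h
        rw [← kumFun_mul, inv_mul_cancel, left_eq_add.mp h] }

/-- Every functional on `U / U ^ p` is a Kummer functional, for saturated `U`. -/
theorem exists_kumFun_eq [Finite (ModP p U)]
    (hsat : ∀ x ∈ unitsOf K, x ^ p ∈ U → x ∈ U) (φ : Module.Dual (ZMod p) (ModP p U)) :
    ∃ σ : K.fixingSubgroup, kumFun hζ hζK hU σ = φ := by
  haveI : Module.Finite (ZMod p) (ModP p U) := Module.Finite.of_finite
  have hbot : (kumSpace hζ hζK hU).dualCoannihilator = ⊥ := by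
    rw [eq_bot_iff]
    intro v hv
    rw [Submodule.mem_dualCoannihilator] at hv
    obtain ⟨x, rfl⟩ := modClass_surjective v
    set b : QBar := ((x : QBarˣ) : QBar) with hb
    have hfix : ∀ σ ∈ K.fixingSubgroup, σ (rootP p b) = rootP p b := fun σ hσ =>
      (kum_eq_zero_iff hζ hζK hσ (hU x.2) (Units.ne_zero _) (rootP_pow b)).mp
        (hv (kumFun hζ hζK hU ⟨σ, hσ⟩) ⟨⟨σ, hσ⟩, rfl⟩)
    have hmem : rootP p b ∈ K := by
      rw [← InfiniteGalois.fixedField_fixingSubgroup K, IntermediateField.mem_fixedField_iff]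
      exact hfix
    have hpow : Units.mk0 _ (rootP_ne_zero (p := p) (Units.ne_zero (x : QBarˣ))) ^ p =
        (x : QBarˣ) := Units.ext (by
      rw [Units.val_pow_eq_pow_val, Units.val_mk0, rootP_pow])
    rw [Submodule.mem_bot, modClass_eq_zero_iff]
    refine ⟨⟨_, hsat (Units.mk0 _ (rootP_ne_zero (Units.ne_zero _))) hmem ?_⟩, Subtype.ext hpow⟩
    rw [hpow]
    exact x.2
  have htop : kumSpace hζ hζK hU = ⊤ := by
    rw [← Subspace.dualCoannihilator_dualAnnihilator_eq (W := kumSpace hζ hζK hU), hbot,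
      Submodule.dualAnnihilator_bot]
  exact (htop.ge (Submodule.mem_top : φ ∈ ⊤) : φ ∈ kumSpace hζ hζK hU)

end Group

section Zmap

variable {p : ℕ} [hp : Fact p.Prime] {ζ : QBar} (hζ : IsPrimitiveRoot ζ p)

/-- The powers of a root of unity. -/
def zmap : ZMod p →+ Additive QBarˣ :=
  ZMod.lift p ⟨zmultiplesHom _ (Additive.ofMul (Units.mk0 ζ (hζ.ne_zero hp.out.ne_zero))), by
    rw [zmultiplesHom_apply, natCast_zsmul]
    exact Additive.toMul.injective (Units.ext (by simpa using hζ.pow_eq_one))⟩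

theorem zmap_intCast (m : ℤ) :
    zmap hζ (m : ZMod p) = m • Additive.ofMul (Units.mk0 ζ (hζ.ne_zero hp.out.ne_zero)) :=
  ZMod.lift_coe p _ m

theorem coe_zmap (m : ZMod p) : ((zmap hζ m).toMul : QBar) = ζ ^ m.val := by
  haveI : NeZero p := ⟨hp.out.ne_zero⟩
  conv_lhs => rw [← ZMod.natCast_zmod_val m, ← Int.cast_natCast, zmap_intCast, natCast_zsmul]
  simp

theorem zmap_injective : Function.Injective (zmap hζ) := fun a b e => by
  haveI : NeZero p := ⟨hp.out.ne_zero⟩
  have h := congrArg (fun x : Additive QBarˣ => (x.toMul : QBar)) e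
  simp only [coe_zmap] at h
  exact ZMod.val_injective p (hζ.pow_inj (ZMod.val_lt a) (ZMod.val_lt b) h)

theorem exists_zmap_eq {z : Additive QBarˣ} (hz : p • z = 0) : ∃ m, zmap hζ m = z := by
  haveI : NeZero p := ⟨hp.out.ne_zero⟩
  obtain ⟨i, hi, e⟩ := hζ.eq_pow_of_pow_eq_one (ξ := (z.toMul : QBar))
    (by simpa using congrArg (fun x : Additive QBarˣ => (x.toMul : QBar)) hz)
  exact ⟨i, Additive.toMul.injective (Units.ext (by rw [coe_zmap, ZMod.val_natCast,
    Nat.mod_eq_of_lt hi, e]))⟩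

end Zmap

end Fermat.Agent.CFT.Idele
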