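import Fermat.Agent.CFT.Local.PowIndex
import Fermat.Agent.CFT.Idele.Values

/-!
# Units modulo `p`-th powers in a local field with a `p`-th root of unity
-/

set_option autoImplicit false

noncomputable section

namespace Fermat.Agent.CFT.Local

variable {q : ℕ} [Fact q.Prime] {E : IntermediateField ℚ_[q] (PadicAlgCl q)}
  [FiniteDimensional ℚ_[q] E] {p : ℕ} [hp : Fact p.Prime]

theorem mem_unitGroup_of_pow {w : Eˣ} (h : w ^ p ∈ unitGroup E) : w ∈ unitGroup E := by
  rw [← ord_eq_one_iff] at h ⊢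
  rw [map_pow] at h
  exact (pow_eq_one_iff_left hp.out.ne_zero).mp h

/-- For `q ≠ p` the units modulo `p`-th powers form a group of order `p`. -/
theorem relIndex_range_pow_unitGroup (hp2 : p ≠ 2) (hqp : q ≠ p) {ζ : E}
    (hζ : IsPrimitiveRoot ζ p) :
    (powMonoidHom p : Eˣ →* Eˣ).range.relIndex (unitGroup E) = p := by
  have hker : (ord E).ker = unitGroup E := by
    ext x
    rw [MonoidHom.mem_ker, ord_eq_one_iff]
  have h := index_eq_relIndex_map_mul (ord E) (powMonoidHom p : Eˣ →* Eˣ).range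
  have hmap : (powMonoidHom p : Eˣ →* Eˣ).range.map (ord E) =
      (powMonoidHom p : Multiplicative ℤ →* Multiplicative ℤ).range := by
    ext t
    constructor
    · rintro ⟨_, ⟨x, rfl⟩, rfl⟩
      exact ⟨ord E x, (map_pow (ord E) x p).symm⟩
    · rintro ⟨u, rfl⟩
      obtain ⟨x, rfl⟩ := ord_surjective E u
      exact ⟨x ^ p, ⟨x, rfl⟩, map_pow (ord E) x p⟩
  rw [index_range_pow hp2, card_ker_pow_of_primitive hζ, if_neg hqp, mul_one, hmap,
    MonoidHom.range_eq_top.mpr (ord_surjective E), Subgroup.relIndex_top_right,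
    relIndex_normHom_range.index_range_powMonoidHom_multiplicative_int,
    Subgroup.inf_relIndex_right, hker] at h
  exact (Nat.eq_of_mul_eq_mul_left hp.out.pos h).symm

/-- There are units which are not `p`-th powers. -/
theorem exists_unit_not_pow (hp2 : p ≠ 2) (hqp : q ≠ p) {ζ : E} (hζ : IsPrimitiveRoot ζ p) :
    ∃ u ∈ unitGroup E, ∀ w : Eˣ, w ^ p ≠ u := by
  by_contra hne
  push Not at hne
  have h : (powMonoidHom p : Eˣ →* Eˣ).range.relIndex (unitGroup E) = 1 :=
    Subgroup.relIndex_eq_one.mpr fun u hu => (hne u hu).imp fun w hw => hw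
  rw [relIndex_range_pow_unitGroup hp2 hqp hζ] at h
  exact hp.out.ne_one h

/-- A unit which is not a `p`-th power generates the units modulo `p`-th powers. -/
theorem exists_eq_pow_mul_pow (hp2 : p ≠ 2) (hqp : q ≠ p) {ζ : E} (hζ : IsPrimitiveRoot ζ p)
    {u v : Eˣ} (hu : u ∈ unitGroup E) (hv : v ∈ unitGroup E) (hv' : ∀ w : Eˣ, w ^ p ≠ v) :
    ∃ (k : ℕ) (w : Eˣ), w ∈ unitGroup E ∧ u = v ^ k * w ^ p := by
  set R := (powMonoidHom p : Eˣ →* Eˣ).range.subgroupOf (unitGroup E)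
  have hc : Nat.card (unitGroup E ⧸ R) = p := relIndex_range_pow_unitGroup hp2 hqp hζ
  have hne : (QuotientGroup.mk ⟨v, hv⟩ : unitGroup E ⧸ R) ≠ 1 := fun h => by
    obtain ⟨w, hw⟩ := Subgroup.mem_subgroupOf.mp ((QuotientGroup.eq_one_iff _).mp h)
    exact hv' w hw
  obtain ⟨k, hk⟩ := Submonoid.mem_powers_iff _ _ |>.mp
    (mem_powers_of_prime_card hc hne (g' := QuotientGroup.mk ⟨u, hu⟩))
  have hk' := Subgroup.mem_subgroupOf.mp
    ((QuotientGroup.eq (s := R) (a := (⟨v, hv⟩ : unitGroup E) ^ k) (b := ⟨u, hu⟩)).mp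
      (by rw [← hk]; rfl))
  obtain ⟨w, hw⟩ := hk'
  simp only [powMonoidHom_apply, Subgroup.coe_mul, InvMemClass.coe_inv, SubmonoidClass.coe_pow] at hw
  refine ⟨k, w, mem_unitGroup_of_pow (p := p) ?_, by rw [hw, mul_inv_cancel_left]⟩
  rw [hw]
  exact mul_mem (inv_mem (pow_mem hv k)) hu

end Fermat.Agent.CFT.Local
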