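import Fermat.Agent.CFT.Idele.ModQ

/-!
# Kummer duality for ideles

An idele outside `Kˣ`, the `p`-th powers at `S` and the unit families outside `T` misses the norms
from `K(b ^ (1/p))` for some `b` of order divisible by `p` outside `T`.
-/

set_option autoImplicit false
set_option linter.style.haveILetI false

noncomputable section

namespace Fermat.Agent.CFT.Idele

open ExtCitation Fermat.Agent.Arith IntermediateField

local instance factPrimeKummerDual (q : Nat.Primes) : Fact (q : ℕ).Prime := ⟨q.2⟩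

/-- Unit families outside `T`. -/
def unitsOffP (T : Set Nat.Primes) (K : IntermediateField ℚ QBar) : Subgroup PreIdele where
  carrier := {f | f ∈ idl K ∧ ∀ q g, ‖((f q g : (Ω q)ˣ) : Ω q)‖ = 1 ∧ (q ∈ T → f q g = 1)}
  one_mem' := ⟨one_mem _, fun q g => ⟨by simp, fun _ => rfl⟩⟩
  mul_mem' {f f'} hf hf' := ⟨mul_mem hf.1 hf'.1, fun q g => ⟨by
    simp [(hf.2 q g).1, (hf'.2 q g).1], fun hq => by simp [(hf.2 q g).2 hq, (hf'.2 q g).2 hq]⟩⟩
  inv_mem' {f} hf := ⟨inv_mem hf.1, fun q g => ⟨by simp [(hf.2 q g).1], fun hq => by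
    simp [(hf.2 q g).2 hq]⟩⟩

variable {p : ℕ} [hp : Fact p.Prime] {ζ : QBar} {K : IntermediateField ℚ QBar}
  [FiniteDimensional ℚ K]

/-- The functional of a class of `S`-units: zero exactly on the norms. -/
theorem exists_kumNormFunctional (hp2 : p ≠ 2) (hζ : IsPrimitiveRoot ζ p) (hζK : ζ ∈ K)
    {S : Finset Nat.Primes} (hS : GoodSet p S K) {v : ModP p (sUnits S K)} (hv : v ≠ 0) :
    ∃ (x : sUnits S K) (g₀ : GQ) (l : Module.Dual (ZMod p) (ModQ p S K)),
      modClass p x = v ∧ g₀ ∈ K.fixingSubgroup ∧ kum hζ g₀ ((x : QBarˣ) : QBar) = 1 ∧ l ≠ 0 ∧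
      ∀ f : idl K, l (qClass p S f) = 0 ↔
        (f : PreIdele) ∈ normSub p K ((x : QBarˣ) : QBar) g₀ := by
  obtain ⟨x, rfl⟩ := modClass_surjective v
  have hxK := sUnits_le S K x.2
  have hr := rootP_notMem hζ hζK hv
  obtain ⟨g₀, hg₀, hkum⟩ := exists_kum_eq_one hζ hζK hxK (Units.ne_zero _) hr
  have hidx := relIndex_normSub hp2 hζ hζK hxK (Units.ne_zero _) hg₀ hkum hr
  obtain ⟨l, hl⟩ := exists_dual_iff hS
    (powAt_le_normSub hp2 hζ hζK hxK (Units.ne_zero _) hg₀ hkum hS.mem (mem_sUnits.mp x.2).2) hidx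
  refine ⟨x, g₀, l, rfl, hg₀, hkum, fun h0 => ?_, hl⟩
  have h1 := Subgroup.relIndex_eq_one.mpr
    (fun f hf => (hl ⟨f, hf⟩).mp (by rw [h0]; rfl) :
      idl K ≤ normSub p K ((x : QBarˣ) : QBar) g₀)
  rw [hidx] at h1
  exact hp.out.ne_one h1

/-- Classes of `S`-units of order divisible by `p` at one place. -/
def powNormClasses (p : ℕ) [Fact p.Prime] (S : Finset Nat.Primes) (K : IntermediateField ℚ QBar)
    (ℓ : Nat.Primes) (r : GQ) : Submodule (ZMod p) (ModP p (sUnits S K)) :=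
  AddSubgroup.toZModSubmodule p
    { carrier := {v | ∃ x : sUnits S K, modClass p x = v ∧
        IsPowNorm p (fieldAt ℓ K r) (emb ℓ (r ((x : QBarˣ) : QBar)))}
      zero_mem' := ⟨1, rfl, isPowNorm_of_norm_one (by simp)⟩
      add_mem' := by
        rintro _ _ ⟨x, rfl, hx⟩ ⟨y, rfl, hy⟩
        exact ⟨x * y, rfl, by simpa using hx.mul hy⟩
      neg_mem' := by
        rintro _ ⟨x, rfl, hx⟩
        exact ⟨x⁻¹, rfl, by simpa using hx.inv⟩ }

omit [FiniteDimensional ℚ K] in
theorem mem_powNormClasses {S : Finset Nat.Primes} {ℓ : Nat.Primes} {r : GQ} (x : sUnits S K) :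
    modClass p x ∈ powNormClasses p S K ℓ r ↔
      IsPowNorm p (fieldAt ℓ K r) (emb ℓ (r ((x : QBarˣ) : QBar))) := by
  refine ⟨?_, fun h => ⟨x, rfl, h⟩⟩
  rintro ⟨y, hy, hyn⟩
  obtain ⟨z, hz⟩ := (modClass_eq_zero_iff (y⁻¹ * x)).mp (by
    rw [modClass_mul, show modClass p y⁻¹ = -modClass p y from rfl, hy, neg_add_cancel])
  rw [show x = y * z ^ p by rw [hz, mul_inv_cancel_left]]
  have hz' : IsPowNorm p (fieldAt ℓ K r) (emb ℓ (r ((z : QBarˣ) : QBar)) ^ p) :=
    isPowNorm_of_pow (emb_mem_fieldAt r (sUnits_le S K z.2))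
  simpa using hyn.mul hz'

/-- The functionals of two classes of `S`-units with different lines have different lines. -/
theorem mem_span_of_kumFunctional (hp2 : p ≠ 2) (hζ : IsPrimitiveRoot ζ p) (hζK : ζ ∈ K)
    {S : Finset Nat.Primes} (hS : GoodSet p S K) {x x' : sUnits S K} (hx : modClass p x ≠ 0)
    {g g' : GQ} (hg : g ∈ K.fixingSubgroup) (hkum : kum hζ g ((x : QBarˣ) : QBar) = 1)
    (hg' : g' ∈ K.fixingSubgroup) (hkum' : kum hζ g' ((x' : QBarˣ) : QBar) = 1)
    {l l' : Module.Dual (ZMod p) (ModQ p S K)} (hl'0 : l' ≠ 0)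
    (hl : ∀ f : idl K, l (qClass p S f) = 0 ↔
      (f : PreIdele) ∈ normSub p K ((x : QBarˣ) : QBar) g)
    (hl' : ∀ f : idl K, l' (qClass p S f) = 0 ↔
      (f : PreIdele) ∈ normSub p K ((x' : QBarˣ) : QBar) g')
    (hmem : l' ∈ (ZMod p ∙ l)) : modClass p x' ∈ (ZMod p ∙ modClass p x) := by
  by_contra hne
  obtain ⟨a, ha⟩ := Submodule.mem_span_singleton.mp hmem
  have ha0 : a ≠ 0 := fun h => hl'0 (by rw [← ha, h, zero_smul])
  refine normSub_ne hp2 hζ hζK hS hx hne hg hkum hg' hkum' ?_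
  ext y
  constructor <;> intro hy
  · have hyK : y ∈ idl K := normSub_le_idl hζ hζK (sUnits_le S K x.2) (Units.ne_zero _) hg hkum hy
    refine (hl' ⟨y, hyK⟩).mp ?_
    rw [← ha, LinearMap.smul_apply, (hl ⟨y, hyK⟩).mpr hy, smul_zero]
  · have hyK : y ∈ idl K :=
      normSub_le_idl hζ hζK (sUnits_le S K x'.2) (Units.ne_zero _) hg' hkum' hy
    refine (hl ⟨y, hyK⟩).mp ?_
    have h := (hl' ⟨y, hyK⟩).mpr hy
    rw [← ha, LinearMap.smul_apply, smul_eq_mul, mul_eq_zero] at h
    exact h.resolve_left ha0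

/-- The main duality statement. -/
theorem exists_notMem_normSub (hp2 : p ≠ 2) (hζ : IsPrimitiveRoot ζ p) (hζK : ζ ∈ K)
    {S : Finset Nat.Primes} (hS : GoodSet p S K) {T : Set Nat.Primes}
    (hpT : (⟨p, hp.out⟩ : Nat.Primes) ∈ T) (_hTS : T ⊆ S) {f : PreIdele} (hf : f ∈ idl K)
    (hfE : f ∉ (prinSub K ⊔ powAt p S K) ⊔ unitsOffP T K) :
    ∃ b ∈ K, b ≠ 0 ∧ rootP p b ∉ K ∧
      (∀ q ∉ T, ∀ g, placeRep q K g = g → IsPowNorm p (fieldAt q K g) (emb q (g b))) ∧
      ∃ g₀ ∈ K.fixingSubgroup, kum hζ g₀ b = 1 ∧ f ∉ normSub p K b g₀ := by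
  classical
  set V := ModP p (sUnits S K)
  set Q := ModQ p S K
  haveI : Finite V := Nat.finite_of_card_ne_zero hS.card
  haveI : Module.Finite (ZMod p) V := Module.Finite.of_finite
  have hcardQ := card_modQ hp2 hζ hζK hS
  haveI : Finite Q := Nat.finite_of_card_ne_zero (hcardQ.trans_ne hS.card)
  haveI : Module.Finite (ZMod p) Q := Module.Finite.of_finite
  have hdim : Module.finrank (ZMod p) (Module.Dual (ZMod p) Q) = Module.finrank (ZMod p) V := by
    rw [Subspace.dual_finrank_eq]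
    apply Nat.pow_right_injective hp.out.two_le
    have h1 := Module.natCard_eq_pow_finrank (K := ZMod p) (V := Q)
    have h2 := Module.natCard_eq_pow_finrank (K := ZMod p) (V := V)
    rw [Nat.card_zmod] at h1 h2
    show p ^ _ = p ^ _
    rw [← h1, ← h2, hcardQ]
  haveI : Finite (Module.Dual (ZMod p) Q) := Module.finite_of_finite (ZMod p)
  choose! X G F hX hG hkum hF0 hF using
    fun v (hv : v ≠ (0 : V)) => exists_kumNormFunctional hp2 hζ hζK hS hv
  have hinj : ∀ v : V, v ≠ 0 → ∀ v' : V, v' ≠ 0 → F v ∈ (ZMod p ∙ F v') →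
      v ∈ (ZMod p ∙ v') := fun v hv v' hv' hmem => by
    have h := mem_span_of_kumFunctional hp2 hζ hζK hS (x := X v') (x' := X v) (by rwa [hX v' hv'])
      (hG v' hv') (hkum v' hv') (hG v hv) (hkum v hv) (hF0 v hv) (hF v' hv') (hF v hv) hmem
    rwa [hX v hv, hX v' hv'] at h
  -- a functional killing the unit families, not killing `f`
  set E := qSub p S K ⊔ (unitsOffP T K).subgroupOf (idl K)
  set M : Submodule (ZMod p) Q := AddSubgroup.toZModSubmodule p
    (Subgroup.toAddSubgroup (((unitsOffP T K).subgroupOf (idl K)).map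
      (QuotientGroup.mk' (qSub p S K))))
  have hfM : qClass p S ⟨f, hf⟩ ∉ M := by
    rintro ⟨a, ha, he⟩
    have hq : a⁻¹ * ⟨f, hf⟩ ∈ qSub p S K := QuotientGroup.eq.mp he
    rw [qSub_eq hS, Subgroup.mem_subgroupOf, Subgroup.coe_mul, InvMemClass.coe_inv] at hq
    refine hfE ?_
    have := Subgroup.mul_mem_sup hq (show (a : PreIdele) ∈ unitsOffP T K from ha)
    rwa [mul_right_comm, inv_mul_cancel, one_mul] at this
  obtain ⟨l, hl, hlM⟩ := Submodule.exists_dual_map_eq_bot_of_notMem hfM inferInstance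
  have hlT : ∀ y : idl K, (y : PreIdele) ∈ unitsOffP T K → l (qClass p S y) = 0 := fun y hy => by
    have hyM : qClass p S y ∈ M := ⟨y, hy, rfl⟩
    have := Submodule.mem_map_of_mem (f := l) hyM
    rwa [hlM, Submodule.mem_bot] at this
  have hl0 : l ≠ 0 := fun h => hl (by rw [h]; rfl)
  obtain ⟨v, -, hv, hvl⟩ := exists_mem_span_of_lines F ⊤ ⊤
    (by rw [finrank_top, finrank_top, hdim])
    (fun a _ ha => ⟨Submodule.mem_top, hF0 a ha⟩)
    (fun a _ ha a' _ ha' => hinj a ha a' ha') l Submodule.mem_top hl0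
  obtain ⟨a, ha⟩ := Submodule.mem_span_singleton.mp hvl
  have ha0 : a ≠ 0 := fun h => hF0 v hv (by rw [← ha, h, zero_smul])
  set b : QBar := ((X v : QBarˣ) : QBar)
  have hbK : b ∈ K := sUnits_le S K (X v).2
  refine ⟨b, hbK, Units.ne_zero _, rootP_notMem hζ hζK (by rwa [hX v hv]), fun q hq r hr => ?_,
    G v, hG v hv, hkum v hv, fun hfN => ?_⟩
  swap
  · have h := (hF v hv ⟨f, hf⟩).mpr hfN
    rw [← ha, LinearMap.smul_apply, smul_eq_mul, mul_eq_zero] at h
    exact hl (h.resolve_left ha0)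
  by_cases hqS : q ∈ S
  swap
  · exact isPowNorm_of_norm_one ((mem_sUnits.mp (X v).2).2 q hqS r)
  have hqp : (q : ℕ) ≠ p := fun h =>
    hq (by rw [show q = ⟨p, hp.out⟩ from Subtype.ext h]; exact hpT)
  by_contra hvA
  set A := powNormClasses p S K q r
  have hvA' : v ∉ A := fun h => hvA (by rw [← hX v hv] at h; exact (mem_powNormClasses _).mp h)
  -- a unit at the place which is not a `p`-th power
  have hωF : IsPrimitiveRoot
      (⟨emb q (r ζ), emb_mem_fieldAt r hζK⟩ : fieldAt q K r) p :=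
    IsPrimitiveRoot.of_map_of_injective (f := (fieldAt q K r).val)
      ((hζ.map_of_injective r.injective).map_of_injective (emb q).toRingHom.injective)
      (fieldAt q K r).val.injective
  obtain ⟨u₀, hu₀, hu₀pow⟩ := Local.exists_unit_not_pow hp2 hqp hωF
  set u : (Ω q)ˣ := Units.map (fieldAt q K r).val.toRingHom.toMonoidHom u₀
  have huF : (u : Ω q) ∈ fieldAt q K r := (u₀ : fieldAt q K r).2
  have hu1 : ‖(u : Ω q)‖ = 1 := (Local.mem_unitGroup _).mp hu₀
  have hupow : ∀ y ∈ fieldAt q K r, y ^ p ≠ (u : Ω q) := fun y hy h => by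
    have hy0 : (⟨y, hy⟩ : fieldAt q K r) ≠ 0 := fun h0 => u.ne_zero (by
      rw [← h, show y = 0 from congrArg Subtype.val h0, zero_pow hp.out.ne_zero])
    exact hu₀pow (Units.mk0 _ hy0) (Units.ext (Subtype.ext h))
  set s : idl K := ⟨singleAt K q r u, singleAt_mem huF⟩
  have hs0 : qClass p S s ≠ 0 := fun h => by
    rw [qClass_eq_zero_iff, qSub_eq hS, Subgroup.mem_subgroupOf] at h
    exact singleAt_notMem hp2 hζ hζK hS hqS hqp hr (X v).2 hvA huF hu1 hupow h
  have hsT : (s : PreIdele) ∈ unitsOffP T K := by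
    refine ⟨singleAt_mem huF, fun q' g => ?_⟩
    obtain ⟨τ, w, hw, e⟩ := placeRep_spec (q := q') (K := K) g
    have hval := apply_eq_of_rep (singleAt_mem huF) q' τ (placeRep q' K g) hw
    rw [← e] at hval
    refine ⟨?_, fun hq' => ?_⟩
    · rw [norm_value_eq (singleAt_mem huF) q' g]
      by_cases hne : q' = q → placeRep q' K g ≠ r
      · rw [singleAt_other huF (placeRep_idem g) hne, Units.val_one, norm_one]
      · push Not at hne
        obtain ⟨rfl, hgr⟩ := hne
        rw [hgr, singleAt_self huF hr]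
        exact hu1
    · refine Units.ext ?_
      show ((singleAt K q r u q' g : (Ω q')ˣ) : Ω q') = 1
      rw [hval, singleAt_other huF (placeRep_idem g) fun h => absurd hq' (by rw [h]; exact hq), Units.val_one,
        map_one]
  -- the lines of `A` fill the functionals killing the unit
  set B : Submodule (ZMod p) (Module.Dual (ZMod p) Q) := (ZMod p ∙ qClass p S s).dualAnnihilator
  have hBr : Module.finrank (ZMod p) B + 1 = Module.finrank (ZMod p) V := by
    have h := Subspace.finrank_add_finrank_dualAnnihilator_eq (ZMod p ∙ qClass p S s)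
    rw [finrank_span_singleton hs0, ← Subspace.dual_finrank_eq (K := ZMod p) (V := Q), hdim,
      add_comm] at h
    exact h
  have hAr : Module.finrank (ZMod p) A + 1 = Module.finrank (ZMod p) V := by
    have hsup : A ⊔ (ZMod p ∙ v) = ⊤ := by
      refine eq_top_iff.mpr fun w _ => ?_
      obtain ⟨y, rfl⟩ := modClass_surjective w
      obtain ⟨i, c, hc, -, hyc⟩ := exists_norm_eq_pow_mul (p := p) (emb_mem_fieldAt r hbK)
        ((map_ne_zero _).mpr ((map_ne_zero _).mpr (Units.ne_zero (X v : QBarˣ))))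
        (emb_mem_fieldAt r (sUnits_le S K y.2))
        ((map_ne_zero _).mpr ((map_ne_zero _).mpr (Units.ne_zero (y : QBarˣ)))) hvA
      have hyA : modClass p (y * (X v ^ i)⁻¹) ∈ A := (mem_powNormClasses _).mpr ⟨c, hc, by
        simp only [Subgroup.coe_mul, InvMemClass.coe_inv, SubmonoidClass.coe_pow, Units.val_mul,
          Units.val_inv_eq_inv_val, Units.val_pow_eq_pow_val, map_mul, map_inv₀, map_pow, norm_mul,
          norm_inv, norm_pow, hyc]
        rw [mul_comm (‖emb q (r b)‖ ^ i), mul_inv_cancel_right₀ (pow_ne_zero _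
          (norm_ne_zero_iff.mpr ((map_ne_zero _).mpr ((map_ne_zero _).mpr
            (Units.ne_zero (X v : QBarˣ))))))]⟩
      rw [show modClass p y = modClass p (y * (X v ^ i)⁻¹) + i • modClass p (X v) by
        rw [show i • modClass p (X v) = modClass p (X v ^ i) from rfl, ← modClass_mul,
          inv_mul_cancel_right], hX v hv]
      exact Submodule.add_mem_sup hyA (Submodule.smul_of_tower_mem _ i
        (Submodule.mem_span_singleton_self v))
    have hinf : A ⊓ (ZMod p ∙ v) = ⊥ := by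
      refine eq_bot_iff.mpr fun w ⟨hwA, hwv⟩ => ?_
      obtain ⟨c, rfl⟩ := Submodule.mem_span_singleton.mp hwv
      by_contra hc
      have hc0 : c ≠ 0 := fun h => hc (by rw [h, zero_smul]; exact Submodule.zero_mem _)
      exact hvA' (by simpa [inv_smul_smul₀ hc0] using A.smul_mem c⁻¹ hwA)
    have h := Submodule.finrank_sup_add_finrank_inf_eq A (ZMod p ∙ v)
    rw [hsup, hinf, finrank_top, finrank_bot, finrank_span_singleton hv, add_zero] at h
    exact h.symm
  have hFB : F v ∈ B := by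
    rw [Submodule.mem_dualAnnihilator]
    intro w hw
    obtain ⟨c, rfl⟩ := Submodule.mem_span_singleton.mp hw
    rw [map_smul, ← ha, LinearMap.smul_apply, hlT s hsT, smul_zero, smul_zero]
  have hmem : ∀ a ∈ A, a ≠ 0 → F a ∈ B ∧ F a ≠ 0 := fun a haA ha' => ⟨by
    rw [Submodule.mem_dualAnnihilator]
    intro w hw
    obtain ⟨c, rfl⟩ := Submodule.mem_span_singleton.mp hw
    have haK := sUnits_le S K (X a).2
    have hN : (s : PreIdele) ∈ normSub p K ((X a : QBarˣ) : QBar) (G a) :=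
      mem_normSub_of_cond hp2 hζ hζK haK (Units.ne_zero _) (hG a ha') (hkum a ha')
        (singleAt_mem huF) fun q' h hh => by
        show LocNormCond p K _ q' h ((singleAt K q r u q' h : (Ω q')ˣ) : Ω q')
        by_cases hne : q' = q → h ≠ r
        · rw [singleAt_other huF hh hne, Units.val_one]
          exact Or.inr (Or.inl ⟨1, one_mem _, one_pow p⟩)
        · push Not at hne
          obtain ⟨rfl, rfl⟩ := hne
          rw [singleAt_self huF hr]
          obtain ⟨c', hc', hcn⟩ := (mem_powNormClasses (X a)).mp (by rw [hX a ha']; exact haA)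
          refine Or.inr (Or.inr ⟨hqp, hu1, c', hc', fun h0 => ?_, hcn⟩)
          rw [h0, norm_zero, zero_pow hp.out.ne_zero, norm_eq_zero, map_eq_zero, map_eq_zero] at hcn
          exact Units.ne_zero _ hcn
    rw [map_smul, (hF a ha' s).mpr hN, smul_zero], hF0 a ha'⟩
  obtain ⟨a', ha'A, ha'0, ha'F⟩ := exists_mem_span_of_lines F A B
    (add_right_cancel (hAr.trans hBr.symm)) hmem (fun a _ ha a' _ ha' => hinj a ha a' ha') (F v) hFB (hF0 v hv)
  obtain ⟨c, hc⟩ := Submodule.mem_span_singleton.mp (hinj a' ha'0 v hv ha'F)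
  have hc0 : c ≠ 0 := fun h => ha'0 (by rw [← hc, h, zero_smul])
  exact hvA' (by simpa [← hc, inv_smul_smul₀ hc0] using A.smul_mem c⁻¹ ha'A)

end Fermat.Agent.CFT.Idele
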