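import Fermat.Agent.CFT.Idele.KummerSep
import Mathlib.LinearAlgebra.Projectivization.Basic

/-!
# Ideles modulo principal ideles and `p`-th powers at `S`, and a count of lines
-/

set_option autoImplicit false
set_option linter.style.haveILetI false

noncomputable section

namespace Fermat.Agent.CFT.Idele

open ExtCitation Fermat.Agent.Arith IntermediateField
open scoped LinearAlgebra.Projectivization

/-- A map of vectors separating lines hits every line between spaces of equal finite dimension. -/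
theorem exists_mem_span_of_lines {k V W : Type*} [Field k] [AddCommGroup V] [Module k V]
    [AddCommGroup W] [Module k W] [Finite V] [Finite W] (F : V → W) (A : Submodule k V)
    (B : Submodule k W) (hfin : Module.finrank k A = Module.finrank k B)
    (hmem : ∀ a ∈ A, a ≠ 0 → F a ∈ B ∧ F a ≠ 0)
    (hinj : ∀ a ∈ A, a ≠ 0 → ∀ a' ∈ A, a' ≠ 0 → F a ∈ (k ∙ F a') → a ∈ (k ∙ a')) :
    ∀ w ∈ B, w ≠ 0 → ∃ a ∈ A, a ≠ 0 ∧ F a ∈ (k ∙ w) := by
  classical
  haveI : Module.Finite k A := Module.Finite.of_finite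
  haveI : Module.Finite k B := Module.Finite.of_finite
  haveI : Finite (ℙ k A) := Quotient.finite _
  haveI : Finite (ℙ k B) := Quotient.finite _
  have hne : ∀ P : ℙ k A, ((P.rep : A) : V) ≠ 0 := fun P h =>
    P.rep_nonzero (Subtype.ext h)
  let Ψ : ℙ k A → ℙ k B := fun P => Projectivization.mk k
    ⟨F (P.rep : A), (hmem _ (P.rep : A).2 (hne P)).1⟩
    fun h => (hmem _ (P.rep : A).2 (hne P)).2 (congrArg Subtype.val h)
  have hΨ : Function.Injective Ψ := fun P Q h => by
    obtain ⟨c, hc⟩ := (Projectivization.mk_eq_mk_iff' k _ _ _ _).mp h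
    obtain ⟨d, hd⟩ := Submodule.mem_span_singleton.mp (hinj _ (P.rep : A).2 (hne P) _ (Q.rep : A).2
      (hne Q) (Submodule.mem_span_singleton.mpr ⟨c, congrArg Subtype.val hc⟩))
    rw [← P.mk_rep, ← Q.mk_rep]
    exact (Projectivization.mk_eq_mk_iff' k _ _ _ _).mpr ⟨d, Subtype.ext hd⟩
  let e := LinearEquiv.ofFinrankEq A B hfin
  have hcard : Nat.card (ℙ k A) = Nat.card (ℙ k B) := le_antisymm
    (Nat.card_le_card_of_injective Ψ hΨ) (Nat.card_le_card_of_injective
      (Projectivization.map (e.symm : B →ₗ[k] A) e.symm.injective)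
      (Projectivization.map_injective _ _))
  have hsurj := ((Nat.bijective_iff_injective_and_card Ψ).mpr ⟨hΨ, hcard⟩).2
  intro w hw hw0
  obtain ⟨P, hP⟩ := hsurj (Projectivization.mk k ⟨w, hw⟩ fun h => hw0 (congrArg Subtype.val h))
  obtain ⟨c, hc⟩ := (Projectivization.mk_eq_mk_iff' k _ _ _ _).mp hP
  exact ⟨(P.rep : A), (P.rep : A).2, hne P,
    Submodule.mem_span_singleton.mpr ⟨c, congrArg Subtype.val hc⟩⟩

section

variable {p : ℕ} [hp : Fact p.Prime] {S : Finset Nat.Primes} {K : IntermediateField ℚ QBar}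

variable (p S K) in
/-- The subgroup defining `ModQ`. -/
def qSub : Subgroup (idl K) :=
  (prinSub K ⊔ powAt p S K).subgroupOf (idl K) ⊔ (powMonoidHom p : idl K →* idl K).range

variable (p S K) in
/-- Ideles modulo principal ideles and `p`-th powers at `S`. -/
abbrev ModQ : Type := Additive (idl K ⧸ qSub p S K)

/-- Shortcut instance. -/
instance modQAddCommGroup : AddCommGroup (ModQ p S K) := inferInstance

variable (p S) in
/-- The class of an idele. -/
def qClass (f : idl K) : ModQ p S K := Additive.ofMul (QuotientGroup.mk f)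

omit hp in
theorem qClass_surjective : Function.Surjective (qClass p S (K := K)) := fun v =>
  (QuotientGroup.mk_surjective v.toMul).elim fun x hx => ⟨x, congrArg Additive.ofMul hx⟩

omit hp in
theorem qClass_mul (x y : idl K) : qClass p S (x * y) = qClass p S x + qClass p S y := rfl

omit hp in
theorem nsmul_modQ (v : ModQ p S K) : p • v = 0 := by
  obtain ⟨x, rfl⟩ := qClass_surjective v
  exact congrArg Additive.ofMul
    ((QuotientGroup.eq_one_iff (x ^ p)).mpr (Subgroup.mem_sup_right ⟨x, rfl⟩))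

instance modQModule : Module (ZMod p) (ModQ p S K) :=
  AddCommGroup.zmodModule (n := p) fun v => nsmul_modQ v

omit hp in
theorem qClass_eq_zero_iff (x : idl K) : qClass p S x = 0 ↔ x ∈ qSub p S K :=
  (Additive.ofMul.injective.eq_iff' rfl).trans (QuotientGroup.eq_one_iff x)

theorem qSub_eq (hS : GoodSet p S K) :
    qSub p S K = (prinSub K ⊔ powAt p S K).subgroupOf (idl K) := by
  refine sup_eq_left.mpr ?_
  rintro _ ⟨f, rfl⟩
  rw [Subgroup.mem_subgroupOf]
  obtain ⟨c, hc, hfc⟩ := hS.gen f f.2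
  have he : ((f : PreIdele) * prin c) ^ p ∈ powAt p S K := ⟨pow_mem hfc p, fun q _ g _ =>
    ⟨((((f : PreIdele) * prin c) q g : (Ω q)ˣ) : Ω q), value_mem_fieldAt hfc.1 g, by simp⟩⟩
  rw [show ((powMonoidHom p f : idl K) : PreIdele) =
      prin (c⁻¹ ^ p) * ((f : PreIdele) * prin c) ^ p by
    rw [powMonoidHom_apply, SubmonoidClass.coe_pow, map_pow, map_inv, ← mul_pow,
      mul_comm (f : PreIdele), inv_mul_cancel_left]]
  exact Subgroup.mul_mem_sup ⟨_, pow_mem (inv_mem hc) p, rfl⟩ he

/-- A subgroup of index `p` is the kernel of a functional. -/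
theorem exists_dual_iff (hS : GoodSet p S K) {N : Subgroup PreIdele}
    (hle : prinSub K ⊔ powAt p S K ≤ N) (hidx : N.relIndex (idl K) = p) :
    ∃ l : Module.Dual (ZMod p) (ModQ p S K),
      ∀ f : idl K, l (qClass p S f) = 0 ↔ (f : PreIdele) ∈ N := by
  have hq : qSub p S K ≤ N.subgroupOf (idl K) := (qSub_eq hS).trans_le (Subgroup.comap_mono hle)
  let e : (idl K ⧸ N.subgroupOf (idl K)) ≃* Multiplicative (ZMod p) :=
    mulEquivOfPrimeCardEq (p := p) hidx (by simp)
  let φ := e.toMonoidHom.comp (QuotientGroup.map (qSub p S K) _ (MonoidHom.id _) hq)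
  exact ⟨(MonoidHom.toAdditiveLeft φ).toZModLinearMap p,
    fun f => e.map_eq_one_iff.trans (QuotientGroup.eq_one_iff f)⟩

variable [FiniteDimensional ℚ K]

/-- The size of `ModQ`. -/
theorem card_modQ (hp2 : p ≠ 2) {ζ : QBar} (hζ : IsPrimitiveRoot ζ p) (hζK : ζ ∈ K)
    (hS : GoodSet p S K) : Nat.card (ModQ p S K) = Nat.card (ModP p (sUnits S K)) := by
  have h := relIndex_prinSub_sup_powAtT (ι := Fin 0) (φ := Fin.elim0) (p := p) (K := K) (S := S)
    Fin.elim0 Fin.elim0 (fun i => i.elim0) (fun i => i.elim0) (fun i => i.elim0) (fun i => i.elim0)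
    linearIndependent_empty_type hζ hζK hp2 hS (firstIneq hp2)
  rw [Fintype.card_fin, pow_zero, mul_one,
    show powAtT p S Fin.elim0 Fin.elim0 K = powAt p S K by
      refine le_antisymm (fun f hf => ⟨mem_unitsOutside_of_rep hf.1.1 fun q hq h hh =>
        hf.1.2 q hq h hh fun i => i.elim0, hf.2⟩) fun f hf => ?_
      exact ⟨unitsOutside_le_unitsOutsideT _ _ hf.1, hf.2⟩] at h
  rw [Nat.card_congr Additive.toMul, qSub_eq hS]
  exact h

end

end Fermat.Agent.CFT.Idele
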