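import Fermat.Agent.CFT.Idele.FixedClasses
import Fermat.Agent.CFT.Idele.IndexLemma
import Mathlib.NumberTheory.NumberField.Units.DirichletTheorem

/-!
# `S`-units modulo `p`-th powers

For `ζ ∈ K` and a finite set of primes `S`, `[U_S : U_S ^ p] = p ^ (#places over S + [K : ℚ] / 2)`.
-/

set_option autoImplicit false
set_option linter.style.haveILetI false

noncomputable section

namespace Fermat.Agent.CFT.Idele

open ExtCitation Fermat.Agent.Arith IntermediateField
open scoped NumberField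

local instance factPrimeSUnits (q : Nat.Primes) : Fact (q : ℕ).Prime := ⟨q.2⟩

/-- The units of a number field modulo torsion, through fundamental units. -/
theorem exists_hom_units (F : Type*) [Field F] [NumberField F] :
    ∃ f : (𝓞 F)ˣ →* (Fin (NumberField.Units.rank F) → Multiplicative ℤ),
      Function.Surjective f ∧ f.ker = NumberField.Units.torsion F := by
  choose ze hze huniq using NumberField.Units.exist_unique_eq_mul_prod F
  set t := NumberField.Units.fundSystem F
  have hval : ∀ (z : NumberField.Units.torsion F) (e : Fin (NumberField.Units.rank F) → ℤ),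
      ze ((z : (𝓞 F)ˣ) * ∏ i, t i ^ e i) = (z, e) := fun z e =>
    (huniq ((z : (𝓞 F)ˣ) * ∏ i, t i ^ e i) (z, e) rfl).symm
  have hprod : ∀ u v, ze (u * v) = ((ze u).1 * (ze v).1, (ze u).2 + (ze v).2) := fun u v => by
    conv_lhs => rw [hze u, hze v]
    rw [← hval, Subgroup.coe_mul]
    congr 1
    simp only [Pi.add_apply, zpow_add, Finset.prod_mul_distrib]
    exact mul_mul_mul_comm _ _ _ _
  refine ⟨MonoidHom.mk' (fun u i => Multiplicative.ofAdd ((ze u).2 i))
    fun u v => funext fun i => by rw [hprod]; rfl,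
    fun w => ⟨((1 : NumberField.Units.torsion F) : (𝓞 F)ˣ) *
      ∏ i, t i ^ Multiplicative.toAdd (w i), funext fun i => ?_⟩, ?_⟩
  · show Multiplicative.ofAdd ((ze _).2 i) = w i
    rw [hval]; rfl
  · ext u
    rw [MonoidHom.mem_ker]
    constructor
    · intro h
      have h0 : (ze u).2 = 0 := funext fun i => ofAdd_eq_one.mp (congrFun h i)
      rw [hze u, h0]
      simp only [Pi.zero_apply, zpow_zero, Finset.prod_const_one, mul_one]
      exact (ze u).1.2
    · intro h
      have h0 : ze u = (⟨u, h⟩, 0) := by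
        conv_rhs => rw [← hval]
        congr 1
        simp
      funext i
      show Multiplicative.ofAdd ((ze u).2 i) = 1
      rw [h0]; rfl

/-- A homomorphism to `ℤ ^ ι` hitting every axis has finite coindex. -/
theorem index_range_ne_zero_of_single {A ι : Type*} [CommGroup A] [Fintype ι]
    (V : A →* (ι → Multiplicative ℤ)) (h : ∀ i, ∃ x, V x i ≠ 1 ∧ ∀ j, j ≠ i → V x j = 1) :
    V.range.index ≠ 0 := by
  classical
  choose x hx hxo using h
  set n := fun i => (Multiplicative.toAdd (V (x i) i)).natAbs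
  have hn : ∀ i, (Pi.mulSingle i (Multiplicative.ofAdd (n i : ℤ)) : ι → Multiplicative ℤ) ∈
      V.range := by
    intro i
    have hmem : (Pi.mulSingle i (V (x i) i) : ι → Multiplicative ℤ) ∈ V.range :=
      ⟨x i, funext fun j => by
        rcases eq_or_ne j i with rfl | hj
        · rw [Pi.mulSingle_eq_same]
        · rw [Pi.mulSingle_eq_of_ne hj, hxo i j hj]⟩
    rcases Int.natAbs_eq (Multiplicative.toAdd (V (x i) i)) with e | e
    · rw [← e, ofAdd_toAdd]; exact hmem
    · rw [eq_neg_iff_add_eq_zero, add_comm, ← eq_neg_iff_add_eq_zero] at e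
      rw [e, ofAdd_neg, ofAdd_toAdd, Pi.mulSingle_inv]
      exact inv_mem hmem
  have hsub : (Subgroup.pi Set.univ fun i : ι =>
      (powMonoidHom (n i) : Multiplicative ℤ →* Multiplicative ℤ).range) ≤ V.range := by
    intro t ht
    rw [Subgroup.mem_pi] at ht
    choose u hu using fun i => ht i (Set.mem_univ i)
    rw [← Finset.univ_prod_mulSingle t]
    refine Subgroup.prod_mem _ fun i _ => ?_
    have := Subgroup.zpow_mem _ (hn i) (Multiplicative.toAdd (u i))
    rw [← Pi.mulSingle_zpow] at this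
    have e : t i = Multiplicative.ofAdd (n i : ℤ) ^ Multiplicative.toAdd (u i) := by
      rw [← hu i]
      apply Multiplicative.toAdd.injective
      rw [powMonoidHom_apply, toAdd_pow, toAdd_zpow, toAdd_ofAdd, nsmul_eq_mul, smul_eq_mul,
        mul_comm]
    rw [e]
    exact this
  intro h0
  have hd' := Subgroup.index_dvd_of_le hsub
  rw [h0, zero_dvd_iff, index_pi_dep, Finset.prod_eq_zero_iff] at hd'
  obtain ⟨i, -, hi⟩ := hd'
  rw [Local.relIndex_normHom_range.index_range_powMonoidHom_multiplicative_int] at hi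
  exact hx i (Multiplicative.toAdd.injective (Int.natAbs_eq_zero.mp hi))

variable {p : ℕ} [hp : Fact p.Prime] {ζ : QBar} {K : IntermediateField ℚ QBar}

omit hp in
/-- In a finite cyclic group with an element of order `p`, the `p`-th powers have index `p`. -/
theorem index_range_pow_finite {A : Type*} [CommGroup A] [Finite A] [IsCyclic A] {z : A}
    (hz : orderOf z = p) : (powMonoidHom p : A →* A).range.index = p := by
  have hdvd : p ∣ Nat.card A := hz ▸ orderOf_dvd_natCard z
  rw [IsCyclic.index_powMonoidHom_range, Nat.gcd_eq_right hdvd]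

/-- The units of `𝓞 K` in `ℚ̄`. -/
def intUnits (K : IntermediateField ℚ QBar) : (𝓞 K)ˣ →* QBarˣ :=
  Units.map (K.val.toRingHom.comp (algebraMap (𝓞 K) K)).toMonoidHom

theorem intUnits_injective : Function.Injective (intUnits K) := fun _u _v h =>
  Units.ext (NumberField.RingOfIntegers.ext (Subtype.ext (congrArg Units.val h)))

variable [FiniteDimensional ℚ K]

omit [FiniteDimensional ℚ ↥K] in
theorem intUnits_mem (u : (𝓞 K)ˣ) : intUnits K u ∈ sUnits ∅ K := by
  refine mem_sUnits.mpr ⟨((u : 𝓞 K) : K).2, fun q _ g => ?_⟩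
  have hint : ∀ v : (𝓞 K)ˣ, IsIntegral ℤ (g ((intUnits K v : QBarˣ) : QBar)) := fun v =>
    (((v : 𝓞 K).2 : IsIntegral ℤ ((v : 𝓞 K) : K)).map K.val.toRingHom.toIntAlgHom).map
      g.toRingHom.toIntAlgHom
  have h1 := norm_emb_le_one (hint u) q
  have h2 := norm_emb_le_one (hint u⁻¹) q
  refine le_antisymm h1 ?_
  have h3 : emb q (g (intUnits K u : QBar)) * emb q (g (intUnits K u⁻¹ : QBar)) = 1 := by
    rw [← map_mul, ← map_mul, ← Units.val_mul, ← map_mul, mul_inv_cancel, map_one]; simp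
  have h4 := congrArg norm h3
  rw [norm_mul, norm_one] at h4
  rw [← h4]
  exact mul_le_of_le_one_right (norm_nonneg _) h2

omit [FiniteDimensional ℚ ↥K] in
theorem exists_intUnits_eq {x : QBarˣ} (hx : x ∈ sUnits ∅ K) : ∃ u, intUnits K u = x := by
  have hxK : (x : QBar) ∈ K := (mem_sUnits.mp hx).1
  have key : ∀ y : K, (∀ (q : Nat.Primes) (g : GQ), ‖emb q (g (y : QBar))‖ ≤ 1) →
      IsIntegral ℤ y := fun y h =>
    (isIntegral_algHom_iff K.val.toRingHom.toIntAlgHom K.val.injective).mp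
      (isIntegral_of_norm_le_one h)
  have h1 := (mem_sUnits.mp hx).2
  have h2 := (mem_sUnits.mp (inv_mem hx)).2
  let a : 𝓞 K := ⟨⟨x, hxK⟩, key _ fun q g => (h1 q (by simp) g).le⟩
  let b : 𝓞 K := ⟨⟨((x⁻¹ : QBarˣ) : QBar), (mem_sUnits.mp (inv_mem hx)).1⟩,
    key _ fun q g => (h2 q (by simp) g).le⟩
  exact ⟨⟨a, b, NumberField.RingOfIntegers.ext (Subtype.ext x.mul_inv),
    NumberField.RingOfIntegers.ext (Subtype.ext x.inv_mul)⟩, Units.ext rfl⟩

variable (hp2 : p ≠ 2) (hζ : IsPrimitiveRoot ζ p) (hζK : ζ ∈ K)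

include hp2 hζ hζK in
/-- The units modulo `p`-th powers. -/
theorem index_range_pow_sUnits_empty :
    (powMonoidHom p : sUnits ∅ K →* sUnits ∅ K).range.index = p ^ (Module.finrank ℚ K / 2) := by
  classical
  haveI : NumberField K := ⟨⟩
  obtain ⟨f, hsurj, hker⟩ := exists_hom_units K
  -- `ζ` is a torsion unit
  have hζint : IsIntegral ℤ (⟨ζ, hζK⟩ : K) :=
    IsIntegral.of_pow hp.out.pos (by
      rw [show (⟨ζ, hζK⟩ : K) ^ p = 1 from Subtype.ext hζ.pow_eq_one]; exact isIntegral_one)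
  have hζO : IsPrimitiveRoot (⟨⟨ζ, hζK⟩, hζint⟩ : 𝓞 K) p :=
    IsPrimitiveRoot.of_map_of_injective
      (f := (K.val.toRingHom.comp (algebraMap (𝓞 K) K) : 𝓞 K →+* QBar)) hζ
      (K.val.injective.comp NumberField.RingOfIntegers.coe_injective)
  set zu : (𝓞 K)ˣ := (hζO.isUnit hp.out.ne_zero).unit
  have hzu : IsPrimitiveRoot zu p := hζO.isUnit_unit hp.out.ne_zero
  have hzmem : zu ∈ NumberField.Units.torsion K := by
    show IsOfFinOrder zu
    exact hzu.isOfFinOrder hp.out.ne_zero
  have htors : (powMonoidHom p : f.ker →* f.ker).range.index = p := by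
    rw [hker]
    exact index_range_pow_finite (z := (⟨zu, hzmem⟩ : NumberField.Units.torsion K))
      (by rw [← Subgroup.orderOf_coe]; exact hzu.eq_orderOf.symm)
  have hrange : f.range.index ≠ 0 := by
    rw [MonoidHom.range_eq_top.mpr hsurj, Subgroup.index_top]; exact one_ne_zero
  have h := index_range_pow_of_hom hp.out.ne_zero f hrange
  rw [htors, Fintype.card_fin, ← pow_succ] at h
  -- transport to `sUnits ∅ K`
  let e : (𝓞 K)ˣ ≃* sUnits ∅ K :=
    MulEquiv.ofBijective ((intUnits K).codRestrict _ intUnits_mem)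
      ⟨fun u v huv => intUnits_injective (congrArg Subtype.val huv),
        fun x => (exists_intUnits_eq x.2).imp fun u hu => Subtype.ext hu⟩
  rw [range_pow_eq_comap p e, Subgroup.index_comap_of_surjective _ (f := e.toMonoidHom)
    e.surjective] at h
  rw [h]
  congr 1
  have h2 : 2 < p := lt_of_le_of_ne hp.out.two_le hp2.symm
  have hζ' : IsPrimitiveRoot (⟨ζ, hζK⟩ : K) p :=
    IsPrimitiveRoot.of_map_of_injective (f := K.val) hζ K.val.injective
  have hr0 := NumberField.InfinitePlace.IsPrimitiveRoot.nrRealPlaces_eq_zero_of_two_lt h2 hζ'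
  have hn := NumberField.InfinitePlace.card_add_two_mul_card_eq_rank K
  have hc := NumberField.InfinitePlace.card_eq_nrRealPlaces_add_nrComplexPlaces K
  have hpos : 0 < Fintype.card (NumberField.InfinitePlace K) := Fintype.card_pos
  rw [NumberField.Units.rank]
  omega

omit hp in
theorem exists_norm_emb_eq_pow (q : Nat.Primes) (c : PlaceOver q K) :
    ∃ x : QBarˣ, x ∈ unitsOf K ∧ ‖emb q (c.out (x : QBar))‖ ≠ 1 ∧
      ∀ q' g, placeRep q' K g = g → (∀ _h : q' = q, g ≠ c.out) →
        ‖emb q' (g (x : QBar))‖ = 1 := by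
  classical
  let L : IntermediateField ℚ QBar := IntermediateField.normalClosure ℚ K QBar
  haveI : Normal ℚ L := normalClosure.normal ℚ K QBar
  haveI : IsGalois ℚ L := ⟨⟩
  have hKL : K ≤ L := K.le_normalClosure
  -- the idele `q` at the place `c`
  let z : (q' : Nat.Primes) → GQ → (Ω q')ˣ := fun q' g =>
    if q' = q ∧ g = c.out then
      Units.mk0 ((q' : ℕ) : Ω q') (Nat.cast_ne_zero.mpr q'.2.ne_zero) else 1
  have hz : ∀ q' g, ((z q' g : (Ω q')ˣ) : Ω q') ∈ fieldAt q' K g := fun q' g => by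
    simp only [z]; split_ifs
    · exact _root_.natCast_mem _ _
    · exact one_mem _
  have hzn : ∀ q' ∉ ({q} : Finset Nat.Primes), ∀ g, ‖((z q' g : (Ω q')ˣ) : Ω q')‖ = 1 :=
    fun q' hq' g => by simp [z, Finset.notMem_singleton.mp hq']
  set f := glue K (fun q' => placeRep q' K) z
  have hfK : f ∈ idl K := glue_placeRep_mem_idl hz _ hzn
  set H : Subgroup (L ≃ₐ[ℚ] L) := K.fixingSubgroup.map (res L)
  have := finite_fixed_mod_units H
  let F : fixedBy H (idl L) := ⟨⟨f, idl_mono hKL hfK⟩, fun h hh => by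
    obtain ⟨s, hs, rfl⟩ := hh
    refine Subtype.ext ((coe_smul_idl L _ _ (rfl : res L s = _)).trans ?_)
    exact (mem_idl.1 hfK).2.2 s hs⟩
  set m := orderOf (QuotientGroup.mk F : fixedBy H (idl L) ⧸ unitsPrinFixed H) with hm
  have hm0 : 0 < m := by rw [hm]; exact orderOf_pos (G := fixedBy H (idl L) ⧸ unitsPrinFixed H) _
  have hFm : F ^ m ∈ unitsPrinFixed H := by
    rw [← QuotientGroup.eq_one_iff, QuotientGroup.mk_pow, pow_orderOf_eq_one]
  obtain ⟨u, hu, w, ⟨a, ha⟩, hua⟩ := Subgroup.mem_sup.mp hFm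
  change prinL L a = (w : idl L) at ha
  have haH : a ∈ fixedBy H Lˣ := prinL_mem_fixedBy_iff.1 (ha ▸ w.2)
  have haK : ((a : L) : QBar) ∈ K := by
    rw [← InfiniteGalois.fixedField_fixingSubgroup K, IntermediateField.mem_fixedField_iff]
    intro s hs
    exact (res_apply L s (a : L)).symm.trans
      (congrArg Subtype.val (congrArg Units.val (haH (res L s) ⟨s, hs, rfl⟩)))
  have hna : ∀ q' g, placeRep q' K g = g →
      ‖emb q' (g ((a : L) : QBar))‖ = ‖((z q' g : (Ω q')ˣ) : Ω q')‖ ^ m := by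
    intro q' g hg
    have h1 := congrArg (fun x : fixedBy H (idl L) => ((x : idl L) : PreIdele) q' g) hua
    simp only [Subgroup.coe_mul, Pi.mul_apply, SubmonoidClass.coe_pow, Pi.pow_apply, ← ha] at h1
    have hu1 : ‖((((u : idl L) : PreIdele) q' g : (Ω q')ˣ) : Ω q')‖ = 1 := by
      rw [← norm_val (u : idl L) q' (σ := res L g) rfl]
      exact (Local.mem_unitGroup _).mp (hu q' (res L g))
    have h2 := congrArg (fun x : (Ω q')ˣ => ‖(x : Ω q')‖) h1
    simp only [Units.val_mul, norm_mul, hu1, one_mul, Units.val_pow_eq_pow_val, norm_pow] at h2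
    exact h2.trans (congrArg (fun x : (Ω q')ˣ => ‖(x : Ω q')‖ ^ m) (glue_placeRep hz hg))
  refine ⟨Units.mk0 ((a : L) : QBar) fun h => a.ne_zero (Subtype.ext h), haK, ?_,
    fun q' g hg hne => ?_⟩
  · rw [Units.val_mk0, hna q c.out (placeRep_out c)]
    simp only [z, and_self, if_true, Units.val_mk0]
    rw [Ne, pow_eq_one_iff_of_nonneg (norm_nonneg _) hm0.ne',
      ← map_natCast (algebraMap ℚ_[(q : ℕ)] (Ω q)), norm_algebraMap', Padic.norm_p, inv_eq_one]
    exact_mod_cast q.2.ne_one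
  · rw [Units.val_mk0, hna q' g hg]
    simp only [z]
    rw [if_neg fun h => hne h.1 h.2, Units.val_one, norm_one, one_pow]

omit hp in
/-- The orders at the places over `S`. -/
theorem exists_ordHom (S : Finset Nat.Primes) (K : IntermediateField ℚ QBar)
    [FiniteDimensional ℚ K] :
    ∃ V : sUnits S K →* (SPlace S K → Multiplicative ℤ), ∀ (x : sUnits S K) (i : SPlace S K),
      V x i = 1 ↔ ‖emb i.1 (i.2.out ((x : QBarˣ) : QBar))‖ = 1 := by
  let d : SPlace S K → ℕ := fun i =>
    Module.finrank ℚ_[((i.1 : Nat.Primes) : ℕ)] (placeField i)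
  have hd : ∀ i, d i ≠ 0 := fun i => Module.finrank_pos.ne'
  have hex : ∀ (i : SPlace S K) (x : sUnits S K), ∃ n : ℤ,
      ‖emb i.1 (i.2.out ((x : QBarˣ) : QBar))‖ ^ d i = ((i.1 : Nat.Primes) : ℝ) ^ n := fun i x =>
    Local.exists_norm_pow_eq_zpow (placeField i)
      ⟨_, emb_mem_fieldAt i.2.out (sUnits_le S K x.2)⟩ fun h =>
        (Units.ne_zero (x : QBarˣ)) ((map_eq_zero _).mp ((map_eq_zero _).mp (congrArg Subtype.val h)))
  let V : sUnits S K →* (SPlace S K → Multiplicative ℤ) := MonoidHom.pi fun i =>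
    { toFun := fun x => Multiplicative.ofAdd
        (expAt i.1 (‖emb i.1 (i.2.out ((x : QBarˣ) : QBar))‖ ^ d i))
      map_one' := by
        have h1 : expAt (i.1 : Nat.Primes) (1 : ℝ) = 0 := by
          conv_lhs => rw [← zpow_zero (((i.1 : Nat.Primes) : ℕ) : ℝ)]
          exact expAt_zpow _ 0
        simp [h1]
      map_mul' := fun x y => by
        obtain ⟨a, ha⟩ := hex i x
        obtain ⟨b, hb⟩ := hex i y
        rw [← ofAdd_add, ha, hb, expAt_zpow, expAt_zpow]
        congr 1
        rw [Subgroup.coe_mul, Units.val_mul, map_mul, map_mul, norm_mul, mul_pow, ha, hb,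
          ← zpow_add₀ (Nat.cast_ne_zero.mpr (i.1 : Nat.Primes).2.ne_zero), expAt_zpow] }
  have hVval : ∀ (x : sUnits S K) (i : SPlace S K), V x i = Multiplicative.ofAdd
      (expAt i.1 (‖emb i.1 (i.2.out ((x : QBarˣ) : QBar))‖ ^ d i)) := fun _ _ => rfl
  have hV1 : ∀ (x : sUnits S K) (i : SPlace S K),
      V x i = 1 ↔ ‖emb i.1 (i.2.out ((x : QBarˣ) : QBar))‖ = 1 := fun x i => by
    obtain ⟨n, hn⟩ := hex i x
    rw [hVval, hn, expAt_zpow, ofAdd_eq_one]
    constructor
    · rintro rfl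
      rw [zpow_zero] at hn
      exact (pow_eq_one_iff_of_nonneg (norm_nonneg _) (hd i)).mp hn
    · intro h1
      rw [h1, one_pow, ← zpow_zero (((i.1 : Nat.Primes) : ℕ) : ℝ)] at hn
      exact (Local.zpow_inj_q hn).symm
  exact ⟨V, hV1⟩

include hp2 hζ hζK in
/-- `[U_S : U_S ^ p] = p ^ (#S + [K : ℚ] / 2)`. -/
theorem card_modP_sUnits (S : Finset Nat.Primes) [∀ q, Fintype (PlaceOver q K)] :
    Nat.card (ModP p (sUnits S K)) =
      p ^ ((∑ q ∈ S, Fintype.card (PlaceOver q K)) + Module.finrank ℚ K / 2) := by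
  classical
  obtain ⟨V, hV1⟩ := exists_ordHom S K
  have hrep : ∀ (x : QBarˣ), x ∈ unitsOf K → ∀ q g, ‖emb q (g (x : QBar))‖ =
      ‖emb q ((Quotient.mk (placeSetoid q K) g).out (x : QBar))‖ := fun x hx q g =>
    norm_value_eq (prin_mem_idl_iff.mpr hx) q g
  have hker : V.ker = (sUnits ∅ K).subgroupOf (sUnits S K) := by
    ext x
    rw [MonoidHom.mem_ker, Subgroup.mem_subgroupOf, funext_iff]
    constructor
    · intro h
      refine mem_sUnits.mpr ⟨(mem_sUnits.mp x.2).1, fun q _ g => ?_⟩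
      by_cases hq : q ∈ S
      · rw [hrep _ (mem_sUnits.mp x.2).1 q g]
        exact (hV1 x ⟨⟨q, hq⟩, _⟩).mp (h _)
      · exact (mem_sUnits.mp x.2).2 q hq g
    · exact fun h i => (hV1 x i).mpr ((mem_sUnits.mp h).2 _ (by simp) _)
  have hrange : V.range.index ≠ 0 := index_range_ne_zero_of_single V fun i => by
    obtain ⟨x, hxK, hxne, hxo⟩ := exists_norm_emb_eq_pow (i.1 : Nat.Primes) i.2
    have hxS : x ∈ sUnits S K := mem_sUnits.mpr ⟨hxK, fun q hq g => by
      rw [hrep x hxK q g]
      exact hxo q _ (placeRep_out _) fun h _ => hq (h ▸ i.1.2)⟩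
    have h1 := hV1 ⟨x, hxS⟩ i
    refine ⟨⟨x, hxS⟩, ?_, ?_⟩
    · intro h
      exact hxne (h1.mp h)
    intro j hj
    refine (hV1 ⟨x, hxS⟩ j).mpr ?_
    refine hxo _ _ (placeRep_out _) fun h e => hj ?_
    obtain ⟨⟨q, hq⟩, c⟩ := j
    obtain ⟨⟨q', hq'⟩, c'⟩ := i
    obtain rfl : q = q' := h
    have hcc : c = c' := by rw [← c.out_eq, ← c'.out_eq]; exact congrArg _ e
    rw [hcc]
  have h := index_range_pow_of_hom hp.out.ne_zero V hrange
  have hk : (powMonoidHom p : V.ker →* V.ker).range.index = p ^ (Module.finrank ℚ K / 2) := by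
    rw [hker, ← index_range_pow_sUnits_empty hp2 hζ hζK]
    have hle : sUnits ∅ K ≤ sUnits S K := fun x hx =>
      mem_sUnits.mpr ⟨(mem_sUnits.mp hx).1, fun q _ g => (mem_sUnits.mp hx).2 q (by simp) g⟩
    let e := Subgroup.subgroupOfEquivOfLe hle
    rw [← Subgroup.index_comap_of_surjective (f := e.toMonoidHom) _ e.surjective,
      ← range_pow_eq_comap p e]
  have hcard : Fintype.card (SPlace S K) = ∑ q ∈ S, Fintype.card (PlaceOver q K) := by
    rw [Fintype.card_sigma, Finset.sum_coe_sort S fun q => Fintype.card (PlaceOver q K)]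
  rw [hk, hcard, ← pow_add] at h
  exact h

include hp2 hζ hζK in
/-- A set containing `p` and generating the ideles modulo units is good. -/
theorem goodSet_of_gen {S : Finset Nat.Primes} (hpS : (⟨p, hp.out⟩ : Nat.Primes) ∈ S)
    (hgen : ∀ f ∈ idl K, ∃ c ∈ unitsOf K, f * prin c ∈ unitsOutside S K) : GoodSet p S K := by
  haveI : ∀ q, Fintype (PlaceOver q K) := fun q => Fintype.ofFinite _
  haveI : NumberField K := ⟨⟩
  have h2 : 2 < p := lt_of_le_of_ne hp.out.two_le hp2.symm
  have hζ' : IsPrimitiveRoot (⟨ζ, hζK⟩ : K) p :=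
    IsPrimitiveRoot.of_map_of_injective (f := K.val) hζ K.val.injective
  have hr0 := NumberField.InfinitePlace.IsPrimitiveRoot.nrRealPlaces_eq_zero_of_two_lt h2 hζ'
  have hn := NumberField.InfinitePlace.card_add_two_mul_card_eq_rank K
  refine ⟨hpS, hgen, ?_, ?_⟩
  · rw [card_modP_sUnits hp2 hζ hζK]
    exact pow_ne_zero _ hp.out.ne_zero
  · rw [card_modP_sUnits hp2 hζ hζK, relIndex_powAt hp2 hζ hζK hpS, ← pow_mul]
    congr 1
    omega

include hp2 hζ hζK in
/-- Every finite set of primes is contained in a good one. -/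
theorem exists_goodSet (T₀ : Finset Nat.Primes) :
    ∃ S : Finset Nat.Primes, T₀ ⊆ S ∧ GoodSet p S K := by
  classical
  let L : IntermediateField ℚ QBar := IntermediateField.normalClosure ℚ K QBar
  haveI : Normal ℚ L := normalClosure.normal ℚ K QBar
  obtain ⟨T, hT, h⟩ := exists_finset_idl_classes (L := L) K.le_normalClosure
    (insert (⟨p, hp.out⟩ : Nat.Primes) T₀)
  refine ⟨T, fun q hq => hT (Finset.mem_insert_of_mem hq),
    goodSet_of_gen hp2 hζ hζK (hT (Finset.mem_insert_self _ _)) fun f hf => ?_⟩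
  obtain ⟨c, hc, hcT⟩ := h f hf
  exact ⟨c, hc, mul_mem hf (prin_mem_idl_iff.mpr hc), hcT⟩

end Fermat.Agent.CFT.Idele
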