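import Fermat.Agent.CFT.Idele.Herbrand
import Mathlib.GroupTheory.PGroup
import Mathlib.GroupTheory.Index
import Mathlib.GroupTheory.IndexNormal
import Mathlib.Algebra.GroupWithZero.Action.Basic
import Mathlib.Algebra.BigOperators.GroupWithZero.Action

/-!
# Cohomologically trivial modules and steps of prime index

`NormOK H A`: invariants of `H` are norms and elements of norm one are products of `h f / f`.
For a step `K < H` of prime index `p` with generator `g`, the endomorphisms `x ↦ g x / x` and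
`x ↦ ∏_{i < p} g ^ i x` of the `K`-invariants.
-/

set_option autoImplicit false

noncomputable section

namespace Fermat.Agent.CFT.Idele

variable {G : Type*} [Group G] {A : Type*} [CommGroup A] [MulDistribMulAction G A]

/-- Invariants are norms and elements of norm one are products of `h f / f`. -/
structure NormOK (H : Subgroup G) [Fintype H] (D : Subgroup A) : Prop where
  surj : ∀ x ∈ D, (∀ h : H, (h : G) • x = x) → ∃ y ∈ D, ∏ h : H, (h : G) • y = x
  aug : ∀ x ∈ D, ∏ h : H, (h : G) • x = 1 →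
    ∃ f : H → A, (∀ h, f h ∈ D) ∧ ∏ h : H, (h : G) • f h / f h = x

/-- The elements fixed by `K`. -/
def fixedBy (K : Subgroup G) (A : Type*) [CommGroup A] [MulDistribMulAction G A] : Subgroup A where
  carrier := {x | ∀ k ∈ K, k • x = x}
  one_mem' k _ := smul_one k
  mul_mem' {x y} hx hy k hk := by rw [smul_mul', hx k hk, hy k hk]
  inv_mem' {x} hx k hk := by rw [smul_inv', hx k hk]

theorem mem_fixedBy {K : Subgroup G} {x : A} : x ∈ fixedBy K A ↔ ∀ k ∈ K, k • x = x := Iff.rfl

theorem fixedBy_anti {K H : Subgroup G} (h : K ≤ H) : fixedBy H A ≤ fixedBy K A :=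
  fun _ hx k hk => hx k (h hk)

theorem prod_smul_mem_fixedBy (K : Subgroup G) [Fintype K] (y : A) :
    ∏ k : K, (k : G) • y ∈ fixedBy K A := fun g hg => by
  rw [Finset.smul_prod']
  simp only [smul_smul]
  exact Fintype.prod_equiv (Equiv.mulLeft (⟨g, hg⟩ : K)) _ _ fun k => rfl

/-- A step of prime index. -/
structure Step (p : ℕ) (H K : Subgroup G) (g : G) : Prop where
  le : K ≤ H
  mem : g ∈ H
  notMem : g ∉ K
  relIndex : K.relIndex H = p
  pow_mem : g ^ p ∈ K
  conj : ∀ k ∈ K, g⁻¹ * k * g ∈ K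

theorem Step.of_isPGroup {p : ℕ} [hp : Fact p.Prime] {H K : Subgroup G} [Finite H] {g : G}
    (hle : K ≤ H) (hg : g ∈ H) (hgK : g ∉ K) (hH : IsPGroup p H) (hidx : K.relIndex H = p) :
    Step p H K g := by
  obtain ⟨n, hn⟩ := IsPGroup.iff_card.mp hH
  have hnor : (K.subgroupOf H).Normal := by
    refine Subgroup.normal_of_index_eq_minFac_card ?_
    have hdvd : p ∣ Nat.card H := by
      rw [← hidx]; exact Subgroup.index_dvd_card (K.subgroupOf H)
    rw [show (K.subgroupOf H).index = p from hidx, hn]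
    rw [hn] at hdvd
    rcases Nat.eq_zero_or_pos n with rfl | hn0
    · rw [pow_zero] at hdvd; exact absurd (Nat.dvd_one.1 hdvd) hp.out.ne_one
    · rw [Nat.Prime.pow_minFac hp.out hn0.ne']
  refine ⟨hle, hg, hgK, hidx, ?_, fun k hk => ?_⟩
  · have := Subgroup.pow_index_mem (K.subgroupOf H) (⟨g, hg⟩ : H)
    rw [show (K.subgroupOf H).index = p from hidx] at this
    exact Subgroup.mem_subgroupOf.mp this
  · have := hnor.conj_mem ⟨k, hle hk⟩ (Subgroup.mem_subgroupOf.mpr hk) (⟨g, hg⟩ : H)⁻¹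
    simpa [Subgroup.mem_subgroupOf, mul_assoc] using this

variable {p : ℕ} {H K : Subgroup G} {g : G} (st : Step p H K g)

section Basic

include st

theorem Step.pow_conj (i : ℕ) : ∀ k ∈ K, (g ^ i)⁻¹ * k * g ^ i ∈ K := by
  induction i with
  | zero => intro k hk; simpa using hk
  | succ i ih =>
    intro k hk
    have := st.conj _ (ih k hk)
    rw [pow_succ, mul_inv_rev]
    simpa [mul_assoc] using this

theorem Step.smul_mem {x : A} (hx : x ∈ fixedBy K A) (i : ℕ) : g ^ i • x ∈ fixedBy K A :=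
  fun k hk => by
    rw [smul_smul, show k * g ^ i = g ^ i * ((g ^ i)⁻¹ * k * g ^ i) by group, mul_smul,
      hx _ (st.pow_conj i k hk)]

theorem Step.pow_smul_self {x : A} (hx : x ∈ fixedBy K A) : g ^ p • x = x := hx _ st.pow_mem

theorem Step.prod_smul_comm {x : A} (hx : x ∈ fixedBy K A) :
    g • ∏ i ∈ Finset.range p, g ^ i • x = ∏ i ∈ Finset.range p, g ^ i • x := by
  rw [Finset.smul_prod']
  simp only [smul_smul, ← pow_succ']
  rcases Nat.eq_zero_or_pos p with h | h
  · subst h; rfl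
  · obtain ⟨n, hn⟩ := Nat.exists_eq_succ_of_ne_zero h.ne'
    have hp' := st.pow_smul_self hx
    rw [hn] at hp' ⊢
    rw [Finset.prod_range_succ, Finset.prod_range_succ' (fun i => g ^ i • x), hp', pow_zero,
      one_smul]

end Basic

variable (A) in
/-- `x ↦ g x / x` on the `K`-invariants. -/
def dStep (st : Step p H K g) : fixedBy K A →* fixedBy K A where
  toFun x := ⟨g • (x : A) / x, div_mem (by simpa using st.smul_mem x.2 1) x.2⟩
  map_one' := Subtype.ext (by simp)
  map_mul' x y := Subtype.ext (by simp [smul_mul', div_mul_div_comm])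

variable (A) in
/-- `x ↦ ∏_{i < p} g ^ i x` on the `K`-invariants. -/
def nStep (st : Step p H K g) : fixedBy K A →* fixedBy K A where
  toFun x := ⟨∏ i ∈ Finset.range p, g ^ i • (x : A),
    Subgroup.prod_mem _ fun i _ => st.smul_mem x.2 i⟩
  map_one' := Subtype.ext (by simp)
  map_mul' x y := Subtype.ext (by simp [smul_mul', Finset.prod_mul_distrib])

theorem dStep_coe (x : fixedBy K A) : (dStep A st x : A) = g • (x : A) / x := rfl

theorem nStep_coe (x : fixedBy K A) :
    (nStep A st x : A) = ∏ i ∈ Finset.range p, g ^ i • (x : A) := rfl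

theorem dStep_nStep (x : fixedBy K A) : dStep A st (nStep A st x) = 1 := by
  refine Subtype.ext ?_
  rw [dStep_coe, nStep_coe, st.prod_smul_comm x.2, div_self', OneMemClass.coe_one]

theorem nStep_dStep (x : fixedBy K A) : nStep A st (dStep A st x) = 1 := by
  refine Subtype.ext ?_
  rw [nStep_coe]
  simp only [dStep_coe, smul_div', smul_smul, ← pow_succ, Finset.prod_div_distrib]
  rw [div_eq_one.mpr, ] <;> try rfl
  rcases Nat.eq_zero_or_pos p with h | h
  · subst h; rfl
  · obtain ⟨n, rfl⟩ := Nat.exists_eq_succ_of_ne_zero h.ne'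
    rw [Finset.prod_range_succ, Finset.prod_range_succ' (fun i => g ^ i • (x : A)),
      st.pow_smul_self x.2, pow_zero, one_smul]

theorem mem_ker_dStep {x : fixedBy K A} : x ∈ (dStep A st).ker ↔ g • (x : A) = x := by
  rw [MonoidHom.mem_ker, Subtype.ext_iff, dStep_coe, OneMemClass.coe_one, div_eq_one]

include st in
theorem Step.eq_of_pow_div_mem [hp : Fact p.Prime] {i j : ℕ} (hi : i < p) (hj : j ≤ i)
    (h : (g ^ j)⁻¹ * g ^ i ∈ K) : i = j := by
  by_contra hne
  have hd : g ^ (i - j) ∈ K := by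
    rw [show g ^ i = g ^ j * g ^ (i - j) by rw [← pow_add, Nat.add_sub_cancel' hj],
      inv_mul_cancel_left] at h
    exact h
  have hco : Nat.Coprime p (i - j) := (hp.out.coprime_iff_not_dvd).2 fun hdvd =>
    absurd (Nat.le_of_dvd (by omega) hdvd) (by omega)
  refine st.notMem ?_
  have hb := Nat.gcd_eq_gcd_ab p (i - j)
  rw [hco.gcd_eq_one] at hb
  have : g ^ ((1 : ℕ) : ℤ) ∈ K := by
    rw [hb, zpow_add, zpow_mul, zpow_mul, zpow_natCast, zpow_natCast]
    exact mul_mem (zpow_mem st.pow_mem _) (zpow_mem hd _)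
  simpa using this

include st in
theorem Step.exists_pow_mul [hp : Fact p.Prime] {h : G} (hh : h ∈ H) :
    ∃ i < p, ∃ k ∈ K, h = g ^ i * k := by
  let f : Fin p → H ⧸ K.subgroupOf H := fun i =>
    QuotientGroup.mk ⟨g ^ (i : ℕ), _root_.pow_mem st.mem _⟩
  have hf : Function.Injective f := fun i j hij => by
    have h' := Subgroup.mem_subgroupOf.mp (QuotientGroup.eq.mp hij)
    simp only [Subgroup.coe_mul, InvMemClass.coe_inv] at h'
    rcases le_total (i : ℕ) j with hle | hle
    · exact Fin.ext (st.eq_of_pow_div_mem j.2 hle h').symm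
    · have := inv_mem h'
      rw [mul_inv_rev, inv_inv] at this
      exact Fin.ext (st.eq_of_pow_div_mem i.2 hle this)
  have hc : Nat.card (H ⧸ K.subgroupOf H) = p := st.relIndex
  have : Finite (H ⧸ K.subgroupOf H) := Nat.finite_of_card_ne_zero (by rw [hc]; exact hp.out.ne_zero)
  obtain ⟨i, hi⟩ := ((Nat.bijective_iff_injective_and_card f).mpr
    ⟨hf, by rw [hc, Nat.card_fin]⟩).2 (QuotientGroup.mk ⟨h, hh⟩)
  refine ⟨i, i.2, (g ^ (i : ℕ))⁻¹ * h, ?_, (mul_inv_cancel_left _ _).symm⟩
  exact Subgroup.mem_subgroupOf.mp (QuotientGroup.eq.mp hi)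

include st in
theorem Step.mem_fixedBy_iff [Fact p.Prime] {x : A} :
    x ∈ fixedBy H A ↔ x ∈ fixedBy K A ∧ g • x = x := by
  refine ⟨fun h => ⟨fixedBy_anti st.le h, h g st.mem⟩, fun ⟨hx, hg⟩ h hh => ?_⟩
  obtain ⟨i, -, k, hk, rfl⟩ := st.exists_pow_mul hh
  rw [mul_smul, hx k hk]
  exact (MulAction.stabilizer G x).pow_mem hg i

omit [MulDistribMulAction G A] in
include st in
theorem Step.prod_eq [Fact p.Prime] [Fintype H] [Fintype K] (f : G → A) :
    ∏ h : H, f h = ∏ i ∈ Finset.range p, ∏ k : K, f (g ^ i * k) := by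
  rw [← Fin.prod_univ_eq_prod_range (fun i => ∏ k : K, f (g ^ i * k)), ← Fintype.prod_prod_type']
  let F : Fin p × K → H := fun x =>
    ⟨g ^ (x.1 : ℕ) * x.2, mul_mem (_root_.pow_mem st.mem _) (st.le x.2.2)⟩
  have hF : Function.Bijective F := by
    refine ⟨?_, fun h => ?_⟩
    · rintro ⟨i, k⟩ ⟨j, k'⟩ hij
      have h' : g ^ (i : ℕ) * (k : G) = g ^ (j : ℕ) * k' := congrArg Subtype.val hij
      have hm : (g ^ (j : ℕ))⁻¹ * g ^ (i : ℕ) = (k' : G) * (k : G)⁻¹ := by
        rw [eq_mul_inv_iff_mul_eq, mul_assoc, h', inv_mul_cancel_left]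
      have hji : i = j := by
        rcases le_total (j : ℕ) i with hle | hle
        · exact Fin.ext (st.eq_of_pow_div_mem i.2 hle (hm ▸ mul_mem k'.2 (inv_mem k.2)))
        · refine Fin.ext (st.eq_of_pow_div_mem j.2 hle ?_).symm
          have := inv_mem (show (g ^ (j : ℕ))⁻¹ * g ^ (i : ℕ) ∈ K from
            hm ▸ mul_mem k'.2 (inv_mem k.2))
          simpa [mul_inv_rev] using this
      subst hji
      exact Prod.ext rfl (Subtype.ext (mul_left_cancel h'))
    · obtain ⟨i, hi, k, hk, e⟩ := st.exists_pow_mul h.2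
      exact ⟨(⟨i, hi⟩, ⟨k, hk⟩), Subtype.ext e.symm⟩
  exact (Fintype.prod_bijective F hF _ _ fun _ => rfl).symm

include st in
theorem Step.prod_conj [Fintype K] (i : ℕ) (y : A) :
    ∏ k : K, (k : G) • g ^ i • y = g ^ i • ∏ k : K, (k : G) • y := by
  rw [Finset.smul_prod']
  simp only [smul_smul]
  let F : K → K := fun k => ⟨(g ^ i)⁻¹ * k * g ^ i, st.pow_conj i k k.2⟩
  have hF : Function.Bijective F := Finite.injective_iff_bijective.1 fun a b hab =>
    Subtype.ext (by simpa [F] using hab)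
  refine Fintype.prod_bijective F hF _ _ fun k => ?_
  show _ = (g ^ i * ((g ^ i)⁻¹ * (k : G) * g ^ i)) • y
  congr 1; group

/-- The invariants of a subgroup of `A` inside `fixedBy K A`. -/
def subFixed (K : Subgroup G) (D : Subgroup A) : Subgroup (fixedBy K A) :=
  D.comap (fixedBy K A).subtype

theorem mem_subFixed {K : Subgroup G} {D : Subgroup A} {x : fixedBy K A} :
    x ∈ subFixed K D ↔ (x : A) ∈ D := Iff.rfl

variable {D : Subgroup A} (hD : ∀ (g : G), ∀ x ∈ D, g • x ∈ D)

include hD in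
theorem map_dStep_le : (subFixed K D).map (dStep A st) ≤ subFixed K D := by
  rintro _ ⟨x, hx, rfl⟩
  exact div_mem (hD g _ hx) hx

include hD in
theorem map_nStep_le : (subFixed K D).map (nStep A st) ≤ subFixed K D := by
  rintro _ ⟨x, hx, rfl⟩
  rw [mem_subFixed, nStep_coe]
  exact Subgroup.prod_mem _ fun i _ => hD _ _ hx

include hD in
theorem ind0Sub_of_normOK [hp : Fact p.Prime] [Fintype H] [Fintype K]
    (hH : NormOK H D) (hK : NormOK K D) :
    ind0Sub (dStep A st) (nStep A st) (subFixed K D) = 1 ∧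
      ind0Sub (nStep A st) (dStep A st) (subFixed K D) = 1 := by
  have hN : ∀ y : A, ∏ h : H, (h : G) • y =
      ∏ i ∈ Finset.range p, g ^ i • ∏ k : K, (k : G) • y := fun y => by
    rw [st.prod_eq fun h => h • y]
    exact Finset.prod_congr rfl fun i _ => by rw [Finset.smul_prod']; simp only [mul_smul]
  simp only [ind0Sub, Subgroup.relIndex_eq_one]
  constructor
  · rintro x ⟨hxD, hx⟩
    obtain ⟨y, hy, hyx⟩ := hH.surj _ hxD fun h =>
      (st.mem_fixedBy_iff.2 ⟨x.2, (mem_ker_dStep st).1 hx⟩) _ h.2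
    change _ = (x : A) at hyx
    refine ⟨⟨_, prod_smul_mem_fixedBy K y⟩, Subgroup.prod_mem _ fun k _ => hD _ _ hy, ?_⟩
    refine Subtype.ext ?_
    rw [nStep_coe, ← hyx, hN]
  · rintro x ⟨hxD, hx⟩
    obtain ⟨y, hy, hyx⟩ := hK.surj _ hxD fun k => x.2 _ k.2
    change _ = (x : A) at hyx
    obtain ⟨f, hf, hfy⟩ := hH.aug y hy (by
      rw [hN, hyx]; exact congrArg Subtype.val (MonoidHom.mem_ker.1 hx))
    have hx' : x = ∏ h : H, (⟨_, prod_smul_mem_fixedBy K ((h : G) • f h)⟩ : fixedBy K A) /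
        ⟨_, prod_smul_mem_fixedBy K (f h)⟩ := by
      refine Subtype.ext ?_
      simp only [SubmonoidClass.coe_finsetProd, SubgroupClass.coe_div]
      rw [← hyx, ← hfy]
      simp only [← Finset.prod_div_distrib, Finset.smul_prod', smul_div']
      exact Finset.prod_comm
    rw [hx']
    refine Subgroup.prod_mem _ fun h _ => ?_
    obtain ⟨i, -, k₀, hk₀, hhe⟩ := st.exists_pow_mul h.2
    set z : fixedBy K A := ⟨_, prod_smul_mem_fixedBy K (f h)⟩ with hz
    have hzD : (z : A) ∈ D := Subgroup.prod_mem _ fun k _ => hD _ _ (hf h)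
    have e : (∏ k : K, (k : G) • (h : G) • f h) = g ^ i • (z : A) := by
      rw [hhe, mul_smul, st.prod_conj]
      congr 1
      simp only [smul_smul]
      exact Fintype.prod_equiv (Equiv.mulRight (⟨k₀, hk₀⟩ : K)) _ _ fun k => rfl
    have e' : (⟨_, prod_smul_mem_fixedBy K ((h : G) • f h)⟩ : fixedBy K A) / z =
        dStep A st ⟨∏ j ∈ Finset.range i, g ^ j • (z : A),
          Subgroup.prod_mem _ fun j _ => st.smul_mem z.2 j⟩ := by
      refine Subtype.ext ?_
      show (∏ k : K, (k : G) • (h : G) • f h) / (z : A) = _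
      have t : g • ∏ j ∈ Finset.range i, g ^ j • (z : A) =
          ∏ j ∈ Finset.range i, g ^ (j + 1) • (z : A) :=
        Finset.smul_prod'.trans (Finset.prod_congr rfl fun j _ => by rw [smul_smul, ← pow_succ'])
      rw [e, dStep_coe, t, ← Finset.prod_div_distrib,
        Finset.prod_range_div (fun j => g ^ j • (z : A)), pow_zero, one_smul]
    rw [e']
    refine Subgroup.mem_map_of_mem _ ?_
    show (∏ j ∈ Finset.range i, g ^ j • (z : A)) ∈ D
    exact Subgroup.prod_mem D fun j _ => hD _ _ hzD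

end Fermat.Agent.CFT.Idele
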